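import Fermat.Agent.AV.Curve.ConstExt
import Fermat.Agent.Curve.ConstRed.Basic

/-!
# Gauss valuation rings of constant extensions

A valuation ring of `L` with residue field `κ` extends to the Gauss ring of `FL`, whose reduction
map takes values in a constant extension of `F` by `κ`.
-/

set_option autoImplicit false

noncomputable section

open AlgebraicCurve Module
open scoped TensorProduct

namespace FermatAgent.AV

/-- A valuation ring of `L` over `K` with a residue map to `κ`. -/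
structure RedDatum (K L κ : Type*) [Field K] [Field L] [Field κ] [Algebra K L] [Algebra K κ] where
  /-- the valuation ring -/
  V : ValuationSubring L
  algebraMap_mem : ∀ a : K, algebraMap K L a ∈ V
  /-- the residue map -/
  ρ : V →+* κ
  ρ_algebraMap : ∀ a : K, ρ ⟨_, algebraMap_mem a⟩ = algebraMap K κ a
  ρ_eq_zero_iff : ∀ a : V, ρ a = 0 ↔ ¬IsUnit a

variable {K F L FL κ Fk : Type*} [Field K] [Field F] [Field L] [Field FL] [Field κ] [Field Fk]
  [Algebra K F] [Algebra K L] [Algebra K κ]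
  [Algebra K FL] [Algebra F FL] [Algebra L FL] [IsScalarTower K F FL] [IsScalarTower K L FL]
  [Algebra K Fk] [Algebra F Fk] [Algebra κ Fk] [IsScalarTower K F Fk] [IsScalarTower K κ Fk]

namespace RedDatum

variable (R : RedDatum K L κ)

/-- The valuation ring as an algebra over `K`. -/
def alg : Subalgebra K L := { R.V.toSubring with algebraMap_mem' := R.algebraMap_mem }

/-- The residue map as a map of algebras. -/
def ρAlg : R.alg →ₐ[K] κ :=
  { toFun := fun a => R.ρ ⟨(a : L), a.2⟩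
    map_one' := R.ρ.map_one
    map_mul' := fun a b => R.ρ.map_mul ⟨(a : L), a.2⟩ ⟨(b : L), b.2⟩
    map_zero' := R.ρ.map_zero
    map_add' := fun a b => R.ρ.map_add ⟨(a : L), a.2⟩ ⟨(b : L), b.2⟩
    commutes' := R.ρ_algebraMap }

variable (F FL) in
/-- Multiplication on the integral tensors. -/
def mulHom : R.alg ⊗[K] F →ₐ[K] FL :=
  Algebra.TensorProduct.productMap ((IsScalarTower.toAlgHom K L FL).comp R.alg.val)
    (IsScalarTower.toAlgHom K F FL)

variable (F Fk) in
/-- Reduction on the integral tensors. -/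
def redT : R.alg ⊗[K] F →ₐ[K] Fk :=
  Algebra.TensorProduct.productMap ((IsScalarTower.toAlgHom K κ Fk).comp R.ρAlg)
    (IsScalarTower.toAlgHom K F Fk)

theorem mulHom_tmul (a : R.alg) (f : F) :
    R.mulHom F FL (a ⊗ₜ f) = algebraMap L FL (a : L) * algebraMap F FL f := by
  simp [mulHom]

theorem redT_tmul (a : R.alg) (f : F) :
    R.redT F Fk (a ⊗ₜ f) = algebraMap κ Fk (R.ρ ⟨(a : L), a.2⟩) * algebraMap F Fk f := by
  simp [redT, ρAlg]

variable (hL : IsConstExt K F L FL) (hk : IsConstExt K F κ Fk)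

include hL in
theorem mulHom_injective : Function.Injective (R.mulHom F FL) := by
  rw [injective_iff_map_eq_zero]
  intro t ht
  obtain ⟨n, a, f, hf, rfl⟩ := IsConstExt.exists_tensor_rep t
  simp only [map_sum, mulHom_tmul] at ht
  have h0 := hL.disjoint f hf (fun i => (a i : L)) ht
  have : a = 0 := funext fun i => Subtype.ext (congrFun h0 i)
  simp [this]

variable (F FL) in
theorem range_mulHom : (R.mulHom F FL).range = comb K F L FL R.alg ⊤ := by
  refine le_antisymm ?_ fun z hz => ?_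
  · rintro _ ⟨t, rfl⟩
    obtain ⟨n, a, f, -, rfl⟩ := IsConstExt.exists_tensor_rep t
    show R.mulHom F FL (∑ i, a i ⊗ₜ f i) ∈ comb K F L FL R.alg ⊤
    simp only [map_sum, mulHom_tmul]
    exact sum_mem_comb _ (fun i _ => (a i).2) fun _ _ => trivial
  · obtain ⟨n, a, f, ha, -, rfl⟩ := exists_rep hz
    exact ⟨∑ i, (⟨a i, ha i⟩ : R.alg) ⊗ₜ f i, by simp [mulHom_tmul]⟩

variable (Fk) in
/-- Reduction of the integral combinations. -/
def red₀ : comb K F L FL R.alg ⊤ →ₐ[K] Fk :=
  (R.redT F Fk).comp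
    (((AlgEquiv.ofInjective (R.mulHom F FL) (R.mulHom_injective hL)).trans
      (Subalgebra.equivOfEq _ _ (R.range_mulHom F FL))).symm.toAlgHom)

theorem red₀_sum {n : ℕ} {a : Fin n → L} (ha : ∀ i, a i ∈ R.V) (f : Fin n → F)
    (hm : ∑ i, algebraMap L FL (a i) * algebraMap F FL (f i) ∈ comb K F L FL R.alg ⊤) :
    R.red₀ Fk hL ⟨_, hm⟩ = ∑ i, algebraMap κ Fk (R.ρ ⟨a i, ha i⟩) * algebraMap F Fk (f i) := by
  set e := (AlgEquiv.ofInjective (R.mulHom F FL) (R.mulHom_injective hL)).trans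
      (Subalgebra.equivOfEq _ _ (R.range_mulHom F FL))
  have h : e.symm ⟨_, hm⟩ = ∑ i, (⟨a i, ha i⟩ : R.alg) ⊗ₜ[K] f i := by
    rw [AlgEquiv.symm_apply_eq]
    exact Subtype.ext (by
      show _ = R.mulHom F FL (∑ i, (⟨a i, ha i⟩ : R.alg) ⊗ₜ[K] f i)
      simp [mulHom_tmul])
  show R.redT F Fk (e.symm ⟨_, hm⟩) = _
  rw [h, map_sum]
  exact Finset.sum_congr rfl fun i _ => R.redT_tmul _ _

theorem red₀_algebraMap_left (a : R.V)
    (hm : algebraMap L FL (a : L) ∈ comb K F L FL R.alg ⊤) :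
    R.red₀ Fk hL ⟨_, hm⟩ = algebraMap κ Fk (R.ρ a) := by
  have h := R.red₀_sum (Fk := Fk) hL (n := 1) (a := fun _ => (a : L)) (fun _ => a.2) (fun _ => 1)
    (by simpa using hm)
  simpa using h

theorem red₀_algebraMap_right (f : F)
    (hm : algebraMap F FL f ∈ comb K F L FL R.alg ⊤) :
    R.red₀ Fk hL ⟨_, hm⟩ = algebraMap F Fk f := by
  have h := R.red₀_sum (Fk := Fk) hL (n := 1) (a := fun _ => 1) (fun _ => R.V.one_mem) (fun _ => f)
    (by simpa using hm)
  have h1 : R.ρ ⟨(1 : L), R.V.one_mem⟩ = 1 := R.ρ.map_one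
  simpa [h1] using h

include hk in
/-- An element is a scalar times one with nonzero reduction. -/
theorem exists_primitive {S : Subalgebra K F} {z : FL} (hz : z ∈ comb K F L FL ⊤ S) (hz0 : z ≠ 0) :
    ∃ (l : L) (z' : comb K F L FL R.alg ⊤), l ≠ 0 ∧ (z' : FL) ∈ comb K F L FL R.alg S ∧
      R.red₀ Fk hL z' ≠ 0 ∧ z = algebraMap L FL l * (z' : FL) := by
  obtain ⟨n, a, f, hf, -, hfS, rfl⟩ := exists_indep_rep hz
  have ha : a ≠ 0 := by rintro rfl; exact hz0 (by simp)
  obtain ⟨i₀, hl, hmem⟩ := exists_pivot (A := R.V) ha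
  have hS : ∑ i, algebraMap L FL (a i / a i₀) * algebraMap F FL (f i) ∈
      comb K F L FL R.alg S := sum_mem_comb _ (fun i _ => hmem i) fun i _ => hfS i
  refine ⟨a i₀, ⟨_, comb_mono le_rfl le_top hS⟩, hl, hS, fun h0 => ?_, ?_⟩
  · rw [R.red₀_sum hL hmem] at h0
    have h1 := congrFun (hk.disjoint f hf _ h0) i₀
    rw [show (⟨a i₀ / a i₀, hmem i₀⟩ : R.V) = 1 from Subtype.ext (div_self hl), map_one] at h1
    exact one_ne_zero h1
  · rw [Finset.mul_sum]
    exact Finset.sum_congr rfl fun i _ => by rw [← mul_assoc, ← map_mul, mul_div_cancel₀ _ hl]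

variable (Fk) in
/-- `z = u / d` with `d` of nonzero reduction. -/
def IsRed (z : FL) (w : Fk) : Prop :=
  ∃ u d : comb K F L FL R.alg ⊤, R.red₀ Fk hL d ≠ 0 ∧ z * (d : FL) = (u : FL) ∧
    w * R.red₀ Fk hL d = R.red₀ Fk hL u

variable {R hL} in
theorem IsRed.unique {z : FL} {w w' : Fk} (h : R.IsRed Fk hL z w) (h' : R.IsRed Fk hL z w') :
    w = w' := by
  obtain ⟨u, d, hd, he, hw⟩ := h
  obtain ⟨u', d', hd', he', hw'⟩ := h'
  have h1 : u * d' = u' * d := Subtype.ext (by
    rw [MulMemClass.coe_mul, MulMemClass.coe_mul, ← he, ← he']; ring)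
  have h2 := congrArg (R.red₀ Fk hL) h1
  rw [map_mul, map_mul, ← hw, ← hw'] at h2
  exact mul_right_cancel₀ (mul_ne_zero hd hd') (by linear_combination h2)

variable {R hL} in
theorem IsRed.add {z z' : FL} {w w' : Fk} (h : R.IsRed Fk hL z w) (h' : R.IsRed Fk hL z' w') :
    R.IsRed Fk hL (z + z') (w + w') := by
  obtain ⟨u, d, hd, he, hw⟩ := h
  obtain ⟨u', d', hd', he', hw'⟩ := h'
  refine ⟨u * d' + u' * d, d * d', by rw [map_mul]; exact mul_ne_zero hd hd', ?_, ?_⟩
  · simp only [AddMemClass.coe_add, MulMemClass.coe_mul]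
    rw [← he, ← he']; ring
  · simp only [map_add, map_mul]
    rw [← hw, ← hw']; ring

variable {R hL} in
theorem IsRed.mul {z z' : FL} {w w' : Fk} (h : R.IsRed Fk hL z w) (h' : R.IsRed Fk hL z' w') :
    R.IsRed Fk hL (z * z') (w * w') := by
  obtain ⟨u, d, hd, he, hw⟩ := h
  obtain ⟨u', d', hd', he', hw'⟩ := h'
  refine ⟨u * u', d * d', by rw [map_mul]; exact mul_ne_zero hd hd', ?_, ?_⟩
  · simp only [MulMemClass.coe_mul]
    rw [← he, ← he']; ring
  · simp only [map_mul]
    rw [← hw, ← hw']; ring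

theorem isRed_comb (u : comb K F L FL R.alg ⊤) : R.IsRed Fk hL (u : FL) (R.red₀ Fk hL u) :=
  ⟨u, 1, by rw [map_one]; exact one_ne_zero, by rw [OneMemClass.coe_one, mul_one],
    by rw [map_one, mul_one]⟩

theorem isRed_zero : R.IsRed Fk hL (0 : FL) 0 := by
  simpa using R.isRed_comb (Fk := Fk) hL 0

theorem isRed_one : R.IsRed Fk hL (1 : FL) 1 := by
  simpa using R.isRed_comb (Fk := Fk) hL 1

theorem isRed_neg {z : FL} {w : Fk} (h : R.IsRed Fk hL z w) : R.IsRed Fk hL (-z) (-w) := by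
  have := (R.isRed_comb (Fk := Fk) hL (-1)).mul h
  simpa using this

/-- **The Gauss valuation ring.** -/
def gauss : ValuationSubring FL where
  carrier := {z | ∃ w, R.IsRed Fk hL z w}
  mul_mem' := fun ⟨_, h⟩ ⟨_, h'⟩ => ⟨_, h.mul h'⟩
  one_mem' := ⟨_, R.isRed_one hL⟩
  add_mem' := fun ⟨_, h⟩ ⟨_, h'⟩ => ⟨_, h.add h'⟩
  zero_mem' := ⟨_, R.isRed_zero hL⟩
  neg_mem' := fun ⟨_, h⟩ => ⟨_, R.isRed_neg hL h⟩
  mem_or_inv_mem' z := by
    rcases eq_or_ne z 0 with rfl | hz0
    · exact Or.inl ⟨_, R.isRed_zero hL⟩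
    obtain ⟨u, hu, d, hd, hd0, he⟩ := hL.exists_frac z
    have hu0 : u ≠ 0 := he ▸ mul_ne_zero hz0 hd0
    obtain ⟨l, u', hl, -, hu', rfl⟩ := R.exists_primitive hL hk hu hu0
    obtain ⟨m, d', hm, -, hd', rfl⟩ := R.exists_primitive hL hk hd hd0
    have hlF : algebraMap L FL l ≠ 0 := (_root_.map_ne_zero _).2 hl
    have hmF : algebraMap L FL m ≠ 0 := (_root_.map_ne_zero _).2 hm
    have hd'0 : (d' : FL) ≠ 0 := right_ne_zero_of_mul hd0
    have hu'0 : (u' : FL) ≠ 0 := right_ne_zero_of_mul hu0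
    rcases R.V.mem_or_inv_mem (l / m) with h | h
    · refine Or.inl ⟨_, ⟨⟨_, algebraMap_left_mem_comb h⟩ * u', d', hd', ?_,
        div_mul_cancel₀ _ hd'⟩⟩
      show z * (d' : FL) = algebraMap L FL (l / m) * (u' : FL)
      rw [map_div₀]; field_simp; linear_combination he
    · rw [inv_div] at h
      refine Or.inr ⟨_, ⟨⟨_, algebraMap_left_mem_comb h⟩ * d', u', hu', ?_,
        div_mul_cancel₀ _ hu'⟩⟩
      show z⁻¹ * (u' : FL) = algebraMap L FL (m / l) * (d' : FL)
      rw [map_div₀]; field_simp; linear_combination -he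

theorem isRed_choose (z : R.gauss hL hk) : R.IsRed Fk hL (z : FL) z.2.choose :=
  z.2.choose_spec

/-- **Reduction.** -/
def red : R.gauss hL hk →+* Fk where
  toFun z := z.2.choose
  map_one' := (R.isRed_choose hL hk _).unique (R.isRed_one hL)
  map_mul' z z' := (R.isRed_choose hL hk _).unique
    ((R.isRed_choose hL hk z).mul (R.isRed_choose hL hk z'))
  map_zero' := (R.isRed_choose hL hk _).unique (R.isRed_zero hL)
  map_add' z z' := (R.isRed_choose hL hk _).unique
    ((R.isRed_choose hL hk z).add (R.isRed_choose hL hk z'))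

theorem comb_le_gauss {z : FL} (hz : z ∈ comb K F L FL R.alg ⊤) : z ∈ R.gauss hL hk :=
  ⟨_, R.isRed_comb hL ⟨z, hz⟩⟩

theorem red_comb (u : comb K F L FL R.alg ⊤) :
    R.red hL hk ⟨(u : FL), R.comb_le_gauss hL hk u.2⟩ = R.red₀ Fk hL u :=
  (R.isRed_choose hL hk _).unique (R.isRed_comb hL u)

theorem algebraMap_mem_gauss (a : R.V) : algebraMap L FL (a : L) ∈ R.gauss hL hk :=
  R.comb_le_gauss hL hk (algebraMap_left_mem_comb a.2)

theorem red_algebraMap_left (a : R.V) :
    R.red hL hk ⟨_, R.algebraMap_mem_gauss hL hk a⟩ = algebraMap κ Fk (R.ρ a) :=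
  (R.red_comb hL hk ⟨_, algebraMap_left_mem_comb a.2⟩).trans (R.red₀_algebraMap_left hL a _)

theorem algebraMap_right_mem_gauss (f : F) : algebraMap F FL f ∈ R.gauss hL hk :=
  R.comb_le_gauss hL hk (algebraMap_right_mem_comb trivial)

theorem red_algebraMap_right (f : F) :
    R.red hL hk ⟨_, R.algebraMap_right_mem_gauss hL hk f⟩ = algebraMap F Fk f :=
  (R.red_comb hL hk ⟨_, algebraMap_right_mem_comb trivial⟩).trans (R.red₀_algebraMap_right hL f _)

theorem red_mul_left (a : R.V) (z : R.gauss hL hk) :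
    R.red hL hk (⟨_, R.algebraMap_mem_gauss hL hk a⟩ * z) = R.ρ a • R.red hL hk z := by
  rw [map_mul, red_algebraMap_left, Algebra.smul_def]

theorem mem_of_scalar {l : L} {g : R.gauss hL hk} (hg : R.red hL hk g ≠ 0)
    (h : algebraMap L FL l * (g : FL) ∈ R.gauss hL hk) : l ∈ R.V := by
  by_contra hl
  obtain ⟨μ, hμ, hμ0⟩ := exists_inv_eq_zero R.ρ_eq_zero_iff hl
  refine hg ?_
  have hl0 : l ≠ 0 := fun h0 => hl (h0 ▸ R.V.zero_mem)
  have e : g = ⟨_, R.algebraMap_mem_gauss hL hk μ⟩ * ⟨_, h⟩ := Subtype.ext (by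
    show (g : FL) = algebraMap L FL (μ : L) * (algebraMap L FL l * (g : FL))
    rw [← mul_assoc, ← map_mul, hμ, inv_mul_cancel₀ hl0, map_one, one_mul])
  rw [e, red_mul_left, hμ0, zero_smul]

theorem algebraMap_mem_gauss_iff {l : L} : algebraMap L FL l ∈ R.gauss hL hk ↔ l ∈ R.V :=
  ⟨fun h => R.mem_of_scalar hL hk (g := 1) (by rw [map_one]; exact one_ne_zero)
    (by simpa using h), fun h => R.algebraMap_mem_gauss hL hk ⟨l, h⟩⟩

include hk in
/-- Integral combinations with coefficients anywhere have integral coefficients. -/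
theorem mem_comb_of_mem_gauss {S : Subalgebra K F} {z : FL} (hz : z ∈ comb K F L FL ⊤ S)
    (hG : z ∈ R.gauss hL hk) : z ∈ comb K F L FL R.alg S := by
  rcases eq_or_ne z 0 with rfl | hz0
  · exact zero_mem _
  obtain ⟨l, z', hl, hS, hne, rfl⟩ := R.exists_primitive hL hk hz hz0
  exact Subalgebra.mul_mem _ (algebraMap_left_mem_comb
    (R.mem_of_scalar hL hk (g := ⟨_, R.comb_le_gauss hL hk z'.2⟩)
      (by rwa [red_comb]) hG)) hS

theorem exists_scalar_mul {z : FL} (hz : z ≠ 0) :
    ∃ (l : L) (g : R.gauss hL hk), l ≠ 0 ∧ R.red hL hk g ≠ 0 ∧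
      z = algebraMap L FL l * (g : FL) := by
  obtain ⟨u, hu, d, hd, hd0, he⟩ := hL.exists_frac z
  have hu0 : u ≠ 0 := he ▸ mul_ne_zero hz hd0
  obtain ⟨l, u', hl, -, hu', rfl⟩ := R.exists_primitive hL hk hu hu0
  obtain ⟨m, d', hm, -, hd', rfl⟩ := R.exists_primitive hL hk hd hd0
  have hd'0 : (d' : FL) ≠ 0 := right_ne_zero_of_mul hd0
  have hmF : algebraMap L FL m ≠ 0 := (_root_.map_ne_zero _).2 hm
  have hg : R.IsRed Fk hL ((u' : FL) / d') (R.red₀ Fk hL u' / R.red₀ Fk hL d') :=
    ⟨u', d', hd', div_mul_cancel₀ _ hd'0, div_mul_cancel₀ _ hd'⟩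
  refine ⟨l / m, ⟨_, _, hg⟩, div_ne_zero hl hm, ?_, ?_⟩
  · rw [show R.red hL hk ⟨(u' : FL) / d', _, hg⟩ = _ from (R.isRed_choose hL hk _).unique hg]
    exact div_ne_zero hu' hd'
  · rw [eq_div_of_mul_eq hd0 he, map_div₀]
    field_simp

/-- Families with independent reductions are independent, with integral coefficients. -/
theorem coeff_mem {n : ℕ} {b : Fin n → R.gauss hL hk}
    (hb : LinearIndependent κ fun i => R.red hL hk (b i)) {c : Fin n → L}
    (hc : ∑ i, c i • (b i : FL) ∈ R.gauss hL hk) : ∀ i, c i ∈ R.V := by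
  by_cases h0 : c = 0
  · intro i; rw [h0]; exact R.V.zero_mem
  obtain ⟨i₀, hl, hmem⟩ := exists_pivot (A := R.V) h0
  set g : R.gauss hL hk := ∑ i, ⟨_, R.algebraMap_mem_gauss hL hk ⟨_, hmem i⟩⟩ * b i
  have hg : R.red hL hk g ≠ 0 := fun h => by
    simp only [g, map_sum] at h
    rw [Finset.sum_congr rfl fun i _ => R.red_mul_left hL hk ⟨_, hmem i⟩ (b i)] at h
    have h1 := Fintype.linearIndependent_iff.1 hb _ h i₀
    rw [show (⟨c i₀ / c i₀, hmem i₀⟩ : R.V) = 1 from Subtype.ext (div_self hl), map_one] at h1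
    exact one_ne_zero h1
  have hgc : algebraMap L FL (c i₀) * (g : FL) = ∑ i, c i • (b i : FL) := by
    rw [AddSubmonoidClass.coe_finsetSum, Finset.mul_sum]
    refine Finset.sum_congr rfl fun i _ => ?_
    rw [MulMemClass.coe_mul, ← mul_assoc, ← map_mul, mul_div_cancel₀ _ hl, Algebra.smul_def]
  have := R.mem_of_scalar hL hk hg (hgc ▸ hc)
  intro i
  simpa [div_mul_cancel₀ _ hl] using R.V.mul_mem _ _ (hmem i) this

theorem linearIndependent_of_red {n : ℕ} {b : Fin n → R.gauss hL hk}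
    (hb : LinearIndependent κ fun i => R.red hL hk (b i)) :
    LinearIndependent L fun i => (b i : FL) := by
  rw [Fintype.linearIndependent_iff]
  intro c hc
  by_contra hne
  push Not at hne
  obtain ⟨j, hj⟩ := hne
  have hall : ∀ l : L, l ∈ R.V := fun l => by
    have := R.coeff_mem hL hk hb (c := fun i => l / c j * c i) (by
      rw [show (∑ i, (l / c j * c i) • (b i : FL)) = (l / c j) • ∑ i, c i • (b i : FL) by
        simp [Finset.smul_sum, mul_smul], hc, smul_zero]
      exact zero_mem _) j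
    rwa [div_mul_cancel₀ _ hj] at this
  have h1 := R.coeff_mem hL hk hb (c := c) (by rw [hc]; exact zero_mem _)
  have h2 : ∑ i, R.ρ ⟨c i, h1 i⟩ • R.red hL hk (b i) = 0 := by
    simp only [← red_mul_left, ← map_sum]
    rw [← map_zero (R.red hL hk)]
    refine congrArg _ (Subtype.ext ?_)
    simpa [AddSubmonoidClass.coe_finsetSum, Algebra.smul_def] using hc
  have h3 := Fintype.linearIndependent_iff.1 hb _ h2 j
  exact (R.ρ_eq_zero_iff _).1 h3 (isUnit_iff_exists_inv.2
    ⟨⟨(c j)⁻¹, hall _⟩, Subtype.ext (mul_inv_cancel₀ hj)⟩)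

/-- **Lattices in finite-dimensional subspaces.** -/
theorem exists_lattice (M : Submodule L FL) [Module.Finite L M] :
    ∃ b : Fin (finrank L M) → R.gauss hL hk, (∀ i, (b i : FL) ∈ M) ∧
      LinearIndependent κ fun i => R.red hL hk (b i) := by
  classical
  let e := Module.finBasis L M
  choose u hu d hd hd0 he using fun i => hL.exists_frac ((e i : M) : FL)
  set q : FL := ∏ i, d i
  have hq : q ∈ comb K F L FL ⊤ ⊤ := prod_mem fun i _ => hd i
  have hq0 : q ≠ 0 := Finset.prod_ne_zero_iff.2 fun i _ => hd0 i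
  obtain ⟨m, q', hm, -, hq', hqe⟩ := R.exists_primitive hL hk hq hq0
  have hq'0 : (q' : FL) ≠ 0 := right_ne_zero_of_mul (hqe ▸ hq0)
  have hmem : ∀ i, ((e i : M) : FL) * (q' : FL) ∈ comb K F L FL ⊤ ⊤ := fun i => by
    have h1 : ((e i : M) : FL) * q = u i * ∏ j ∈ Finset.univ.erase i, d j := by
      rw [← he i, mul_assoc, Finset.mul_prod_erase _ _ (Finset.mem_univ i)]
    have h2 : ((e i : M) : FL) * (q' : FL) =
        algebraMap L FL m⁻¹ * (u i * ∏ j ∈ Finset.univ.erase i, d j) := by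
      rw [← h1, hqe, map_inv₀]
      field_simp [(_root_.map_ne_zero (algebraMap L FL)).2 hm]
    rw [h2]
    exact mul_mem (algebraMap_left_mem_comb trivial) (mul_mem (hu i) (prod_mem fun j _ => hd j))
  choose N a f ha hf hrep using fun i => exists_rep (hmem i)
  set U : Submodule K F := Submodule.span K (⋃ i, Set.range (f i))
  have : Module.Finite K U :=
    Module.Finite.span_of_finite K (Set.finite_iUnion fun i => Set.finite_range _)
  let β := Module.finBasis K U
  set P : (Fin (finrank K U) → L) →ₗ[L] FL :=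
    Fintype.linearCombination L fun j => algebraMap F FL (β j : F)
  have hP : Function.Injective P := by
    rw [injective_iff_map_eq_zero]
    intro c hc
    exact hL.disjoint _ (β.linearIndependent.map' U.subtype U.ker_subtype) c
      (by simpa [P, Fintype.linearCombination_apply, Algebra.smul_def] using hc)
  have hfU : ∀ f₀ ∈ U, algebraMap F FL f₀ ∈ LinearMap.range P := by
    intro f₀ h₀
    refine ⟨fun j => algebraMap K L (β.repr ⟨f₀, h₀⟩ j), ?_⟩
    have h := congrArg (fun v : U => algebraMap F FL (v : F)) (β.sum_repr ⟨f₀, h₀⟩)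
    refine Eq.trans ?_ h
    simp only [P, Fintype.linearCombination_apply, AddSubmonoidClass.coe_finsetSum, map_sum,
      SetLike.val_smul, Algebra.smul_def, map_mul, ← IsScalarTower.algebraMap_apply]
  set W : Submodule L (Fin (finrank K U) → L) :=
    (M.map (LinearMap.mulRight L (q' : FL))).comap P
  have hMP : M.map (LinearMap.mulRight L (q' : FL)) ≤ LinearMap.range P := by
    have htop : M = Submodule.span L (Set.range fun i => ((e i : M) : FL)) := by
      have := congrArg (Submodule.map M.subtype) e.span_eq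
      rw [Submodule.map_top, Submodule.range_subtype, Submodule.map_span, ← Set.range_comp] at this
      exact this.symm
    rw [htop, Submodule.map_span, Submodule.span_le]
    rintro _ ⟨_, ⟨i, rfl⟩, rfl⟩
    show ((e i : M) : FL) * (q' : FL) ∈ LinearMap.range P
    rw [hrep i]
    refine Submodule.sum_mem _ fun j _ => ?_
    rw [← Algebra.smul_def]
    exact Submodule.smul_mem _ _ (hfU _ (Submodule.subset_span (Set.mem_iUnion.2 ⟨i, j, rfl⟩)))
  have hW : finrank L W = finrank L M := by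
    rw [(Submodule.equivMapOfInjective P hP W).finrank_eq, Submodule.map_comap_eq,
      inf_eq_right.2 hMP]
    exact ((Submodule.equivMapOfInjective _ (mul_left_injective₀ hq'0) M).finrank_eq).symm
  obtain ⟨b, hbW, hbi⟩ := Curve.exists_residual_basis R.ρ (finrank L M) W hW
  have hcomb : ∀ i, P (fun j => ((b i j : R.V) : L)) ∈ comb K F L FL R.alg ⊤ := fun i => by
    rw [Fintype.linearCombination_apply]
    simp only [Algebra.smul_def]
    exact sum_mem_comb _ (fun j _ => (b i j).2) fun _ _ => trivial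
  have hg : ∀ i, R.IsRed Fk hL (P (fun j => ((b i j : R.V) : L)) / (q' : FL))
      (R.red₀ Fk hL ⟨_, hcomb i⟩ / R.red₀ Fk hL q') :=
    fun i => ⟨⟨_, hcomb i⟩, q', hq', div_mul_cancel₀ _ hq'0, div_mul_cancel₀ _ hq'⟩
  refine ⟨fun i => ⟨_, _, hg i⟩, fun i => ?_, ?_⟩
  · obtain ⟨y, hy, hye⟩ := hbW i
    show P _ / (q' : FL) ∈ M
    rw [← hye]
    show y * (q' : FL) / q' ∈ M
    rwa [mul_div_assoc, div_self hq'0, mul_one]
  · simp only [show ∀ i, R.red hL hk ⟨_, _, hg i⟩ = _ from
      fun i => (R.isRed_choose hL hk _).unique (hg i)]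
    have hred : ∀ i, R.red₀ Fk hL ⟨_, hcomb i⟩ =
        ∑ j, R.ρ (b i j) • algebraMap F Fk (β j : F) := fun i => by
      have he' : P (fun j => ((b i j : R.V) : L)) =
          ∑ j, algebraMap L FL (b i j : L) * algebraMap F FL (β j : F) := by
        simp [P, Fintype.linearCombination_apply, Algebra.smul_def]
      have := R.red₀_sum (Fk := Fk) hL (a := fun j => (b i j : L)) (fun j => (b i j).2)
        (fun j => (β j : F)) (he' ▸ hcomb i)
      simp only [Algebra.smul_def]
      refine Eq.trans (congrArg _ (Subtype.ext he')) this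
    have hind := hk.linearIndependent (β.linearIndependent.map' U.subtype U.ker_subtype)
    rw [Fintype.linearIndependent_iff]
    intro c hc i
    simp only [div_eq_mul_inv, ← smul_mul_assoc, ← Finset.sum_mul, mul_eq_zero, inv_eq_zero, hq',
      or_false, hred, Finset.smul_sum, smul_smul] at hc
    rw [Finset.sum_comm] at hc
    simp only [← Finset.sum_smul] at hc
    have h1 := Fintype.linearIndependent_iff.1 hind _ hc
    exact Fintype.linearIndependent_iff.1 hbi c (funext fun j => by simpa [mul_comm] using h1 j) i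

end RedDatum

end FermatAgent.AV
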