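import Fermat.Agent.AV.Places
import Fermat.Agent.AV.Curve.Gauss

/-!
# The standard constant extension, and spots as reduction data

The fraction field of `L ⊗[K] F` is a constant extension of `F` by `L`; a spot with values in a
field `κ` is the datum of a Gauss ring in it, reducing to a constant extension of `F` by `κ`.
-/

set_option autoImplicit false

noncomputable section

universe u

open scoped TensorProduct

namespace FermatAgent.AV

variable (K : Type u) [Field K] [IsAlgClosed K] (F : Type u) [Field F] [Algebra K F]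
  (L : Type u) [Field L] [Algebra K L]

/-- `F` with constants extended from `K` to `L`. -/
def CExt : Type u := FractionRing (L ⊗[K] F)

instance : Field (CExt K F L) := inferInstanceAs (Field (FractionRing (L ⊗[K] F)))

namespace CExt

/-- Tensors as elements. -/
def ofTensor : L ⊗[K] F →+* CExt K F L := algebraMap (L ⊗[K] F) (FractionRing (L ⊗[K] F))

theorem ofTensor_injective : Function.Injective (ofTensor K F L) :=
  IsFractionRing.injective (L ⊗[K] F) (FractionRing (L ⊗[K] F))

instance instAlgebraLeft : Algebra L (CExt K F L) :=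
  ((ofTensor K F L).comp (Algebra.TensorProduct.includeLeftRingHom)).toAlgebra

instance instAlgebraRight : Algebra F (CExt K F L) :=
  ((ofTensor K F L).comp
    (Algebra.TensorProduct.includeRight : F →ₐ[K] L ⊗[K] F).toRingHom).toAlgebra

instance instAlgebraBase : Algebra K (CExt K F L) :=
  ((algebraMap L (CExt K F L)).comp (algebraMap K L)).toAlgebra

instance : IsScalarTower K L (CExt K F L) := IsScalarTower.of_algebraMap_eq fun _ => rfl

instance : IsScalarTower K F (CExt K F L) := IsScalarTower.of_algebraMap_eq fun a => by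
  show ofTensor K F L (algebraMap K L a ⊗ₜ[K] (1 : F)) =
    ofTensor K F L ((1 : L) ⊗ₜ[K] algebraMap K F a)
  rw [Algebra.algebraMap_eq_smul_one, Algebra.algebraMap_eq_smul_one, TensorProduct.smul_tmul]

theorem ofTensor_tmul (a : L) (f : F) : ofTensor K F L (a ⊗ₜ f) =
    algebraMap L (CExt K F L) a * algebraMap F (CExt K F L) f := by
  show _ = ofTensor K F L (a ⊗ₜ[K] (1 : F)) * ofTensor K F L ((1 : L) ⊗ₜ[K] f)
  rw [← map_mul, Algebra.TensorProduct.tmul_mul_tmul, mul_one, one_mul]

/-- The fraction field of `L ⊗[K] F` is a constant extension of `F` by `L`: it is generated by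
both, linearly disjoint over `K`. -/
theorem isConstExt : IsConstExt K F L (CExt K F L) where
  disjoint := by
    intro n f hf a ha
    simp only [← ofTensor_tmul, ← map_sum] at ha
    have h0 := ofTensor_injective K F L (ha.trans (map_zero _).symm)
    funext i
    by_contra hi
    obtain ⟨φ, hφ⟩ := Module.Projective.exists_dual_ne_zero K hi
    refine hφ (Fintype.linearIndependent_iff.1 hf (fun j => φ (a j)) ?_ i)
    simpa [map_sum] using
      congrArg (TensorProduct.lift (LinearMap.lsmul K F ∘ₗ φ)) h0
  exists_frac z := by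
    obtain ⟨u, d, hd, he⟩ := IsFractionRing.div_surjective (A := L ⊗[K] F)
      (K := FractionRing (L ⊗[K] F)) z
    change ofTensor K F L u / ofTensor K F L d = z at he
    subst he
    have hmem : ∀ t : L ⊗[K] F, ofTensor K F L t ∈ comb K F L (CExt K F L) ⊤ ⊤ := fun t => by
      induction t using TensorProduct.induction_on with
      | zero => rw [map_zero]; exact zero_mem _
      | tmul a f =>
        rw [ofTensor_tmul]
        exact mul_mem (algebraMap_left_mem_comb trivial) (algebraMap_right_mem_comb trivial)
      | add x y hx hy => rw [map_add]; exact add_mem hx hy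
    have hd0 : ofTensor K F L d ≠ 0 := fun h =>
      nonZeroDivisors.ne_zero hd (ofTensor_injective K F L (h.trans (map_zero _).symm))
    exact ⟨_, hmem u, _, hmem d, hd0, div_mul_cancel₀ _ hd0⟩

end CExt

namespace Spot

variable {K F L} {E : Type u} [Field E] [Algebra K E]

/-- A spot as a reduction datum. -/
def datum (r : Spot K L E) : RedDatum K L E where
  V := r.V
  algebraMap_mem := r.isOver
  ρ := r.ρ
  ρ_algebraMap := r.ρ_algebraMap
  ρ_eq_zero_iff := r.ker_iff

end Spot

namespace RedDatum

variable {K F L} {E : Type u} [Field E] [Algebra K E] {FL Fk : Type u} [Field FL] [Field Fk]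
  [Algebra K FL] [Algebra F FL] [Algebra L FL] [IsScalarTower K F FL] [IsScalarTower K L FL]
  [Algebra K Fk] [Algebra F Fk] [Algebra E Fk] [IsScalarTower K F Fk] [IsScalarTower K E Fk]
  (R : RedDatum K L E) (hL : IsConstExt K F L FL) (hk : IsConstExt K F E Fk)

/-- The Gauss ring and its reduction as a spot. -/
def gaussSpot : Spot K FL Fk where
  V := R.gauss hL hk
  isOver a := by
    rw [IsScalarTower.algebraMap_apply K F FL]
    exact R.algebraMap_right_mem_gauss hL hk _
  ρ := R.red hL hk
  ρ_algebraMap a := by
    rw [IsScalarTower.algebraMap_apply K F Fk, ← R.red_algebraMap_right hL hk]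
    exact congrArg (R.red hL hk) (Subtype.ext (IsScalarTower.algebraMap_apply K F FL a))
  ker_iff z := by
    refine ⟨fun h0 hu => (hu.map (R.red hL hk)).ne_zero h0, fun hnu => ?_⟩
    by_contra h0
    rcases eq_or_ne (z : FL) 0 with hz | hz
    · exact h0 (by rw [show z = 0 from Subtype.ext hz, map_zero])
    obtain ⟨l, g, hl, hg, he⟩ := R.exists_scalar_mul hL hk hz
    have hlV : l ∈ R.V := R.mem_of_scalar hL hk hg (he ▸ z.2)
    have hzg : R.red hL hk z = R.ρ ⟨l, hlV⟩ • R.red hL hk g := by
      rw [← red_mul_left]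
      exact congrArg (R.red hL hk) (Subtype.ext he)
    have hlu : IsUnit (⟨l, hlV⟩ : R.V) := by
      by_contra hu
      exact h0 (by rw [hzg, (R.ρ_eq_zero_iff _).2 hu, zero_smul])
    -- `g` is a unit of the Gauss ring
    have hg0 : (g : FL) ≠ 0 := right_ne_zero_of_mul (he ▸ hz)
    have hgi : (g : FL)⁻¹ ∈ R.gauss hL hk := by
      obtain ⟨u, d, hd, hud, hw⟩ := R.isRed_choose hL hk g
      have hu0 : R.red₀ Fk hL u ≠ 0 := by
        rw [← hw]; exact mul_ne_zero hg hd
      refine ⟨_, ⟨d, u, hu0, ?_, div_mul_cancel₀ _ hu0⟩⟩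
      rw [← hud, ← mul_assoc, inv_mul_cancel₀ hg0, one_mul]
    obtain ⟨⟨m, hm⟩, hlm⟩ := isUnit_iff_exists_inv.1 hlu
    refine hnu (isUnit_iff_exists_inv.2 ⟨⟨_, mul_mem (R.algebraMap_mem_gauss hL hk ⟨m, hm⟩) hgi⟩,
      Subtype.ext ?_⟩)
    show (z : FL) * (algebraMap L FL m * (g : FL)⁻¹) = 1
    have hlm' : l * m = 1 := congrArg Subtype.val hlm
    rw [he, mul_mul_mul_comm, ← map_mul, hlm', map_one, one_mul, mul_inv_cancel₀ hg0]

end RedDatum

end FermatAgent.AV
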