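import Fermat.Agent.Curve.Jac.Descent.Ext

/-!
# Constant field extensions of function fields

`IsConstExt K F L FL` says that `FL` is generated by `F` and `L`, linearly disjoint over `K`; then
`L ⊗[K] F` has fraction field `FL`, which is a function field over `L` if `F` is one over `K`.
-/

set_option autoImplicit false

noncomputable section

open AlgebraicCurve Module
open FermatAgent.Curve

namespace FermatAgent.AV

variable (K F L FL : Type*) [Field K] [Field F] [Field L] [Field FL] [Algebra K F] [Algebra K L]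
  [Algebra K FL] [Algebra F FL] [Algebra L FL] [IsScalarTower K F FL] [IsScalarTower K L FL]

/-- `L`-linear span of the image of a `K`-subalgebra of `F`, with coefficients in `A`. -/
def comb (A : Subalgebra K L) (S : Subalgebra K F) : Subalgebra K FL :=
  A.map (IsScalarTower.toAlgHom K L FL) ⊔ S.map (IsScalarTower.toAlgHom K F FL)

variable {K F L FL}

section comb

variable {A A' : Subalgebra K L} {S S' : Subalgebra K F}

theorem algebraMap_left_mem_comb {a : L} (ha : a ∈ A) :
    algebraMap L FL a ∈ comb K F L FL A S :=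
  (le_sup_left : A.map (IsScalarTower.toAlgHom K L FL) ≤ _) ⟨a, ha, rfl⟩

theorem algebraMap_right_mem_comb {f : F} (hf : f ∈ S) :
    algebraMap F FL f ∈ comb K F L FL A S :=
  (le_sup_right : S.map (IsScalarTower.toAlgHom K F FL) ≤ _) ⟨f, hf, rfl⟩

theorem comb_mono (hA : A ≤ A') (hS : S ≤ S') : comb K F L FL A S ≤ comb K F L FL A' S' :=
  sup_le_sup (Subalgebra.map_mono hA) (Subalgebra.map_mono hS)

/-- Every element of `comb` is a combination of finitely many elements of `S`. -/
theorem exists_rep {z : FL} (hz : z ∈ comb K F L FL A S) :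
    ∃ (n : ℕ) (a : Fin n → L) (f : Fin n → F), (∀ i, a i ∈ A) ∧ (∀ i, f i ∈ S) ∧
      z = ∑ i, algebraMap L FL (a i) * algebraMap F FL (f i) := by
  rw [comb, ← Subalgebra.mem_toSubmodule, ← Subalgebra.mul_toSubmodule] at hz
  induction hz using Submodule.mul_induction_on' with
  | mem_mul_mem m hm n hn =>
    obtain ⟨a, ha, rfl⟩ := hm
    obtain ⟨f, hf, rfl⟩ := hn
    exact ⟨1, fun _ => a, fun _ => f, fun _ => ha, fun _ => hf, by simp⟩
  | add x _ y _ hx hy =>
    obtain ⟨n, a, f, ha, hf, rfl⟩ := hx
    obtain ⟨m, b, g, hb, hg, rfl⟩ := hy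
    refine ⟨n + m, Fin.append a b, Fin.append f g, ?_, ?_, ?_⟩
    · exact fun i => Fin.addCases (fun i => by simpa using ha i) (fun i => by simpa using hb i) i
    · exact fun i => Fin.addCases (fun i => by simpa using hf i) (fun i => by simpa using hg i) i
    · rw [Fin.sum_univ_add]; simp

theorem sum_mem_comb {ι : Type*} (s : Finset ι) {a : ι → L} {f : ι → F} (ha : ∀ i ∈ s, a i ∈ A)
    (hf : ∀ i ∈ s, f i ∈ S) :
    ∑ i ∈ s, algebraMap L FL (a i) * algebraMap F FL (f i) ∈ comb K F L FL A S :=
  Subalgebra.sum_mem _ fun i hi =>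
    Subalgebra.mul_mem _ (algebraMap_left_mem_comb (ha i hi)) (algebraMap_right_mem_comb (hf i hi))

/-- The family may be taken independent over `K`. -/
theorem exists_indep_rep {z : FL} (hz : z ∈ comb K F L FL A S) :
    ∃ (n : ℕ) (a : Fin n → L) (f : Fin n → F), LinearIndependent K f ∧ (∀ i, a i ∈ A) ∧
      (∀ i, f i ∈ S) ∧ z = ∑ i, algebraMap L FL (a i) * algebraMap F FL (f i) := by
  obtain ⟨n, a, f, ha, hf, rfl⟩ := exists_rep hz
  set V := Submodule.span K (Set.range f)
  have hVS : ∀ v ∈ V, v ∈ S := fun v hv => by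
    have h : V ≤ S.toSubmodule := Submodule.span_le.2 (by rintro _ ⟨i, rfl⟩; exact hf i)
    exact h hv
  have : Module.Finite K V := Module.Finite.span_of_finite K (Set.finite_range f)
  let b := Module.finBasis K V
  have hfV : ∀ i, f i ∈ V := fun i => Submodule.subset_span ⟨i, rfl⟩
  have he : ∀ i, algebraMap F FL (f i) =
      ∑ j, algebraMap L FL (algebraMap K L (b.repr ⟨f i, hfV i⟩ j)) *
        algebraMap F FL (b j : F) := by
    intro i
    have h := congrArg (fun v : V => algebraMap F FL (v : F)) (b.sum_repr ⟨f i, hfV i⟩)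
    refine h.symm.trans ?_
    rw [AddSubmonoidClass.coe_finsetSum, map_sum]
    refine Finset.sum_congr rfl fun j _ => ?_
    rw [SetLike.val_smul, Algebra.smul_def, map_mul, ← IsScalarTower.algebraMap_apply,
      ← IsScalarTower.algebraMap_apply]
  refine ⟨finrank K V, fun j => ∑ i, a i * algebraMap K L (b.repr ⟨f i, hfV i⟩ j),
    fun j => (b j : F),
    b.linearIndependent.map' V.subtype V.ker_subtype,
    fun j => Subalgebra.sum_mem _ fun i _ => Subalgebra.mul_mem _ (ha i) (A.algebraMap_mem _),
    fun j => hVS _ (b j).2, ?_⟩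
  simp only [map_sum, map_mul, Finset.sum_mul]
  rw [Finset.sum_comm]
  refine Finset.sum_congr rfl fun i _ => ?_
  rw [he i, Finset.mul_sum]
  exact Finset.sum_congr rfl fun j _ => (mul_assoc _ _ _).symm

end comb

variable (K F L FL) in
/-- `FL` is generated by `F` and `L`, which are linearly disjoint over `K`. -/
structure IsConstExt : Prop where
  disjoint : ∀ {n : ℕ} (f : Fin n → F), LinearIndependent K f → ∀ a : Fin n → L,
    ∑ i, algebraMap L FL (a i) * algebraMap F FL (f i) = 0 → a = 0
  exists_frac : ∀ z : FL, ∃ u ∈ comb K F L FL ⊤ ⊤, ∃ d ∈ comb K F L FL ⊤ ⊤, d ≠ 0 ∧ z * d = u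

namespace IsConstExt

/-- A function field is a constant extension of itself. -/
theorem refl : IsConstExt K F K F where
  disjoint f hf a ha := funext fun i => Fintype.linearIndependent_iff.1 hf a
    (by simpa [Algebra.smul_def] using ha) i
  exists_frac z := ⟨z, algebraMap_right_mem_comb (K := K) (f := z) trivial, 1, one_mem _,
    one_ne_zero, mul_one _⟩

variable (h : IsConstExt K F L FL)
include h

theorem linearIndependent {n : ℕ} {f : Fin n → F} (hf : LinearIndependent K f) :
    LinearIndependent L (fun i => algebraMap F FL (f i)) :=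
  Fintype.linearIndependent_iff.2 fun a ha i =>
    congrFun (h.disjoint f hf a (by simpa [Algebra.smul_def] using ha)) i

theorem transcendental {x : F} (hx : Transcendental K x) :
    Transcendental L (algebraMap F FL x) := by
  rw [transcendental_iff]
  intro p hp
  by_contra hp0
  have hli : LinearIndependent K (fun i : Fin (p.natDegree + 1) => x ^ (i : ℕ)) := by
    rw [Fintype.linearIndependent_iff]
    intro c hc i
    have h1 : Polynomial.aeval x
        (∑ j : Fin (p.natDegree + 1), Polynomial.monomial (j : ℕ) (c j)) = 0 := by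
      rw [map_sum, ← hc]
      exact Finset.sum_congr rfl fun j _ => by rw [Polynomial.aeval_monomial, Algebra.smul_def]
    have h2 := congrArg (fun q => Polynomial.coeff q (i : ℕ)) (transcendental_iff.1 hx _ h1)
    simpa [Polynomial.finsetSum_coeff, Polynomial.coeff_monomial, Fin.val_inj] using h2
  have h0 := h.disjoint _ hli (fun i => p.coeff (i : ℕ)) (by
    rw [← hp, Polynomial.aeval_eq_sum_range, Finset.sum_range]
    exact Finset.sum_congr rfl fun j _ => by rw [map_pow, Algebra.smul_def])
  exact hp0 (Polynomial.leadingCoeff_eq_zero.1 (congrFun h0 ⟨p.natDegree, Nat.lt_succ_self _⟩))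

omit h in
theorem map_mem_adjoin {X : Set F} (c : IntermediateField.adjoin K X) :
    algebraMap F FL (c : F) ∈ IntermediateField.adjoin L (algebraMap F FL '' X) := by
  have hle : IntermediateField.adjoin K X ≤
      ((IntermediateField.adjoin L (algebraMap F FL '' X)).restrictScalars K).comap
        (IsScalarTower.toAlgHom K F FL) :=
    IntermediateField.adjoin_le_iff.2 fun x hx =>
      IntermediateField.subset_adjoin L _ ⟨x, hx, rfl⟩
  exact hle c.2

/-- A basis of `F` over `K(x)` spans `FL` over `L(x)`. -/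
theorem span_eq_top {X : Set F} {ι : Type*} [Fintype ι]
    (b : Basis ι (IntermediateField.adjoin K X) F) :
    Submodule.span (IntermediateField.adjoin L (algebraMap F FL '' X))
      (Set.range fun i => algebraMap F FL (b i)) = ⊤ := by
  set E₀ := IntermediateField.adjoin L (algebraMap F FL '' X)
  set P := Submodule.span E₀ (Set.range fun i => algebraMap F FL (b i))
  have hF : ∀ f : F, algebraMap F FL f ∈ P := by
    intro f
    rw [← b.sum_repr f, map_sum]
    refine Submodule.sum_mem _ fun i _ => ?_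
    rw [Algebra.smul_def, map_mul]
    exact P.smul_mem (⟨_, map_mem_adjoin _⟩ : E₀) (Submodule.subset_span ⟨i, rfl⟩)
  have hmul : ∀ y ∈ P, ∀ z ∈ P, y * z ∈ P := by
    intro y hy z hz
    refine Submodule.span_induction₂ (p := fun y z _ _ => y * z ∈ P) ?_ ?_ ?_ ?_ ?_ ?_ ?_ hy hz
    · rintro _ _ ⟨i, rfl⟩ ⟨j, rfl⟩
      rw [← map_mul]; exact hF _
    · intro y _; rw [zero_mul]; exact P.zero_mem
    · intro y _; rw [mul_zero]; exact P.zero_mem
    · intro y y' z _ _ _ h₁ h₂; rw [add_mul]; exact P.add_mem h₁ h₂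
    · intro y z z' _ _ _ h₁ h₂; rw [mul_add]; exact P.add_mem h₁ h₂
    · intro r y z _ _ h₁; rw [smul_mul_assoc]; exact P.smul_mem r h₁
    · intro r y z _ _ h₁; rw [mul_smul_comm]; exact P.smul_mem r h₁
  let Q : Subalgebra E₀ FL :=
    P.toSubalgebra (by rw [← map_one (algebraMap F FL)]; exact hF 1)
      (fun y z hy hz => hmul y hy z hz)
  have : FiniteDimensional E₀ P := FiniteDimensional.span_of_finite _ (Set.finite_range _)
  have : FiniteDimensional E₀ Q := ‹FiniteDimensional E₀ P›
  have : Algebra.IsAlgebraic E₀ Q := Algebra.IsAlgebraic.of_finite _ _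
  refine top_unique fun z _ => ?_
  have hmem : ∀ y ∈ comb K F L FL ⊤ ⊤, y ∈ P := fun y hy => by
    obtain ⟨n, a, f, -, -, rfl⟩ := exists_rep hy
    refine Submodule.sum_mem _ fun i _ => ?_
    exact P.smul_mem (algebraMap L E₀ (a i)) (hF _)
  obtain ⟨u, hu, d, hd, hd0, he⟩ := h.exists_frac z
  have hinv : d⁻¹ ∈ Q := Q.inv_mem_of_algebraic (x := ⟨d, hmem d hd⟩)
    ((isAlgebraic_algHom_iff Q.val Subtype.coe_injective).2
      (Algebra.IsAlgebraic.isAlgebraic (⟨d, hmem d hd⟩ : Q)))
  rw [eq_div_of_mul_eq hd0 he, div_eq_mul_inv]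
  exact hmul u (hmem u hu) _ hinv

theorem finrank_adjoin_le [IsFF K F] {x : F} (hx : Transcendental K x) :
    finrank (IntermediateField.adjoin L ({algebraMap F FL x} : Set FL)) FL ≤
      finrank (IntermediateField.adjoin K ({x} : Set F)) F := by
  have := IsFF.finite_adjoin (F := F) hx
  let b := Module.finBasis (IntermediateField.adjoin K ({x} : Set F)) F
  rw [← Set.image_singleton, ← finrank_top
    (R := IntermediateField.adjoin L (algebraMap F FL '' {x})), ← h.span_eq_top b]
  exact (finrank_range_le_card _).trans (Fintype.card_fin _).le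

theorem isFF [IsFF K F] : IsFF L FL := by
  obtain ⟨x, hx, hfin⟩ := IsFF.exists_transcendental (K := K) (F := F)
  refine ⟨⟨algebraMap F FL x, h.transcendental hx, ?_⟩⟩
  rw [← Set.image_singleton]
  refine ⟨?_⟩
  rw [← h.span_eq_top (Module.finBasis (IntermediateField.adjoin K ({x} : Set F)) F)]
  exact Submodule.fg_span (Set.finite_range _)

section Tensor

open scoped TensorProduct

variable (K F L FL) in
/-- Multiplication `L ⊗ F → FL`. -/
def mulHom : L ⊗[K] F →ₐ[K] FL :=
  Algebra.TensorProduct.lift (IsScalarTower.toAlgHom K L FL) (IsScalarTower.toAlgHom K F FL)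
    fun _ _ => Commute.all _ _

omit h in
@[simp] theorem mulHom_tmul (a : L) (f : F) :
    mulHom K F L FL (a ⊗ₜ f) = algebraMap L FL a * algebraMap F FL f := by
  simp [mulHom]

omit h in
/-- A tensor as a combination over an independent family. -/
theorem exists_tensor_rep {M : Type*} [AddCommGroup M] [Module K M] (t : M ⊗[K] F) :
    ∃ (n : ℕ) (a : Fin n → M) (f : Fin n → F), LinearIndependent K f ∧ t = ∑ i, a i ⊗ₜ f i := by
  classical
  let b := Module.Free.chooseBasis K F
  obtain ⟨c, hc⟩ := TensorProduct.eq_repr_basis_right b t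
  let e : Fin c.support.card ≃ c.support := c.support.equivFin.symm
  refine ⟨_, fun i => c (e i : _), fun i => b (e i : _),
    b.linearIndependent.comp _ (Subtype.coe_injective.comp e.injective), ?_⟩
  rw [← hc, Finsupp.sum, ← Finset.sum_coe_sort]
  exact (Equiv.sum_comp e fun j : c.support => c (j : _) ⊗ₜ[K] b (j : _)).symm

theorem mulHom_injective : Function.Injective (mulHom K F L FL) := by
  rw [injective_iff_map_eq_zero]
  intro t ht
  obtain ⟨n, a, f, hf, rfl⟩ := exists_tensor_rep t
  simp only [map_sum, mulHom_tmul] at ht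
  simp [h.disjoint f hf a ht]

omit h in
theorem range_mulHom : (mulHom K F L FL).range = comb K F L FL ⊤ ⊤ := by
  refine le_antisymm ?_ fun z hz => ?_
  · rintro _ ⟨t, rfl⟩
    obtain ⟨n, a, f, -, rfl⟩ := exists_tensor_rep t
    show mulHom K F L FL (∑ i, a i ⊗ₜ f i) ∈ comb K F L FL ⊤ ⊤
    simp only [map_sum, mulHom_tmul]
    exact sum_mem_comb _ (fun _ _ => trivial) fun _ _ => trivial
  · obtain ⟨n, a, f, -, -, rfl⟩ := exists_rep hz
    exact ⟨∑ i, a i ⊗ₜ f i, by simp⟩

/-- `L ⊗ F` is its image in `FL`. -/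
def combEquiv : L ⊗[K] F ≃ₐ[K] comb K F L FL ⊤ ⊤ :=
  (AlgEquiv.ofInjective (mulHom K F L FL) h.mulHom_injective).trans
    (Subalgebra.equivOfEq _ _ range_mulHom)

theorem combEquiv_symm_algebraMap (a : L) (f : F)
    (hm : algebraMap L FL a * algebraMap F FL f ∈ comb K F L FL ⊤ ⊤) :
    h.combEquiv.symm ⟨_, hm⟩ = a ⊗ₜ f := by
  rw [AlgEquiv.symm_apply_eq]
  exact Subtype.ext (mulHom_tmul a f).symm

end Tensor

/-- `FL` is the fraction field of the span of `F` over `L`. -/
theorem isFractionRing : IsFractionRing (comb K F L FL ⊤ ⊤) FL := by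
  refine (isLocalization_iff _ _).2 ⟨?_, ?_, ?_⟩
  · rintro ⟨y, hy⟩
    exact isUnit_iff_ne_zero.2 fun h0 => (mem_nonZeroDivisors_iff_ne_zero.1 hy) (Subtype.ext h0)
  · intro z
    obtain ⟨u, hu, d, hd, hd0, he⟩ := h.exists_frac z
    exact ⟨(⟨u, hu⟩, ⟨⟨d, hd⟩, mem_nonZeroDivisors_iff_ne_zero.2 fun h0 =>
      hd0 (congrArg Subtype.val h0)⟩), he⟩
  · exact fun hxy => ⟨1, by rw [Subtype.ext hxy]⟩

end IsConstExt

end FermatAgent.AV
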