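import Fermat.Agent.AV.Places

/-!
# Coordinates on a product of two affine varieties

Noether normalisations of two affine domains give algebraically independent coordinates of the
fraction field of their tensor product.
-/

set_option autoImplicit false

noncomputable section

universe u

open scoped TensorProduct IntermediateField.algebraAdjoinAdjoin

namespace FermatAgent.AV

variable (K F₁ F₂ : Type u) [Field K] [IsAlgClosed K] [Field F₁] [Algebra K F₁] [Field F₂]
  [Algebra K F₂]

/-- The field of a product. -/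
abbrev ProdField : Type u := FractionRing (F₁ ⊗[K] F₂)

/-- The embedding of the first factor in the field of a product. -/
def prodInl : F₁ →ₐ[K] ProdField K F₁ F₂ :=
  (IsScalarTower.toAlgHom K (F₁ ⊗[K] F₂) (ProdField K F₁ F₂)).comp
    Algebra.TensorProduct.includeLeft

/-- The embedding of the second factor in the field of a product. -/
def prodInr : F₂ →ₐ[K] ProdField K F₁ F₂ :=
  (IsScalarTower.toAlgHom K (F₁ ⊗[K] F₂) (ProdField K F₁ F₂)).comp
    Algebra.TensorProduct.includeRight

variable {K F₁ F₂}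

omit [IsAlgClosed K] in
/-- Independent families on the two factors are jointly independent on the product. -/
theorem algebraicIndependent_prod {ι₁ ι₂ : Type u} {x : ι₁ → F₁} {y : ι₂ → F₂}
    (hx : AlgebraicIndependent K x) (hy : AlgebraicIndependent K y) :
    AlgebraicIndependent K
      (Sum.elim (fun i => prodInr K F₁ F₂ (y i)) fun i => prodInl K F₁ F₂ (x i)) := by
  set z := fun i => prodInr K F₁ F₂ (y i)
  let j : F₁ ⊗[K] F₂ →ₗ[F₁] ProdField K F₁ F₂ :=
    (IsScalarTower.toAlgHom F₁ (F₁ ⊗[K] F₂) (ProdField K F₁ F₂)).toLinearMap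
  have hj : Function.Injective j := IsFractionRing.injective (F₁ ⊗[K] F₂) (ProdField K F₁ F₂)
  have hli : LinearIndependent F₁ fun m : ι₂ →₀ ℕ =>
      MvPolynomial.aeval z (MvPolynomial.monomial m (1 : F₁)) := by
    have h1 := (Module.Flat.linearIndependent_one_tmul (S := F₁)
      ((MvPolynomial.basisMonomials ι₂ K).linearIndependent.map' (MvPolynomial.aeval y).toLinearMap
        (LinearMap.ker_eq_bot.2 hy))).map' j (LinearMap.ker_eq_bot.2 hj)
    have e : (fun m : ι₂ →₀ ℕ => MvPolynomial.aeval z (MvPolynomial.monomial m (1 : F₁))) =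
        fun m => prodInr K F₁ F₂ (MvPolynomial.aeval y
          ((MvPolynomial.basisMonomials ι₂ K) m)) := by
      funext m
      simp [z, MvPolynomial.aeval_monomial, map_finsuppProd]
    rw [e]
    exact h1
  have hz : AlgebraicIndependent F₁ z := by
    rw [algebraicIndependent_iff]
    intro p hp
    have h1 := linearIndependent_iff.1 hli ((MvPolynomial.basisMonomials ι₂ F₁).repr p) (by
      conv_rhs => rw [← hp, ← (MvPolynomial.basisMonomials ι₂ F₁).linearCombination_repr p]
      rw [← AlgHom.toLinearMap_apply, Finsupp.apply_linearCombination]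
      congr 2)
    exact (LinearEquiv.map_eq_zero_iff _).1 h1
  exact AlgebraicIndependent.sumElim_comp hx hz

theorem intermediateField_eq_top_of_factors (L : IntermediateField K (ProdField K F₁ F₂))
    (h₁ : ∀ a, prodInl K F₁ F₂ a ∈ L) (h₂ : ∀ b, prodInr K F₁ F₂ b ∈ L) : L = ⊤ := by
  have h : ∀ t : F₁ ⊗[K] F₂, algebraMap _ (ProdField K F₁ F₂) t ∈ L := by
    intro t
    induction t using TensorProduct.induction_on with
    | zero => rw [map_zero]; exact zero_mem L
    | add a b ha hb => rw [map_add]; exact add_mem ha hb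
    | tmul a b =>
      rw [show a ⊗ₜ[K] b = (a ⊗ₜ[K] (1 : F₂)) * ((1 : F₁) ⊗ₜ[K] b) by
        rw [Algebra.TensorProduct.tmul_mul_tmul, mul_one, one_mul], map_mul]
      exact mul_mem (h₁ a) (h₂ b)
  refine eq_top_iff.2 fun q _ => ?_
  obtain ⟨a, b, -, rfl⟩ := IsFractionRing.div_surjective (A := F₁ ⊗[K] F₂) q
  exact div_mem (h a) (h b)

/-- **Coordinates on a product**: for finitely generated algebras `R₁`, `R₂` generating two
fields there are algebraically independent `y` in `R₁ R₂` over which `R₁ R₂` is integral and the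
field of the product is finite. -/
theorem exists_coords (R₁ : Subalgebra K F₁) (R₂ : Subalgebra K F₂) (h₁ : R₁.FG) (h₂ : R₂.FG)
    (hR₁ : IntermediateField.adjoin K (R₁ : Set F₁) = ⊤)
    (hR₂ : IntermediateField.adjoin K (R₂ : Set F₂) = ⊤) :
    ∃ (m : ℕ) (y : Fin m → ProdField K F₁ F₂), AlgebraicIndependent K y ∧
      Algebra.adjoin K (Set.range y) ≤
        Algebra.adjoin K (prodInl K F₁ F₂ '' R₁ ∪ prodInr K F₁ F₂ '' R₂) ∧
      (∀ f ∈ Algebra.adjoin K (prodInl K F₁ F₂ '' R₁ ∪ prodInr K F₁ F₂ '' R₂),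
        IsIntegral (Algebra.adjoin K (Set.range y)) f) ∧
      FiniteDimensional (IntermediateField.adjoin K (Set.range y)) (ProdField K F₁ F₂) := by
  classical
  have : Algebra.FiniteType K R₁ := (Subalgebra.fg_iff_finiteType _).mp h₁
  have : Algebra.FiniteType K R₂ := (Subalgebra.fg_iff_finiteType _).mp h₂
  obtain ⟨s₁, g₁, hg₁, hint₁⟩ := exists_integral_inj_algHom_of_fg K R₁
  obtain ⟨s₂, g₂, hg₂, hint₂⟩ := exists_integral_inj_algHom_of_fg K R₂
  set x₁ : ULift.{u} (Fin s₁) → F₁ := fun i => (g₁ (MvPolynomial.X i.down) : F₁)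
  set x₂ : ULift.{u} (Fin s₂) → F₂ := fun i => (g₂ (MvPolynomial.X i.down) : F₂)
  have hx₁ : AlgebraicIndependent K x₁ :=
    ((MvPolynomial.algebraicIndependent_X (Fin s₁) K).map' (f := R₁.val.comp g₁)
      (Subtype.val_injective.comp hg₁)).comp _ ULift.down_injective
  have hx₂ : AlgebraicIndependent K x₂ :=
    ((MvPolynomial.algebraicIndependent_X (Fin s₂) K).map' (f := R₂.val.comp g₂)
      (Subtype.val_injective.comp hg₂)).comp _ ULift.down_injective
  set w := Sum.elim (fun i => prodInr K F₁ F₂ (x₂ i)) fun i => prodInl K F₁ F₂ (x₁ i)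
  set e := Fintype.equivFin (ULift.{u} (Fin s₂) ⊕ ULift.{u} (Fin s₁))
  set y := w ∘ e.symm
  have hrange : Set.range y = Set.range w := e.symm.surjective.range_comp w
  set S := Algebra.adjoin K (Set.range y)
  have hyB : Set.range y ⊆
      Algebra.adjoin K (prodInl K F₁ F₂ '' R₁ ∪ prodInr K F₁ F₂ '' R₂) := by
    rw [hrange]
    rintro _ ⟨i | i, rfl⟩
    · exact Algebra.subset_adjoin (Or.inr ⟨_, (g₂ _).2, rfl⟩)
    · exact Algebra.subset_adjoin (Or.inl ⟨_, (g₁ _).2, rfl⟩)
  have key : ∀ {F : Type u} [Field F] [Algebra K F] (R : Subalgebra K F) (s : ℕ)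
      (g : MvPolynomial (Fin s) K →ₐ[K] R) (j : F →ₐ[K] ProdField K F₁ F₂),
      g.IsIntegral → (∀ i, j (g (MvPolynomial.X i) : F) ∈ S) → ∀ r ∈ R, IsIntegral S (j r) := by
    intro F _ _ R s g j hg hmem r hr
    obtain ⟨p, hp, hpe⟩ := hg ⟨r, hr⟩
    let ψ : MvPolynomial (Fin s) K →ₐ[K] S := MvPolynomial.aeval fun i => ⟨_, hmem i⟩
    have hψ : S.val.comp ψ = (j.comp R.val).comp g := MvPolynomial.algHom_ext fun i => by simp [ψ]
    refine ⟨p.map ψ.toRingHom, hp.map _, ?_⟩
    rw [Polynomial.eval₂_map, show (algebraMap S (ProdField K F₁ F₂)).comp ψ.toRingHom =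
      ((j.comp R.val).toRingHom).comp g.toRingHom from congrArg AlgHom.toRingHom hψ]
    exact (Polynomial.hom_eval₂ p _ (j.comp R.val).toRingHom ⟨r, hr⟩).symm.trans
      ((congrArg _ hpe).trans (map_zero _))
  have hS₁ : ∀ r ∈ R₁, IsIntegral S (prodInl K F₁ F₂ r) := key R₁ s₁ g₁ _ hint₁ fun i =>
    Algebra.subset_adjoin (hrange ▸ ⟨Sum.inr ⟨i⟩, rfl⟩)
  have hS₂ : ∀ r ∈ R₂, IsIntegral S (prodInr K F₁ F₂ r) := key R₂ s₂ g₂ _ hint₂ fun i =>
    Algebra.subset_adjoin (hrange ▸ ⟨Sum.inl ⟨i⟩, rfl⟩)
  refine ⟨_, y, (algebraicIndependent_prod hx₁ hx₂).comp _ e.symm.injective,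
    Algebra.adjoin_le hyB, fun f hf => ?_, ?_⟩
  · induction hf using Algebra.adjoin_induction with
    | mem t ht =>
      obtain ⟨r, hr, rfl⟩ | ⟨r, hr, rfl⟩ := ht
      · exact hS₁ r hr
      · exact hS₂ r hr
    | algebraMap a =>
      rw [IsScalarTower.algebraMap_apply K S (ProdField K F₁ F₂)]
      exact isIntegral_algebraMap
    | add a b _ _ ha hb => exact ha.add hb
    | mul a b _ _ ha hb => exact ha.mul hb
  · obtain ⟨G₁, hG₁⟩ := h₁
    obtain ⟨G₂, hG₂⟩ := h₂
    set L := IntermediateField.adjoin K (Set.range y)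
    set T := prodInl K F₁ F₂ '' G₁ ∪ prodInr K F₁ F₂ '' G₂
    have : Finite T := ((G₁.finite_toSet.image _).union (G₂.finite_toSet.image _)).to_subtype
    have hT : ∀ t ∈ T, IsIntegral L t := by
      rintro _ (⟨r, hr, rfl⟩ | ⟨r, hr, rfl⟩)
      · exact (hS₁ r (hG₁ ▸ Algebra.subset_adjoin hr)).tower_top
      · exact (hS₂ r (hG₂ ▸ Algebra.subset_adjoin hr)).tower_top
    have := IntermediateField.finiteDimensional_adjoin (S := T) hT
    have htop : IntermediateField.adjoin L T = ⊤ := by
      have h : ∀ {F : Type u} [Field F] [Algebra K F] (R : Subalgebra K F) (G : Finset F)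
          (j : F →ₐ[K] ProdField K F₁ F₂), Algebra.adjoin K (G : Set F) = R →
          IntermediateField.adjoin K (R : Set F) = ⊤ → j '' G ⊆ T →
          ∀ a, j a ∈ (IntermediateField.adjoin L T).restrictScalars K := by
        intro F _ _ R G j hG hR hjT a
        have hsub : (R : Set F) ⊆
            ((IntermediateField.adjoin L T).restrictScalars K).comap j := by
          rw [← hG]
          exact (Algebra.adjoin_le fun t ht =>
            IntermediateField.subset_adjoin L T (hjT ⟨t, ht, rfl⟩) :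
              Algebra.adjoin K (G : Set F) ≤
                (((IntermediateField.adjoin L T).restrictScalars K).comap j).toSubalgebra)
        have hle := IntermediateField.adjoin_le_iff.2 hsub
        rw [hR] at hle
        exact hle IntermediateField.mem_top
      refine IntermediateField.restrictScalars_eq_top_iff.1
        (intermediateField_eq_top_of_factors _ (h R₁ G₁ _ hG₁ hR₁ Set.subset_union_left)
          (h R₂ G₂ _ hG₂ hR₂ Set.subset_union_right))
    exact Module.Finite.equiv ((IntermediateField.equivOfEq htop).trans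
      IntermediateField.topEquiv).toLinearEquiv

end FermatAgent.AV
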