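import Fermat.Agent.AV.Curve.General
import Mathlib.LinearAlgebra.Charpoly.ToMatrix

/-!
# A divisor with principal reductions is principal

`D` is a divisor on a constant extension `FL` of a function field `F` over an algebraically closed
field `K`.  If at enough valuations of the constants, with residue field `K`, the spaces of `D` and
`-D` reduce into those of a principal divisor, then `D` is principal.
-/

set_option autoImplicit false

noncomputable section

open AlgebraicCurve Module
open FermatAgent.Curve FermatAgent.Curve.Jac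
open scoped Classical

namespace FermatAgent.AV

variable {K F L FL : Type*} [Field K] [Field F] [Field L] [Field FL] [Algebra K F] [Algebra K L]
  [Algebra K FL] [Algebra F FL] [Algebra L FL] [IsScalarTower K F FL] [IsScalarTower K L FL]
  [IsAlgClosed K] [IsFF K F] [IsFF L FL] (hL : IsConstExt K F L FL)

/-- The spaces of `D` reduce, after multiplication by `e`, into those of `div h`. -/
def ReducesTo (R : RedDatum K L K) (D : Divisor L FL) (e : FL) (h : F) : Prop :=
  ∀ (N : Divisor K F) (φ : FL), φ ∈ riemannRochSpace (D + hL.extDiv N) →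
    ∀ hg : φ * e ∈ R.gauss hL IsConstExt.refl,
      R.red hL IsConstExt.refl ⟨φ * e, hg⟩ * h ∈ riemannRochSpace N

variable {hL}

/-- A basis of the spaces of `D` reduces to an independent family. -/
theorem exists_red_independent {R : RedDatum K L K} {D : Divisor L FL} {e : FL} {h : F}
    (he : e ≠ 0) (hh : h ≠ 0) (hR : ReducesTo hL R D e h) (N : Divisor K F) :
    ∃ b : Fin (rrDim (D + hL.extDiv N)) → R.gauss hL IsConstExt.refl,
      (∀ i, ∃ φ ∈ riemannRochSpace (D + hL.extDiv N), φ * e = (b i : FL)) ∧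
      ∃ hm : ∀ i, R.red hL IsConstExt.refl (b i) * h ∈ riemannRochSpace N,
        LinearIndependent K fun i =>
          (⟨R.red hL IsConstExt.refl (b i) * h, hm i⟩ : riemannRochSpace N) := by
  set M := riemannRochSpace (D + hL.extDiv N)
  obtain ⟨b, hb, hbi⟩ := R.exists_lattice hL IsConstExt.refl (M.map (LinearMap.mulRight L e))
  have hn : rrDim (D + hL.extDiv N) = finrank L (M.map (LinearMap.mulRight L e)) :=
    (Submodule.equivMapOfInjective _ (mul_left_injective₀ he) M).finrank_eq
  refine ⟨fun i => b (i.cast hn), fun i => hb _, fun i => ?_, ?_⟩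
  · obtain ⟨φ, hφ, hφe⟩ := hb (i.cast hn)
    have hφ' : φ * e = (b (i.cast hn) : FL) := hφe
    have := hR N φ hφ (hφ'.symm ▸ (b _).2)
    rwa [show (⟨φ * e, hφ'.symm ▸ (b _).2⟩ : R.gauss hL IsConstExt.refl) = b (i.cast hn) from
      Subtype.ext hφ'] at this
  · refine LinearIndependent.of_comp (riemannRochSpace N).subtype ?_
    exact (hbi.comp _ (Fin.cast_injective hn)).map' (LinearMap.mulRight K h)
      (LinearMap.ker_eq_bot.2 (mul_left_injective₀ hh))

theorem rrDim_le_of_reducesTo {R : RedDatum K L K} {D : Divisor L FL} {e : FL} {h : F}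
    (he : e ≠ 0) (hh : h ≠ 0) (hR : ReducesTo hL R D e h) (N : Divisor K F) :
    rrDim (D + hL.extDiv N) ≤ rrDim N := by
  obtain ⟨b, -, hm, hli⟩ := exists_red_independent he hh hR N
  exact (Fintype.card_fin _).symm.trans_le hli.fintype_card_le_finrank

theorem degree_eq_zero_of_reducesTo {R : RedDatum K L K} {D : Divisor L FL} {e : FL} {h : F}
    (he : e ≠ 0) (hh : h ≠ 0) (hp : ReducesTo hL R D e h) (hn : ReducesTo hL R (-D) e⁻¹ h⁻¹) :
    Divisor.degree D = 0 := by
  obtain ⟨c, hc⟩ := exists_rrDim_eq (K := K) (F := F)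
  obtain ⟨P⟩ := exists_place (K := K) (F := F)
  have key : ∀ (D : Divisor L FL) (e : FL) (h : F), e ≠ 0 → h ≠ 0 → ReducesTo hL R D e h →
      Divisor.degree D ≤ 0 := fun D e h he hh hR => by
    set N : Divisor K F := Finsupp.single P c
    have hdeg : Divisor.degree N = c := by simp [N, Curve.deg_eq_one P]
    have h1 := Int.ofNat_le.2 (rrDim_le_of_reducesTo he hh hR N)
    have h2 := hc N (by rw [hdeg])
    have h3 := rrDef_le_rGenus (D + hL.extDiv N)
    have h4 := hL.rGenus_le
    simp only [rrDef, map_add, hL.degree_extDiv] at h3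
    omega
  have h1 := key D e h he hh hp
  have h2 := key (-D) e⁻¹ h⁻¹ (inv_ne_zero he) (inv_ne_zero hh) hn
  rw [map_neg] at h2
  omega

section Main

variable {D : Divisor L FL} {sG : Finset (Place K F)} {O : Place K F}

/-- The divisors `G + n O`. -/
def poleDiv (sG : Finset (Place K F)) (O : Place K F) (n : ℕ) : Divisor K F :=
  setDiv sG + Finsupp.single O (n : ℤ)

variable (hL) in
/-- The functions with poles bounded by `D + G + n O`. -/
abbrev spaceM (D : Divisor L FL) (sG : Finset (Place K F)) (O : Place K F) (n : ℕ) :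
    Submodule L FL :=
  riemannRochSpace (D + hL.extDiv (poleDiv sG O n))

variable (L FL) in
/-- The span over `L` of the functions of `F` with poles bounded by `n O`. -/
def spaceS (O : Place K F) (n : ℕ) : Submodule L FL :=
  Submodule.span L (algebraMap F FL '' (riemannRochSpace (Finsupp.single O (n : ℤ)) : Set F))

omit [IsAlgClosed K] [IsFF K F] in
theorem poleDiv_mono {n m : ℕ} (h : n ≤ m) : poleDiv sG O n ≤ poleDiv sG O m := fun w => by
  simp only [poleDiv, Finsupp.add_apply, Finsupp.single_apply]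
  split_ifs <;> omega

theorem spaceM_mono {n m : ℕ} (h : n ≤ m) : spaceM hL D sG O n ≤ spaceM hL D sG O m := by
  refine riemannRochSpace_le_of_le fun v => ?_
  simp only [Finsupp.add_apply]
  have := Finsupp.mapDomain_nonneg (f := hL.ext) (g := poleDiv sG O m - poleDiv sG O n)
    (fun w => by simpa using sub_nonneg.2 (poleDiv_mono h w)) v
  rw [Finsupp.mapDomain_sub, Finsupp.sub_apply, Finsupp.zero_apply] at this
  show D v + Finsupp.mapDomain hL.ext _ v ≤ D v + Finsupp.mapDomain hL.ext _ v
  omega

omit [Algebra K L] [Algebra K FL] [IsScalarTower K F FL] [IsScalarTower K L FL] [IsAlgClosed K]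
    [IsFF K F] [IsFF L FL] in
theorem spaceS_mono {n m : ℕ} (h : n ≤ m) : spaceS L FL O n ≤ spaceS L FL O m := by
  refine Submodule.span_mono (Set.image_mono fun f hf => riemannRochSpace_le_of_le (fun w => ?_) hf)
  simp only [Finsupp.single_apply]
  split_ifs <;> omega

variable (hG : rrDim (setDiv sG) = 1) (hGc : (sG.card : ℤ) = rGenus K F) (hO : O ∉ sG)
include hG hGc

theorem rrDim_poleDiv (n : ℕ) : rrDim (poleDiv sG O n) = n + 1 := by
  have h1 := rrDef_le_rGenus (poleDiv sG O n)
  have h2 := rrDef_mono (show setDiv sG ≤ poleDiv sG O n from fun w => by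
    simp only [poleDiv, Finsupp.add_apply, Finsupp.single_apply]; split_ifs <;> omega)
  simp only [rrDef, poleDiv, map_add, degree_setDiv, Divisor.degree_single,
    Curve.deg_eq_one] at h1 h2
  rw [hG] at h2
  simp only [poleDiv]
  push_cast at h1 h2
  omega

/-- The data at one valuation: the lifts of functions with simple poles at `G`. -/
theorem exists_lifts {R : RedDatum K L K} {e : FL} {h : F} (he : e ≠ 0) (hh : h ≠ 0)
    (hR : ReducesTo hL R D e h) (hdeg : Divisor.degree D = 0) (n : ℕ) {w : F}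
    (hw : w ∈ riemannRochSpace (poleDiv sG O n)) :
    ∃ β : R.gauss hL IsConstExt.refl, (β : FL) * e⁻¹ ∈ spaceM hL D sG O n ∧
      R.red hL IsConstExt.refl β * h = w := by
  set M := spaceM hL D sG O n
  have hdim : finrank L M = n + 1 := by
    refine le_antisymm ((rrDim_le_of_reducesTo he hh hR _).trans
      (rrDim_poleDiv hG hGc n).le) ?_
    have h1 := rrDef_le_rGenus (D + hL.extDiv (poleDiv sG O n))
    have h2 := hL.rGenus_le
    simp only [rrDef, map_add, hdeg, hL.degree_extDiv] at h1
    simp only [poleDiv, map_add, degree_setDiv, Divisor.degree_single, Curve.deg_eq_one] at h1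
    push_cast at h1
    have : rrDim (D + hL.extDiv (poleDiv sG O n)) = finrank L M := rfl
    simp only [poleDiv, map_add] at this
    omega
  obtain ⟨b, hb, hmem, hli⟩ := exists_red_independent he hh hR (poleDiv sG O n)
  have hspan := hli.span_eq_top_of_card_eq_finrank' (by
    rw [Fintype.card_fin]
    exact hdim.trans (rrDim_poleDiv hG hGc n).symm)
  obtain ⟨c, hc⟩ := (Submodule.mem_span_range_iff_exists_fun K).1
    (hspan.ge (Submodule.mem_top (x := (⟨w, hw⟩ : riemannRochSpace (poleDiv sG O n)))))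
  refine ⟨∑ i, ⟨_, R.algebraMap_mem_gauss hL IsConstExt.refl
    ⟨_, R.algebraMap_mem (c i)⟩⟩ * b i, ?_, ?_⟩
  · rw [AddSubmonoidClass.coe_finsetSum, Finset.sum_mul]
    refine Submodule.sum_mem _ fun i _ => ?_
    obtain ⟨φ, hφ, hφe⟩ := hb i
    rw [MulMemClass.coe_mul, ← (show φ * e = (b i : FL) from hφe), mul_assoc, mul_assoc,
      mul_inv_cancel₀ he, mul_one]
    show algebraMap L FL _ * φ ∈ M
    rw [← Algebra.smul_def]
    exact M.smul_mem _ hφ
  · have h1 := congrArg Subtype.val hc
    simp only [AddSubmonoidClass.coe_finsetSum, SetLike.val_smul] at h1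
    rw [← h1, map_sum, Finset.sum_mul]
    refine Finset.sum_congr rfl fun i _ => ?_
    rw [RedDatum.red_mul_left, smul_mul_assoc, R.ρ_algebraMap]
    rfl

omit hGc in
theorem exists_scalar {R : RedDatum K L K} {e : FL} {h : F} (he : e ≠ 0) (hh : h ≠ 0)
    (hR : ReducesTo hL R D e h) {s : FL} (hs0 : s ≠ 0)
    (hs : s ∈ riemannRochSpace (D + hL.extDiv (setDiv sG))) :
    ∃ (l : L) (gR : R.gauss hL IsConstExt.refl) (a : K), l ≠ 0 ∧ a ≠ 0 ∧
      s * e = algebraMap L FL l * (gR : FL) ∧
      R.red hL IsConstExt.refl gR * h = algebraMap K F a := by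
  obtain ⟨l, gR, hl, hgR, he'⟩ := R.exists_scalar_mul hL IsConstExt.refl (mul_ne_zero hs0 he)
  have hmem : algebraMap L FL l⁻¹ * s ∈ riemannRochSpace (D + hL.extDiv (setDiv sG)) := by
    rw [← Algebra.smul_def]; exact Submodule.smul_mem _ _ hs
  have hge : algebraMap L FL l⁻¹ * s * e = (gR : FL) := by
    rw [mul_assoc, he', ← mul_assoc, ← map_mul, inv_mul_cancel₀ hl, map_one, one_mul]
  have h1 := hR _ _ hmem (hge.symm ▸ gR.2)
  rw [show (⟨_, hge.symm ▸ gR.2⟩ : R.gauss hL IsConstExt.refl) = gR from Subtype.ext hge] at h1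
  have h0 : riemannRochSpace (setDiv sG) = Submodule.span K {(1 : F)} := by
    refine (Submodule.eq_of_le_of_finrank_eq ?_ ?_).symm
    · rw [Submodule.span_le, Set.singleton_subset_iff]
      exact (mem_riemannRochSpace_iff_ne_zero one_ne_zero).2 fun v => by
        have : (0 : ℤ) ≤ setDiv sG v := setDiv_nonneg sG v
        rw [Place.ord_one]
        omega
    · rw [finrank_span_singleton (one_ne_zero : (1 : F) ≠ 0)]
      exact hG.symm
  rw [h0, Submodule.mem_span_singleton] at h1
  obtain ⟨a, ha⟩ := h1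
  rw [← Algebra.algebraMap_eq_smul_one] at ha
  exact ⟨l, gR, a, hl, fun h0 => mul_ne_zero hgR hh (by rw [← ha, h0, map_zero]), he', ha.symm⟩

end Main

section Quotient

variable {M : Type*} [AddCommGroup M] [Module L M]

theorem aeval_mapQ (N : Submodule L M) (T : M →ₗ[L] M) (hT : N ≤ N.comap T) (q : Polynomial L) :
    ∀ y : M, Polynomial.aeval (N.mapQ N T hT) q (Submodule.Quotient.mk y) =
      Submodule.Quotient.mk (Polynomial.aeval T q y) := by
  induction q using Polynomial.induction_on with
  | C a =>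
    intro y
    simp only [Polynomial.aeval_C, Module.algebraMap_end_apply, Submodule.Quotient.mk_smul]
  | add p q hp hq => intro y; simp [hp, hq]
  | monomial n a ih =>
    intro y
    simp only [pow_succ, ← mul_assoc, map_mul, Polynomial.aeval_X, Module.End.mul_apply] at ih ⊢
    rw [Submodule.mapQ_apply]
    exact ih _

omit [IsFF L FL] in
theorem coe_aeval_mul {M : Submodule L FL} {z : FL} (T : M →ₗ[L] M)
    (hT : ∀ y : M, (T y : FL) = z * (y : FL)) (q : Polynomial L) :
    ∀ y : M, ((Polynomial.aeval T q y : M) : FL) = Polynomial.aeval z q * (y : FL) := by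
  induction q using Polynomial.induction_on with
  | C a =>
    intro y
    simp only [Polynomial.aeval_C, Module.algebraMap_end_apply, Submodule.coe_smul,
      Algebra.smul_def]
  | add p q hp hq => intro y; simp [hp, hq, add_mul]
  | monomial n a ih =>
    intro y
    simp only [pow_succ, ← mul_assoc, map_mul, Polynomial.aeval_X, Module.End.mul_apply] at ih ⊢
    rw [ih, hT]
    ring

end Quotient

section Main

variable {D : Divisor L FL}

variable {sG : Finset (Place K F)} {O : Place K F}

/-! ### The auxiliary section and functions -/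

/-- A divisor of degree `0` has a section with poles at `G`. -/
private lemma exists_section (hdeg : Divisor.degree D = 0) (hGc : (sG.card : ℤ) = rGenus K F) :
    ∃ s : FL, s ≠ 0 ∧ s ∈ riemannRochSpace (D + hL.extDiv (setDiv sG)) := by
  have hpos : 0 < rrDim (D + hL.extDiv (setDiv sG)) := by
    have h1 := rrDef_le_rGenus (D + hL.extDiv (setDiv sG))
    have h2 := hL.rGenus_le
    simp only [rrDef, map_add, hdeg, hL.degree_extDiv, degree_setDiv] at h1
    omega
  obtain ⟨⟨s, hs⟩, hs0⟩ := Module.finrank_pos_iff_exists_ne_zero.1 hpos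
  exact ⟨s, fun h => hs0 (Subtype.ext h), hs⟩

/-- The zero divisor of a section does not meet the constant place `O`. -/
private lemma section_apply_ext_eq_zero (hG : rrDim (setDiv sG) = 1) (hO : O ∉ sG)
    {R : RedDatum K L K} {e : FL} {h : F} (he : e ≠ 0) (hh : h ≠ 0) (hR : ReducesTo hL R D e h)
    {s : FL} (hs0 : s ≠ 0) (hs : s ∈ riemannRochSpace (D + hL.extDiv (setDiv sG))) :
    (D + hL.extDiv (setDiv sG) + divisorOf s : Divisor L FL) (hL.ext O) = 0 := by
  obtain ⟨l, gR, a, hl, ha, hse, hga⟩ := exists_scalar hG he hh hR hs0 hs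
  have hΔ0 := fun v => (mem_riemannRochSpace_iff_ne_zero hs0).1 hs v
  simp only [Finsupp.add_apply, divisorOf_apply] at hΔ0 ⊢
  by_contra hne
  obtain ⟨c₀, hc₀⟩ := exists_rrDim_eq (K := K) (F := F)
  set n : ℕ := c₀.toNat + 1
  obtain ⟨f, hf, hfnot⟩ := SetLike.not_le_iff_exists.1 (Jac.rrDim_sub_single_lt
    (D := Finsupp.single O ((n + 1 : ℕ) : ℤ)) (v := O) hc₀
    (by
      simp only [Divisor.degree_single, Curve.deg_eq_one, n]
      push_cast
      linarith [Int.self_le_toNat c₀]))
  obtain ⟨hf0, hfO⟩ := ord_eq_of_notMem hf hfnot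
  rw [Finsupp.single_eq_same] at hfO
  have hφf : algebraMap F FL f ≠ 0 := (_root_.map_ne_zero _).2 hf0
  have hsf : s * algebraMap F FL f ∈ spaceM hL D sG O n := by
    refine (mem_riemannRochSpace_iff_ne_zero (mul_ne_zero hs0 hφf)).2 fun v => ?_
    rw [v.ord_mul hs0 hφf, Finsupp.add_apply]
    have hv0 := hΔ0 v
    by_cases hv : v ∈ Set.range hL.ext
    · obtain ⟨c, rfl⟩ := hv
      rw [hL.ord_ext_algebraMap, hL.extDiv_apply_ext]
      simp only [hL.extDiv_apply_ext, poleDiv, Finsupp.add_apply] at hv0 ⊢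
      by_cases hc : c = O
      · subst hc
        simp only [hL.extDiv_apply_ext] at hne
        rw [Finsupp.single_eq_same, hfO]
        push_cast
        omega
      · have := (mem_riemannRochSpace_iff_ne_zero hf0).1 hf c
        rw [Finsupp.single_eq_of_ne hc] at this ⊢
        omega
    · rw [hL.ord_algebraMap_eq_zero hf0 hv, hL.extDiv_apply_notMem _ hv]
      rw [hL.extDiv_apply_notMem _ hv] at hv0
      omega
  have hge : algebraMap L FL l⁻¹ * (s * algebraMap F FL f) * e =
      ((gR * ⟨_, R.algebraMap_right_mem_gauss hL IsConstExt.refl f⟩ :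
        R.gauss hL IsConstExt.refl) : FL) := by
    show _ = (gR : FL) * algebraMap F FL f
    rw [mul_assoc, mul_right_comm s, hse, ← mul_assoc, ← mul_assoc, ← map_mul,
      inv_mul_cancel₀ hl, map_one, one_mul]
  have h1 := hR _ _ (Algebra.smul_def l⁻¹ (s * algebraMap F FL f) ▸ Submodule.smul_mem _ _ hsf)
    (hge.symm ▸ SetLike.coe_mem _)
  rw [show (⟨_, hge.symm ▸ SetLike.coe_mem _⟩ : R.gauss hL IsConstExt.refl) =
    gR * ⟨_, R.algebraMap_right_mem_gauss hL IsConstExt.refl f⟩ from Subtype.ext hge,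
    map_mul, RedDatum.red_algebraMap_right, mul_right_comm, hga, ← Algebra.smul_def,
    Submodule.smul_mem_iff _ ha] at h1
  have := (mem_riemannRochSpace_iff_ne_zero hf0).1 h1 O
  rw [hfO] at this
  simp [poleDiv, setDiv_apply, hO] at this

/-- Functions `w P` of level `n₀` with one simple pole at `P ∈ G`. -/
private structure PoleFns (sG : Finset (Place K F)) (O : Place K F) (n₀ : ℕ) (w : sG → F) :
    Prop where
  notMem : O ∉ sG
  ne_zero : ∀ P, w P ≠ 0
  ord_eq : ∀ P : sG, (P : Place K F).ord (w P) = -1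
  regular : ∀ P Q : sG, P ≠ Q → OrdGE (Q : Place K F) 0 (w P)
  mem : ∀ P, w P ∈ riemannRochSpace (poleDiv sG O n₀)
  card_add : ∀ n, n₀ ≤ n → sG.card + rrDim (Finsupp.single O (n : ℤ) : Divisor K F) = n + 1

/-- Functions with single simple poles exist. -/
private lemma exists_poleFns (hGc : (sG.card : ℤ) = rGenus K F) (hO : O ∉ sG) :
    ∃ (n₀ : ℕ) (w : sG → F), PoleFns sG O n₀ w := by
  obtain ⟨c₀, hc₀⟩ := exists_rrDim_eq (K := K) (F := F)
  set n₀ : ℕ := c₀.toNat + 1
  have hn₀ : c₀ < (n₀ : ℤ) := by simp only [n₀]; push_cast; linarith [Int.self_le_toNat c₀]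
  choose w hw hwnot using fun P : sG => SetLike.not_le_iff_exists.1 (Jac.rrDim_sub_single_lt
    (D := Finsupp.single O (n₀ : ℤ) + Finsupp.single (P : Place K F) 1) (v := (P : Place K F)) hc₀
    (by simp only [map_add, Divisor.degree_single, Curve.deg_eq_one]; push_cast; linarith))
  have hOP : ∀ P : sG, (P : Place K F) ≠ O := fun P h => hO (h ▸ P.2)
  refine ⟨n₀, w, hO, fun P => (ord_eq_of_notMem (hw P) (hwnot P)).1,
    fun P => (ord_eq_of_notMem (hw P) (hwnot P)).2.trans ?_, fun P Q hPQ => ?_, fun P => ?_,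
    fun n hn => ?_⟩
  · simp [Finsupp.single_eq_of_ne (hOP P)]
  · have := mem_riemannRochSpace.1 (hw P) (Q : Place K F)
    simpa [Finsupp.single_eq_of_ne (hOP Q),
      Finsupp.single_eq_of_ne (fun e => hPQ (Subtype.ext e.symm))] using this
  · refine riemannRochSpace_le_of_le (fun v => ?_) (hw P)
    simp only [poleDiv, Finsupp.add_apply, setDiv_apply, Finsupp.single_apply]
    split_ifs with h1 h2 h3 <;> try omega
    all_goals (exfalso; subst_vars; simp_all)
  · have h1 := hc₀ (Finsupp.single O (n : ℤ)) (by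
      rw [Divisor.degree_single, Curve.deg_eq_one]; push_cast; omega)
    rw [Divisor.degree_single, Curve.deg_eq_one] at h1
    push_cast at h1
    omega

/-- A multiple of the section lies in the spaces of `D`. -/
private lemma mul_algebraMap_mem_spaceM {s : FL}
    (hs : s ∈ riemannRochSpace (D + hL.extDiv (setDiv sG))) {n : ℕ} {f : F}
    (hf : f ∈ riemannRochSpace (Finsupp.single O (n : ℤ))) :
    s * algebraMap F FL f ∈ spaceM hL D sG O n := by
  have := mul_mem_riemannRochSpace hs (hL.mem_riemannRochSpace_extDiv hf)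
  rwa [add_assoc, ← map_add] at this

omit [IsAlgClosed K] [IsFF K F] in
/-- Functions with poles at `O` alone are regular at `G`. -/
private lemma ordGE_zero_of_mem_single (hO : O ∉ sG) {n : ℕ} {f : F}
    (hf : f ∈ riemannRochSpace (Finsupp.single O (n : ℤ))) (P : sG) :
    OrdGE (P : Place K F) 0 f := by
  have hOP : (P : Place K F) ≠ O := fun h => hO (h ▸ P.2)
  simpa [Finsupp.single_eq_of_ne hOP] using mem_riemannRochSpace.1 hf (P : Place K F)

/-! ### Spaces of unbounded level -/

variable (L FL) in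
/-- The span of the functions of `F` with poles at `O` alone. -/
private def spaceSInf (O : Place K F) : Submodule L FL := ⨆ n, spaceS L FL O n

variable (hL) in
/-- The functions with poles bounded by `D + G` outside `O`. -/
private def spaceMInf (D : Divisor L FL) (sG : Finset (Place K F)) (O : Place K F) :
    Submodule L FL :=
  ⨆ n, spaceM hL D sG O n

variable (hL) in
/-- The multiples of `s` in `spaceMInf`. -/
private abbrev sectionSub (D : Divisor L FL) (sG : Finset (Place K F)) (O : Place K F) (s : FL) :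
    Submodule L (spaceMInf hL D sG O) :=
  ((spaceSInf L FL O).map (LinearMap.mulLeft L s)).comap (spaceMInf hL D sG O).subtype

/-- Membership in `spaceMInf`. -/
private lemma mem_spaceMInf {y : FL} :
    y ∈ spaceMInf hL D sG O ↔ ∃ n, y ∈ spaceM hL D sG O n :=
  Submodule.mem_iSup_of_directed _ (Monotone.directed_le fun _ _ h => spaceM_mono h)

omit [Algebra K L] [Algebra K FL] [IsScalarTower K F FL] [IsScalarTower K L FL] [IsAlgClosed K]
    [IsFF K F] [IsFF L FL] in
/-- Membership in `spaceSInf`. -/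
private lemma mem_spaceSInf {y : FL} : y ∈ spaceSInf L FL O ↔ ∃ n, y ∈ spaceS L FL O n :=
  Submodule.mem_iSup_of_directed _ (Monotone.directed_le fun _ _ h => spaceS_mono h)

/-- Multiplication by `t ∈ L(j O)` raises the level by `j`. -/
private lemma mul_mem_spaceM_add {j : ℕ} {t : F}
    (ht : t ∈ riemannRochSpace (Finsupp.single O (j : ℤ))) {n : ℕ} {y : FL}
    (hy : y ∈ spaceM hL D sG O n) : algebraMap F FL t * y ∈ spaceM hL D sG O (n + j) := by
  have h1 := mul_mem_riemannRochSpace hy (hL.mem_riemannRochSpace_extDiv ht)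
  rw [mul_comm, add_assoc, ← map_add] at h1
  rwa [show poleDiv sG O n + Finsupp.single O (j : ℤ) = poleDiv sG O (n + j) from by
    simp [poleDiv, add_assoc, ← Finsupp.single_add]] at h1

/-- Multiplication by `t` on `spaceMInf`. -/
private def mulEnd {j : ℕ} {t : F} (ht : t ∈ riemannRochSpace (Finsupp.single O (j : ℤ))) :
    spaceMInf hL D sG O →ₗ[L] spaceMInf hL D sG O where
  toFun y := ⟨algebraMap F FL t * (y : FL), by
    obtain ⟨n, hn⟩ := mem_spaceMInf.1 y.2
    exact mem_spaceMInf.2 ⟨n + j, mul_mem_spaceM_add ht hn⟩⟩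
  map_add' _ _ := Subtype.ext (mul_add _ _ _)
  map_smul' _ _ := Subtype.ext (mul_smul_comm _ _ _)

omit [Algebra K L] [Algebra K FL] [IsScalarTower K F FL] [IsScalarTower K L FL] [IsAlgClosed K]
    [IsFF K F] [IsFF L FL] in
/-- Multiplication by `t` preserves the span of the functions with poles at `O` alone. -/
private lemma mul_mem_spaceSInf {j : ℕ} {t : F}
    (ht : t ∈ riemannRochSpace (Finsupp.single O (j : ℤ))) {z : FL} (hz : z ∈ spaceSInf L FL O) :
    algebraMap F FL t * z ∈ spaceSInf L FL O := by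
  obtain ⟨n, hn⟩ := mem_spaceSInf.1 hz
  refine mem_spaceSInf.2 ⟨n + j, ?_⟩
  clear hz
  induction hn using Submodule.span_induction with
  | mem x hx =>
    obtain ⟨f, hf, rfl⟩ := hx
    rw [← map_mul]
    refine Submodule.subset_span ⟨t * f, ?_, rfl⟩
    have h1 := mul_mem_riemannRochSpace ht hf
    rwa [← Finsupp.single_add, add_comm (j : ℤ), ← Nat.cast_add] at h1
  | zero => rw [mul_zero]; exact Submodule.zero_mem _
  | add x y _ _ hx hy => rw [mul_add]; exact Submodule.add_mem _ hx hy
  | smul r x _ hx => rw [mul_smul_comm]; exact Submodule.smul_mem _ r hx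

/-- Multiplication by `t` descends to the quotient by the multiples of `s`. -/
private lemma sectionSub_le_comap_mulEnd {j : ℕ} {t : F}
    (ht : t ∈ riemannRochSpace (Finsupp.single O (j : ℤ))) (s : FL) :
    sectionSub hL D sG O s ≤ (sectionSub hL D sG O s).comap (mulEnd ht) := by
  rintro y ⟨z, hz, hzy⟩
  have h' : s * z = (y : FL) := hzy
  exact ⟨algebraMap F FL t * z, mul_mem_spaceSInf ht hz, by
    show s * (algebraMap F FL t * z) = algebraMap F FL t * (y : FL)
    rw [← h', mul_left_comm]⟩

/-! ### The matrix of multiplication at one valuation -/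

variable (hL) in
/-- At `R`: the reduction of the section `s` and lifts of the `w P`. -/
private structure LocalData (D : Divisor L FL) (sG : Finset (Place K F)) (O : Place K F) (s : FL)
    (w : sG → F) (n₀ : ℕ) (R : RedDatum K L K) where
  e : FL
  h : F
  α : K
  l : L
  gR : R.gauss hL IsConstExt.refl
  β : sG → R.gauss hL IsConstExt.refl
  e_ne : e ≠ 0
  α_ne : α ≠ 0
  l_ne : l ≠ 0
  section_mem : s ∈ riemannRochSpace (D + hL.extDiv (setDiv sG))
  section_mul : s * e = algebraMap L FL l * (gR : FL)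
  red_gR : R.red hL IsConstExt.refl gR * h = algebraMap K F α
  lift_mem : ∀ P, (β P : FL) * e⁻¹ ∈ spaceM hL D sG O n₀
  red_lift : ∀ P, R.red hL IsConstExt.refl (β P) * h = w P
  finrank_le : ∀ n, finrank L (spaceM hL D sG O n) ≤ n + 1

/-- Such data exist wherever `D` reduces to a principal divisor. -/
private lemma nonempty_localData (hG : rrDim (setDiv sG) = 1) (hGc : (sG.card : ℤ) = rGenus K F)
    (hdeg : Divisor.degree D = 0) {s : FL} (hs0 : s ≠ 0)
    (hs : s ∈ riemannRochSpace (D + hL.extDiv (setDiv sG))) {n₀ : ℕ} {w : sG → F}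
    (hw : PoleFns sG O n₀ w) {R : RedDatum K L K} {e : FL} {h : F} (he : e ≠ 0) (hh : h ≠ 0)
    (hR : ReducesTo hL R D e h) : Nonempty (LocalData hL D sG O s w n₀ R) := by
  obtain ⟨l, gR, a, hl, ha, hse, hga⟩ := exists_scalar hG he hh hR hs0 hs
  choose β hβ hβw using fun P : sG => exists_lifts hG hGc he hh hR hdeg n₀ (hw.mem P)
  exact ⟨⟨e, h, a, l, gR, β, he, ha, hl, hs, hse, hga, hβ, hβw, fun n =>
    (rrDim_le_of_reducesTo he hh hR _).trans (rrDim_poleDiv hG hGc n).le⟩⟩

/-- A basis of `L(n O)`. -/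
private def basisS (O : Place K F) (n : ℕ) :
    Basis (Fin (rrDim (Finsupp.single O (n : ℤ) : Divisor K F))) K
      (riemannRochSpace (Finsupp.single O (n : ℤ) : Divisor K F)) :=
  Module.finBasis K _

variable {s : FL} {w : sG → F} {n₀ : ℕ} {R : RedDatum K L K}
  (δ : LocalData hL D sG O s w n₀ R)

/-- The lifts of the `w P` and the multiples of `gR` by a basis of `L(n O)`. -/
private def LocalData.family (n : ℕ) :
    sG ⊕ Fin (rrDim (Finsupp.single O (n : ℤ) : Divisor K F)) → R.gauss hL IsConstExt.refl :=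
  Sum.elim δ.β fun k => δ.gR *
    ⟨_, R.algebraMap_right_mem_gauss hL IsConstExt.refl (basisS O n k : F)⟩

/-- The multiples of `gR` come from multiples of `s`. -/
private lemma LocalData.coe_family_inr (n : ℕ)
    (k : Fin (rrDim (Finsupp.single O (n : ℤ) : Divisor K F))) :
    (δ.family n (.inr k) : FL) * δ.e⁻¹ = s * (δ.l⁻¹ • algebraMap F FL (basisS O n k : F)) := by
  have hlF : algebraMap L FL δ.l ≠ 0 := (_root_.map_ne_zero _).2 δ.l_ne
  have he := δ.e_ne
  show (δ.gR : FL) * algebraMap F FL (basisS O n k : F) * δ.e⁻¹ = _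
  rw [Algebra.smul_def, map_inv₀]
  field_simp
  linear_combination -(algebraMap F FL (basisS O n k : F)) * δ.section_mul

/-- The reduction of a multiple of `gR`. -/
private lemma LocalData.red_family_inr (n : ℕ)
    (k : Fin (rrDim (Finsupp.single O (n : ℤ) : Divisor K F))) :
    R.red hL IsConstExt.refl (δ.family n (.inr k)) * δ.h = δ.α • (basisS O n k : F) := by
  simp only [LocalData.family, Sum.elim_inr, map_mul, RedDatum.red_algebraMap_right,
    Algebra.algebraMap_self, RingHom.id_apply]
  rw [mul_right_comm, δ.red_gR, Algebra.smul_def]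

/-- The reductions of the family are independent. -/
private lemma LocalData.linearIndependent_red (hw : PoleFns sG O n₀ w) (n : ℕ) :
    LinearIndependent K fun i => R.red hL IsConstExt.refl (δ.family n i) := by
  rw [Fintype.linearIndependent_iff]
  intro c hc
  have h1 := congrArg (· * δ.h) hc
  simp only [Finset.sum_mul, smul_mul_assoc, zero_mul] at h1
  rw [Fintype.sum_sum_type] at h1
  simp only [δ.red_family_inr, smul_smul] at h1
  simp only [LocalData.family, Sum.elim_inl, δ.red_lift] at h1
  set u := ∑ k, (c (.inr k) * δ.α) • (basisS O n k : F)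
  have hu : u ∈ riemannRochSpace (Finsupp.single O (n : ℤ)) :=
    Submodule.sum_mem _ fun k _ => Submodule.smul_mem _ _ (basisS O n k).2
  have hcl : ∀ P, c (.inl P) = 0 := by
    intro P
    by_contra hci
    have h2 : c (.inl P) • w P = -(∑ Q ∈ Finset.univ.erase P, c (.inl Q) • w Q + u) := by
      rw [← Finset.add_sum_erase _ _ (Finset.mem_univ P)] at h1
      linear_combination h1
    have h3 : OrdGE (P : Place K F) 0 (c (.inl P) • w P) := by
      rw [h2]
      exact ((OrdGE.sum fun Q hQ => (hw.regular _ _ (Finset.mem_erase.1 hQ).1).smul _).add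
        (ordGE_zero_of_mem_single hw.notMem hu _)).neg
    rw [Algebra.smul_def] at h3
    rcases h3 with h3 | h3
    · exact mul_ne_zero ((_root_.map_ne_zero _).2 hci) (hw.ne_zero _) h3
    · rw [Place.ord_mul _ ((_root_.map_ne_zero _).2 hci) (hw.ne_zero _),
        Curve.ord_algebraMap hci, hw.ord_eq] at h3
      omega
  simp only [hcl, zero_smul, Finset.sum_const_zero, zero_add] at h1
  have h4 := Fintype.linearIndependent_iff.1 ((basisS O n).linearIndependent.map'
    (riemannRochSpace _).subtype (Submodule.ker_subtype _)) _ h1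
  rintro (P | k)
  · exact hcl P
  · exact (mul_eq_zero.1 (h4 k)).resolve_right δ.α_ne

/-- The family is independent over `L`. -/
private lemma LocalData.linearIndependent_family (hw : PoleFns sG O n₀ w) (n : ℕ) :
    LinearIndependent L fun i => (δ.family n i : FL) := by
  rw [← linearIndependent_equiv (Fintype.equivFin _).symm]
  exact R.linearIndependent_of_red hL IsConstExt.refl
    ((δ.linearIndependent_red hw n).comp _ (Fintype.equivFin _).symm.injective)

/-- Coefficients of an integral combination of the family are integral. -/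
private lemma LocalData.coeff_mem (hw : PoleFns sG O n₀ w) {n : ℕ}
    {c : sG ⊕ Fin (rrDim (Finsupp.single O (n : ℤ) : Divisor K F)) → L}
    (h : ∑ i, c i • (δ.family n i : FL) ∈ R.gauss hL IsConstExt.refl)
    (i : sG ⊕ Fin (rrDim (Finsupp.single O (n : ℤ) : Divisor K F))) : c i ∈ R.V := by
  set σ := (Fintype.equivFin (sG ⊕ Fin (rrDim (Finsupp.single O (n : ℤ) : Divisor K F)))).symm
  simpa using R.coeff_mem hL IsConstExt.refl
    ((δ.linearIndependent_red hw n).comp σ σ.injective) (c := fun x => c (σ x))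
    (by rwa [σ.sum_comp fun x => c x • (δ.family n x : FL)]) (σ.symm i)

/-- The family lies in the space of level `n`. -/
private lemma LocalData.family_mem {n : ℕ} (hn : n₀ ≤ n) :
    ∀ i, (δ.family n i : FL) * δ.e⁻¹ ∈ spaceM hL D sG O n
  | .inl P => spaceM_mono hn (δ.lift_mem P)
  | .inr k => by
    rw [δ.coe_family_inr, mul_smul_comm]
    exact Submodule.smul_mem _ _ (mul_algebraMap_mem_spaceM δ.section_mem (basisS O n k).2)

/-- The family spans the space of level `n`. -/
private lemma LocalData.exists_coeff (hw : PoleFns sG O n₀ w) {n : ℕ} (hn : n₀ ≤ n) {y : FL}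
    (hy : y ∈ spaceM hL D sG O n) :
    ∃ c : sG ⊕ Fin (rrDim (Finsupp.single O (n : ℤ) : Divisor K F)) → L,
      ∑ i, c i • (δ.family n i : FL) = y * δ.e := by
  have hind : LinearIndependent L (fun i =>
      (⟨(δ.family n i : FL) * δ.e⁻¹, δ.family_mem hn i⟩ : spaceM hL D sG O n)) := by
    refine LinearIndependent.of_comp (spaceM hL D sG O n).subtype ?_
    exact (δ.linearIndependent_family hw n).map'
      (LinearMap.mulRight L δ.e⁻¹)
      (LinearMap.ker_eq_bot.2 (mul_left_injective₀ (inv_ne_zero δ.e_ne)))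
  have hspan := hind.span_eq_top_of_card_eq_finrank' (le_antisymm
    hind.fintype_card_le_finrank ((δ.finrank_le n).trans (by
      rw [Fintype.card_sum, Fintype.card_coe, Fintype.card_fin, hw.card_add n hn])))
  obtain ⟨c, hc⟩ := (Submodule.mem_span_range_iff_exists_fun L).1
    (hspan.ge (Submodule.mem_top (x := (⟨y, hy⟩ : spaceM hL D sG O n))))
  refine ⟨c, ?_⟩
  have h1 := congrArg Subtype.val hc
  simp only [AddSubmonoidClass.coe_finsetSum, SetLike.val_smul] at h1
  rw [← h1, Finset.sum_mul]
  exact Finset.sum_congr rfl fun i _ => by rw [smul_mul_assoc, inv_mul_cancel_right₀ δ.e_ne]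

/-- The classes of the lifts modulo the multiples of `s`. -/
private def LocalData.cls (P : sG) : spaceMInf hL D sG O ⧸ sectionSub hL D sG O s :=
  Submodule.Quotient.mk ⟨_, mem_spaceMInf.2 ⟨n₀, δ.lift_mem P⟩⟩

/-- A class is given by the coefficients at the lifts. -/
private lemma LocalData.mk_eq_sum_cls {n : ℕ} {y : FL} (hy : y ∈ spaceM hL D sG O n)
    {c : sG ⊕ Fin (rrDim (Finsupp.single O (n : ℤ) : Divisor K F)) → L}
    (hc : ∑ i, c i • (δ.family n i : FL) = y * δ.e) :
    (Submodule.Quotient.mk ⟨y, mem_spaceMInf.2 ⟨n, hy⟩⟩ :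
      spaceMInf hL D sG O ⧸ sectionSub hL D sG O s) = ∑ P, c (.inl P) • δ.cls P := by
  simp only [LocalData.cls, ← Submodule.Quotient.mk_smul]
  rw [← Submodule.mkQ_apply, ← sub_eq_zero]
  simp only [← Submodule.mkQ_apply, ← map_sum, ← map_sub]
  rw [Submodule.mkQ_apply, Submodule.Quotient.mk_eq_zero]
  refine ⟨∑ k, (c (.inr k) * δ.l⁻¹) • algebraMap F FL (basisS O n k : F), mem_spaceSInf.2 ⟨n,
    Submodule.sum_mem _ fun k _ => Submodule.smul_mem _ _
      (Submodule.subset_span ⟨_, (basisS O n k).2, rfl⟩)⟩, ?_⟩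
  have h1 := congrArg (· * δ.e⁻¹) hc
  simp only [Fintype.sum_sum_type, add_mul, Finset.sum_mul, smul_mul_assoc, δ.coe_family_inr,
    mul_inv_cancel_right₀ δ.e_ne] at h1
  simp only [LocalData.family, Sum.elim_inl] at h1
  simp only [LinearMap.mulLeft_apply, Submodule.subtype_apply, AddSubgroupClass.coe_sub,
    AddSubmonoidClass.coe_finsetSum, SetLike.val_smul, Finset.mul_sum]
  rw [← h1, add_sub_cancel_left]
  exact Finset.sum_congr rfl fun k _ => by rw [mul_smul_comm, mul_smul, mul_smul_comm]

/-- The classes of the lifts are independent. -/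
private lemma LocalData.linearIndependent_cls (hw : PoleFns sG O n₀ w) :
    LinearIndependent L δ.cls := by
  rw [Fintype.linearIndependent_iff]
  intro c hc
  simp only [LocalData.cls, ← Submodule.mkQ_apply, ← map_smul, ← map_sum] at hc
  rw [Submodule.mkQ_apply, Submodule.Quotient.mk_eq_zero] at hc
  obtain ⟨z, hz, hze⟩ := hc
  obtain ⟨n, hn⟩ := mem_spaceSInf.1 hz
  have hle : spaceS L FL O n ≤
      Submodule.span L (Set.range fun k => algebraMap F FL (basisS O n k : F)) := by
    refine Submodule.span_le.2 ?_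
    rintro _ ⟨f, hf, rfl⟩
    have h1 := congrArg Subtype.val ((basisS O n).sum_repr ⟨f, hf⟩)
    rw [AddSubmonoidClass.coe_finsetSum] at h1
    rw [← show _ = f from h1, map_sum]
    refine Submodule.sum_mem _ fun k _ => ?_
    rw [SetLike.val_smul, Algebra.smul_def, map_mul, ← IsScalarTower.algebraMap_apply,
      IsScalarTower.algebraMap_apply K L FL, ← Algebra.smul_def]
    exact Submodule.smul_mem _ _ (Submodule.subset_span ⟨k, rfl⟩)
  obtain ⟨dd, hdd⟩ := (Submodule.mem_span_range_iff_exists_fun L).1 (hle hn)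
  have h0 := Fintype.linearIndependent_iff.1
    (δ.linearIndependent_family hw n)
    (Sum.elim c fun k => -(dd k * δ.l)) (by
      refine mul_right_cancel₀ (inv_ne_zero δ.e_ne) ?_
      simp only [Fintype.sum_sum_type, Sum.elim_inl, Sum.elim_inr, add_mul, Finset.sum_mul,
        smul_mul_assoc, δ.coe_family_inr, zero_mul]
      simp only [LinearMap.mulLeft_apply, Submodule.subtype_apply,
        AddSubmonoidClass.coe_finsetSum, SetLike.val_smul] at hze
      simp only [LocalData.family, Sum.elim_inl]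
      rw [← hze, ← hdd, Finset.mul_sum, ← Finset.sum_add_distrib]
      refine Finset.sum_eq_zero fun k _ => ?_
      rw [mul_smul_comm, mul_smul_comm, smul_smul, neg_mul, mul_assoc, mul_inv_cancel₀ δ.l_ne,
        mul_one, ← add_smul, add_neg_cancel, zero_smul])
  exact fun P => h0 (.inl P)

/-- The classes of the lifts span. -/
private lemma LocalData.span_cls (hw : PoleFns sG O n₀ w) :
    ⊤ ≤ Submodule.span L (Set.range δ.cls) := by
  rintro x -
  obtain ⟨⟨y, hy⟩, rfl⟩ := Submodule.Quotient.mk_surjective _ x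
  obtain ⟨m, hm⟩ := mem_spaceMInf.1 hy
  have hm' := spaceM_mono (le_max_left m n₀) hm
  obtain ⟨c, hc⟩ := δ.exists_coeff hw (le_max_right _ _) hm'
  rw [δ.mk_eq_sum_cls hm' hc]
  exact Submodule.sum_mem _ fun P _ => Submodule.smul_mem _ _ (Submodule.subset_span ⟨P, rfl⟩)

omit [IsAlgClosed K] [IsFF K F] in
/-- Reduced coordinates of `t w_i` at the simple poles are diagonal. -/
private lemma coeff_eq_of_residual (hw : PoleFns sG O n₀ w) {j : ℕ} {t : F}
    (ht : t ∈ riemannRochSpace (Finsupp.single O (j : ℤ))) {a : sG → K}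
    (hta : ∀ P : sG, OrdGE (P : Place K F) 1 (t - algebraMap K F (a P))) {r : sG → K} {u : F}
    (i k : sG) (hu : OrdGE (k : Place K F) 0 u)
    (hred : ∑ x, algebraMap K F (r x) * w x + u = t * w i) :
    r k = if k = i then a k else 0 := by
  have hsplit := Finset.add_sum_erase Finset.univ (fun x => algebraMap K F (r x) * w x)
    (Finset.mem_univ k)
  have hrest : OrdGE (k : Place K F) 0
      (∑ x ∈ Finset.univ.erase k, algebraMap K F (r x) * w x) := OrdGE.sum fun x hx => by
    have := (hw.regular x k (Finset.mem_erase.1 hx).1).smul (r x)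
    rwa [Algebra.smul_def] at this
  split_ifs with hki
  · subst hki
    by_contra hne
    have h2 : OrdGE (k : Place K F) 0 ((t - algebraMap K F (r k)) * w k) := by
      have e : (t - algebraMap K F (r k)) * w k =
          (∑ x ∈ Finset.univ.erase k, algebraMap K F (r x) * w x) + u := by
        linear_combination -hred - hsplit
      rw [e]
      exact hrest.add hu
    have h3 : OrdGE (k : Place K F) 1 (t - algebraMap K F (r k)) := by
      rcases h2 with h2 | h2
      · exact Or.inl ((mul_eq_zero.1 h2).resolve_right (hw.ne_zero _))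
      · rcases eq_or_ne (t - algebraMap K F (r k)) 0 with h0 | h0
        · exact Or.inl h0
        · rw [Place.ord_mul _ h0 (hw.ne_zero _), hw.ord_eq] at h2
          exact Or.inr (by omega)
    have h4 := (hta k).sub h3
    rw [sub_sub_sub_cancel_left, ← map_sub] at h4
    rcases h4 with h4 | h4
    · exact hne (sub_eq_zero.1 ((map_eq_zero (algebraMap K F)).1 h4))
    · rw [Curve.ord_algebraMap (sub_ne_zero.2 hne)] at h4
      omega
  · by_contra hne
    have htw : OrdGE (k : Place K F) 0 (t * w i) := by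
      simpa using (ordGE_zero_of_mem_single hw.notMem ht k).mul (hw.regular i k (Ne.symm hki))
    have h2 : OrdGE (k : Place K F) 0 (algebraMap K F (r k) * w k) := by
      have e : algebraMap K F (r k) * w k =
          t * w i - (∑ x ∈ Finset.univ.erase k, algebraMap K F (r x) * w x) - u := by
        linear_combination hred + hsplit
      rw [e]
      exact (htw.sub hrest).sub hu
    rcases h2 with h2 | h2
    · exact mul_ne_zero ((_root_.map_ne_zero _).2 hne) (hw.ne_zero _) h2
    · rw [Place.ord_mul _ ((_root_.map_ne_zero _).2 hne) (hw.ne_zero _),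
        Curve.ord_algebraMap hne, hw.ord_eq] at h2
      omega

include δ in
/-- In the classes of the lifts, multiplication by `t` is integral with diagonal reduction. -/
private lemma LocalData.exists_basis_matrix (hw : PoleFns sG O n₀ w) {j : ℕ} {t : F}
    (ht : t ∈ riemannRochSpace (Finsupp.single O (j : ℤ))) {a : sG → K}
    (hta : ∀ P : sG, OrdGE (P : Place K F) 1 (t - algebraMap K F (a P))) :
    ∃ (b : Basis sG L (spaceMInf hL D sG O ⧸ sectionSub hL D sG O s)) (C : Matrix sG sG R.V),
      LinearMap.toMatrix b b (Submodule.mapQ (sectionSub hL D sG O s) (sectionSub hL D sG O s)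
        (mulEnd ht) (sectionSub_le_comap_mulEnd ht s)) = C.map R.V.subtype ∧
      C.map R.ρ = Matrix.diagonal a := by
  choose c hc using fun i =>
    δ.exists_coeff hw (Nat.le_add_right n₀ j) (mul_mem_spaceM_add ht (δ.lift_mem i))
  have hint : ∀ i x, c i x ∈ R.V := fun i => δ.coeff_mem hw (by
    rw [hc i, mul_assoc, inv_mul_cancel_right₀ δ.e_ne]
    exact mul_mem (R.algebraMap_right_mem_gauss hL IsConstExt.refl t) (δ.β i).2)
  refine ⟨Basis.mk (δ.linearIndependent_cls hw) (δ.span_cls hw),
    fun k i => ⟨_, hint i (.inl k)⟩, ?_, ?_⟩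
  · ext k i
    rw [LinearMap.toMatrix_apply, Matrix.map_apply]
    rw [show Submodule.mapQ _ _ (mulEnd ht) _ ((Basis.mk (δ.linearIndependent_cls hw)
        (δ.span_cls hw)) i) = ∑ P, c i (.inl P) • Basis.mk (δ.linearIndependent_cls hw)
          (δ.span_cls hw) P by
      simp only [Basis.mk_apply]
      exact δ.mk_eq_sum_cls (mul_mem_spaceM_add ht (δ.lift_mem i)) (hc i), Basis.repr_sum_self]
    rfl
  ext k i
  rw [Matrix.map_apply, Matrix.diagonal_apply]
  have h0 : (∑ x, ⟨_, R.algebraMap_mem_gauss hL IsConstExt.refl ⟨c i x, hint i x⟩⟩ *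
      δ.family (n₀ + j) x : R.gauss hL IsConstExt.refl) =
      ⟨_, R.algebraMap_right_mem_gauss hL IsConstExt.refl t⟩ * δ.β i := Subtype.ext (by
    rw [AddSubmonoidClass.coe_finsetSum]
    simp only [MulMemClass.coe_mul]
    refine Eq.trans (Finset.sum_congr rfl fun x _ => (Algebra.smul_def _ _).symm) ?_
    rw [hc i, mul_assoc, inv_mul_cancel_right₀ δ.e_ne])
  have hred : ∑ x, algebraMap K F (R.ρ ⟨c i x, hint i x⟩) *
      (R.red hL IsConstExt.refl (δ.family (n₀ + j) x) * δ.h) = t * w i := by
    calc _ = ∑ x, R.red hL IsConstExt.refl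
          (⟨_, R.algebraMap_mem_gauss hL IsConstExt.refl ⟨c i x, hint i x⟩⟩ *
            δ.family (n₀ + j) x) * δ.h :=
          Finset.sum_congr rfl fun x _ => by
            rw [map_mul, RedDatum.red_algebraMap_left, mul_assoc]
      _ = R.red hL IsConstExt.refl
            (⟨_, R.algebraMap_right_mem_gauss hL IsConstExt.refl t⟩ * δ.β i) * δ.h := by
          rw [← h0, map_sum, Finset.sum_mul]
      _ = t * w i := by
          rw [map_mul, RedDatum.red_algebraMap_right, mul_assoc, δ.red_lift]
          simp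
  simp only [Fintype.sum_sum_type, δ.red_family_inr] at hred
  simp only [LocalData.family, Sum.elim_inl, δ.red_lift] at hred
  refine coeff_eq_of_residual hw ht hta (r := fun P => R.ρ ⟨_, hint i (.inl P)⟩) i k
    (OrdGE.sum fun x _ => ?_) hred
  rw [← Algebra.smul_def]
  exact ((ordGE_zero_of_mem_single hw.notMem (basisS O _ x).2 k).smul δ.α).smul _

omit [IsAlgClosed K] in
/-- An endomorphism with the same diagonal reduction at enough valuations has the corresponding
characteristic polynomial. -/
private lemma charpoly_eq_map {ι V : Type*} [Fintype ι] [DecidableEq ι] [AddCommGroup V]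
    [Module L V] [Module.Finite L V] (S : Set (RedDatum K L K)) (hne : S.Nonempty)
    (H : ∀ z : L, (∀ R ∈ S, z ∈ R.V) → ∃ a : K, algebraMap K L a = z) (τ : Module.End L V)
    (a : ι → K) (hτ : ∀ R ∈ S, ∃ (b : Basis ι L V) (C : Matrix ι ι R.V),
      LinearMap.toMatrix b b τ = C.map R.V.subtype ∧ C.map R.ρ = Matrix.diagonal a) :
    τ.charpoly = (∏ i, (Polynomial.X - Polynomial.C (a i))).map (algebraMap K L) := by
  set q₀ : Polynomial K := ∏ i, (Polynomial.X - Polynomial.C (a i))
  have hcoef : ∀ R ∈ S, ∀ k, ∃ hk : τ.charpoly.coeff k ∈ R.V,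
      R.ρ ⟨_, hk⟩ = q₀.coeff k := by
    intro R hRS k
    obtain ⟨b, C, hC, hCρ⟩ := hτ R hRS
    have h1 : τ.charpoly = C.charpoly.map R.V.subtype := by
      rw [← LinearMap.charpoly_toMatrix τ b, hC]
      exact Matrix.charpoly_map C R.V.subtype
    have h2 : C.charpoly.map R.ρ = q₀ := by
      rw [← Matrix.charpoly_map, hCρ, Matrix.charpoly_diagonal]
    have h3 : τ.charpoly.coeff k = (C.charpoly.coeff k : L) := by
      rw [h1, Polynomial.coeff_map]; rfl
    refine ⟨h3 ▸ (C.charpoly.coeff k).2, ?_⟩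
    rw [← h2, Polynomial.coeff_map]
    exact congrArg R.ρ (Subtype.ext h3)
  obtain ⟨R₀, hR₀⟩ := hne
  refine Polynomial.ext fun k => ?_
  obtain ⟨κ₀, hκ₀⟩ := H _ fun R hR => (hcoef R hR k).choose
  obtain ⟨hk, hρ⟩ := hcoef R₀ hR₀ k
  rw [Polynomial.coeff_map]
  refine hκ₀.symm.trans (congrArg _ ?_)
  rw [← hρ]
  exact (R₀.ρ_algebraMap κ₀).symm.trans (congrArg R₀.ρ (Subtype.ext hκ₀))

/-- `∏ (t - a_P)` carries the spaces of `D` into the multiples of the section. -/
private lemma prod_sub_mul_mem (S : Set (RedDatum K L K)) (hne : S.Nonempty)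
    (H : ∀ z : L, (∀ R ∈ S, z ∈ R.V) → ∃ a : K, algebraMap K L a = z)
    (hw : PoleFns sG O n₀ w) (hloc : ∀ R ∈ S, Nonempty (LocalData hL D sG O s w n₀ R))
    {j : ℕ} {t : F} (ht : t ∈ riemannRochSpace (Finsupp.single O (j : ℤ))) {a : sG → K}
    (hta : ∀ P : sG, OrdGE (P : Place K F) 1 (t - algebraMap K F (a P))) {n : ℕ} {y : FL}
    (hy : y ∈ spaceM hL D sG O n) :
    algebraMap F FL (∏ P, (t - algebraMap K F (a P))) * y ∈
      (spaceSInf L FL O).map (LinearMap.mulLeft L s) := by
  set τ := Submodule.mapQ (sectionSub hL D sG O s) (sectionSub hL D sG O s)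
    (mulEnd ht) (sectionSub_le_comap_mulEnd ht s) with hτdef
  obtain ⟨R₀, hR₀⟩ := hne
  obtain ⟨δ₀⟩ := hloc R₀ hR₀
  obtain ⟨b₀, -⟩ := δ₀.exists_basis_matrix hw ht hta
  have : Module.Finite L (spaceMInf hL D sG O ⧸ sectionSub hL D sG O s) :=
    Module.Finite.of_basis b₀
  have h0 := LinearMap.aeval_self_charpoly τ
  rw [charpoly_eq_map S ⟨R₀, hR₀⟩ H τ a fun R hR => by
    obtain ⟨δ⟩ := hloc R hR
    exact δ.exists_basis_matrix hw ht hta] at h0
  have h1 := LinearMap.congr_fun h0 (Submodule.Quotient.mk ⟨y, mem_spaceMInf.2 ⟨n, hy⟩⟩)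
  rw [hτdef, aeval_mapQ, LinearMap.zero_apply, Submodule.Quotient.mk_eq_zero] at h1
  obtain ⟨z, hz, hze⟩ := h1
  refine ⟨z, hz, hze.trans ?_⟩
  rw [Submodule.subtype_apply, coe_aeval_mul (mulEnd ht) (z := algebraMap F FL t) (fun _ => rfl)]
  congr 1
  rw [Polynomial.aeval_map_algebraMap, Polynomial.aeval_algebraMap_apply, map_prod]
  simp

/-! ### Bounding the zeros of the section -/

/-- A section of high level exact at a given place. -/
private lemma exists_exact_section (hdeg : Divisor.degree D = 0) (v : Place L FL) :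
    ∃ (n : ℕ) (y : FL), y ≠ 0 ∧ y ∈ spaceM hL D sG O n ∧
      v.ord y = -(D + hL.extDiv (poleDiv sG O n)) v := by
  obtain ⟨c₁, hc₁⟩ := exists_rrDim_eq (K := L) (F := FL)
  set n : ℕ := (c₁ + v.deg).toNat + 1
  have hn : c₁ + (v.deg : ℤ) ≤ n := by simp only [n]; omega
  set E : Divisor L FL := D + hL.extDiv (poleDiv sG O n)
  have hE : c₁ + (v.deg : ℤ) ≤ Divisor.degree E := by
    simp only [E, poleDiv, map_add, hdeg, hL.degree_extDiv, degree_setDiv, Divisor.degree_single,
      Curve.deg_eq_one]
    push_cast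
    omega
  have hnle : ¬ riemannRochSpace E ≤ riemannRochSpace (E - Finsupp.single v 1) := fun hle => by
    have h0 : rrDim E ≤ rrDim (E - Finsupp.single v 1) := Submodule.finrank_mono hle
    have h1 := hc₁ E (by omega)
    have h2 := hc₁ (E - Finsupp.single v 1) (by
      rw [map_sub, Divisor.degree_single, one_mul]; omega)
    rw [map_sub, Divisor.degree_single, one_mul] at h2
    have := deg_pos v
    omega
  obtain ⟨y, hy, hynot⟩ := SetLike.not_le_iff_exists.1 hnle
  obtain ⟨hy0, hord⟩ := ord_eq_of_notMem hy hynot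
  exact ⟨n, y, hy0, hy, hord⟩

omit [IsAlgClosed K] [IsFF K F] in
/-- `t - a_P` vanishes at `c` exactly for `P = c`, if `t` has a simple zero at `c` and none at the
other points of `G`. -/
private lemma ord_sub_eq_indicator {c : Place K F} {t : F} (htc : c.ord t = 1)
    (htq : ∀ q ∈ sG.erase c, q.ord t = 0) {a : sG → K}
    (ha : ∀ P : sG, OrdGE (P : Place K F) 1 (t - algebraMap K F (a P)))
    (ht0 : ∀ P, t - algebraMap K F (a P) ≠ 0) (P : sG) :
    c.ord (t - algebraMap K F (a P)) = if (P : Place K F) = c then 1 else 0 := by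
  split_ifs with hP
  · have h1 : a P = 0 := by
      by_contra h0
      have h2 : OrdGE (P : Place K F) 1 t := Or.inr (by rw [hP, htc])
      have h3 := h2.sub (ha P)
      rw [sub_sub_cancel] at h3
      rcases h3 with h3 | h3
      · exact h0 ((map_eq_zero (algebraMap K F)).1 h3)
      · rw [Curve.ord_algebraMap h0] at h3; omega
    rw [h1, map_zero, sub_zero, htc]
  · have haP : a P ≠ 0 := fun h0 => by
      have h1 := ha P
      rw [h0, map_zero, sub_zero] at h1
      rcases h1 with h1 | h1
      · exact ht0 P (by rw [h1, h0, map_zero, sub_zero])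
      · rw [htq _ (Finset.mem_erase.2 ⟨hP, P.2⟩)] at h1; omega
    have h2 : c.ord (-algebraMap K F (a P)) = 0 := by
      rw [Curve.ord_neg_eq, Curve.ord_algebraMap haP]
    have h3 := (Curve.ord_add_eq_of_ordGE (v := c) (f := -algebraMap K F (a P)) (g := t)
      (neg_ne_zero.2 ((_root_.map_ne_zero _).2 haP))
      (Or.inr (by rw [h2, htc]; norm_num))).2
    rw [sub_eq_neg_add, h3, h2]

/-- A function with poles at `O` alone whose shifts vanish at `v` at most as `G` does. -/
private lemma exists_separating_fn (hO : O ∉ sG) {v : Place L FL} (hvO : v ≠ hL.ext O) :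
    ∃ (j : ℕ) (t : F), t ∈ riemannRochSpace (Finsupp.single O (j : ℤ)) ∧
      ∀ a : sG → K, (∀ P : sG, OrdGE (P : Place K F) 1 (t - algebraMap K F (a P))) →
        (∀ P, t - algebraMap K F (a P) ≠ 0) ∧
        ∑ P, v.ord (algebraMap F FL (t - algebraMap K F (a P))) ≤ hL.extDiv (setDiv sG) v := by
  obtain ⟨c, hcO, hcv⟩ : ∃ c : Place K F, c ≠ O ∧ (v ∈ Set.range hL.ext → hL.ext c = v) := by
    by_cases hv : v ∈ Set.range hL.ext
    · obtain ⟨c, rfl⟩ := hv
      exact ⟨c, fun e => hvO (e ▸ rfl), fun _ => rfl⟩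
    · have := Jac.infinite_places (K := K) (F := F)
      obtain ⟨c, hc⟩ := Infinite.exists_notMem_finset ({O} : Finset (Place K F))
      exact ⟨c, by simpa using hc, fun h => absurd h hv⟩
  obtain ⟨j, t, ht, htc, htq⟩ := exists_simple_zero (T := {O}) (Q := sG.erase c)
    (Finset.singleton_nonempty O) (c := c) (by simpa using hcO) (Finset.notMem_erase c sG)
    (Finset.disjoint_singleton_right.2 fun h => hO (Finset.mem_of_mem_erase h))
  refine ⟨j, t, by simpa [setDiv, Finsupp.smul_single] using ht, fun a ha => ?_⟩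
  have ht0 : ∀ P, t - algebraMap K F (a P) ≠ 0 := fun P h => by
    rw [sub_eq_zero] at h
    rw [h] at htc
    rcases eq_or_ne (a P) 0 with h0 | h0
    · rw [h0, map_zero, Place.ord_zero] at htc; omega
    · rw [Curve.ord_algebraMap h0] at htc; omega
  refine ⟨ht0, ?_⟩
  by_cases hv : v ∈ Set.range hL.ext
  · rw [← hcv hv, hL.extDiv_apply_ext, setDiv_apply]
    simp only [hL.ord_ext_algebraMap, ord_sub_eq_indicator htc htq ha ht0]
    rw [Finset.sum_coe_sort sG (fun P => if P = c then (1 : ℤ) else 0), Finset.sum_ite_eq']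
  · rw [hL.extDiv_apply_notMem _ hv]
    exact (Finset.sum_eq_zero fun P _ => hL.ord_algebraMap_eq_zero (ht0 P) hv).le

/-- `extDiv` of a multiple of `O` vanishes away from `O`. -/
private lemma extDiv_single_apply {v : Place L FL} (hvO : v ≠ hL.ext O) (n : ℤ) :
    hL.extDiv (Finsupp.single O n) v = 0 := by
  show Finsupp.mapDomain hL.ext _ v = 0
  rw [Finsupp.mapDomain_single, Finsupp.single_eq_of_ne hvO]

/-- The span of the functions with poles at `O` alone is regular away from `O`. -/
private lemma ordGE_zero_of_mem_spaceSInf {v : Place L FL} (hvO : v ≠ hL.ext O) {z : FL}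
    (hz : z ∈ spaceSInf L FL O) : OrdGE v 0 z := by
  obtain ⟨m, hm⟩ := mem_spaceSInf.1 hz
  clear hz
  induction hm using Submodule.span_induction with
  | mem x hx =>
    obtain ⟨f, hf, rfl⟩ := hx
    have := mem_riemannRochSpace.1 (hL.mem_riemannRochSpace_extDiv hf) v
    rwa [extDiv_single_apply hvO, neg_zero] at this
  | zero => exact OrdGE.zero
  | add x x' _ _ hx hx' => exact hx.add hx'
  | smul r x _ hx => exact hx.smul r

/-- The zeros of the section are bounded by `G`. -/
private lemma le_extDiv_setDiv (hdeg : Divisor.degree D = 0) (hO : O ∉ sG) (hs0 : s ≠ 0)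
    (hΔO : (D + hL.extDiv (setDiv sG) + divisorOf s : Divisor L FL) (hL.ext O) = 0)
    (hmain : ∀ {j : ℕ} {t : F}, t ∈ riemannRochSpace (Finsupp.single O (j : ℤ)) → ∀ {a : sG → K},
      (∀ P : sG, OrdGE (P : Place K F) 1 (t - algebraMap K F (a P))) → ∀ {n : ℕ} {y : FL},
        y ∈ spaceM hL D sG O n → algebraMap F FL (∏ P, (t - algebraMap K F (a P))) * y ∈
          (spaceSInf L FL O).map (LinearMap.mulLeft L s))
    (v : Place L FL) :
    (D + hL.extDiv (setDiv sG) + divisorOf s : Divisor L FL) v ≤ hL.extDiv (setDiv sG) v := by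
  by_contra hlt
  have hvO : v ≠ hL.ext O := fun e => by
    rw [e, hΔO] at hlt
    exact hlt (Finsupp.mapDomain_nonneg (setDiv_nonneg sG) _)
  obtain ⟨n, y, hy0, hy, hyv⟩ := exists_exact_section (sG := sG) (O := O) (hL := hL) hdeg v
  obtain ⟨j, t, ht, hsep⟩ := exists_separating_fn hO hvO
  choose a ha using fun P : sG =>
    exists_sub_algebraMap (P : Place K F) (ordGE_zero_of_mem_single hO ht P)
  obtain ⟨ht0, hsum⟩ := hsep a ha
  obtain ⟨z, hz, hze⟩ := hmain ht ha hy
  have hprod0 : algebraMap F FL (∏ P, (t - algebraMap K F (a P))) ≠ 0 :=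
    (_root_.map_ne_zero _).2 (Finset.prod_ne_zero_iff.2 fun P _ => ht0 P)
  simp only [LinearMap.mulLeft_apply] at hze
  have hz0 : z ≠ 0 := fun h => mul_ne_zero hprod0 hy0 (by rw [← hze, h, mul_zero])
  have h1 := (ordGE_iff_le hz0).1 (ordGE_zero_of_mem_spaceSInf hvO hz)
  have h2 := congrArg v.ord hze
  rw [v.ord_mul hs0 hz0, v.ord_mul hprod0 hy0, hyv, map_prod, Curve.ord_prod _ _
    (fun P _ => (_root_.map_ne_zero _).2 (ht0 P))] at h2
  simp only [poleDiv, map_add, Finsupp.add_apply, extDiv_single_apply hvO, add_zero] at h2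
  simp only [Finsupp.add_apply, divisorOf_apply] at hlt
  omega

/-- **A divisor with principal reductions is principal**: let `S` be valuations of `L` with
residue field `K` such that only constants are integral at all of them. If at each of them `D` and
`-D` reduce to a principal divisor, then `D` is principal. -/
theorem isPrincipal_of_reducesTo (hL : IsConstExt K F L FL) (S : Set (RedDatum K L K))
    (hne : S.Nonempty) (H : ∀ z : L, (∀ R ∈ S, z ∈ R.V) → ∃ a : K, algebraMap K L a = z)
    (hD : ∀ R ∈ S, ∃ (e : FL) (h : F), e ≠ 0 ∧ h ≠ 0 ∧ ReducesTo hL R D e h ∧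
      ReducesTo hL R (-D) e⁻¹ h⁻¹) :
    ∃ u : FL, u ≠ 0 ∧ D = divisorOf u := by
  obtain ⟨R₀, hR₀⟩ := hne
  obtain ⟨e₀, h₀, he, hh, hp, hn⟩ := hD R₀ hR₀
  have hdeg : Divisor.degree D = 0 := degree_eq_zero_of_reducesTo he hh hp hn
  obtain ⟨O⟩ := exists_place (K := K) (F := F)
  obtain ⟨sG, hdisj, hG, hGc⟩ := exists_nonspecial_set (K := K) (F := F) {O}
  have hO : O ∉ sG := fun h => Finset.disjoint_left.1 hdisj h (Finset.mem_singleton_self O)
  -- a section `s` of `D + G`, and functions with simple poles at `G`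
  obtain ⟨s, hs0, hs⟩ := exists_section (hL := hL) hdeg hGc
  obtain ⟨n₀, w, hw⟩ := exists_poleFns hGc hO
  have hloc : ∀ R ∈ S, Nonempty (LocalData hL D sG O s w n₀ R) := fun R hR => by
    obtain ⟨e, h, he, hh, hp, -⟩ := hD R hR
    exact nonempty_localData hG hGc hdeg hs0 hs hw he hh hp
  -- its zeros are bounded by `G`, hence equal to `G`
  have hle := le_extDiv_setDiv hdeg hO hs0 (section_apply_ext_eq_zero hG hO he hh hp hs0 hs)
    fun ht _ hta _ _ => prod_sub_mul_mem S ⟨R₀, hR₀⟩ H hw hloc ht hta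
  refine ⟨s⁻¹, inv_ne_zero hs0, Finsupp.ext fun v => ?_⟩
  by_contra hne
  rw [divisorOf_apply, Place.ord_inv] at hne
  have hlt : Finsupp.single v 1 ≤
      hL.extDiv (setDiv sG) - (D + hL.extDiv (setDiv sG) + divisorOf s) := fun u => by
    rw [Finsupp.single_apply, Finsupp.sub_apply]
    have h1 := hle u
    split_ifs with hu
    · subst hu
      simp only [Finsupp.add_apply, divisorOf_apply] at h1 ⊢
      omega
    · omega
  have h2 := degree_mono hlt
  rw [Divisor.degree_single, map_sub, map_add, map_add, hdeg, degree_divisorOf] at h2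
  have := deg_pos v
  omega

end Main

end FermatAgent.AV
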