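import Fermat.Agent.AV.Curve.Points
import Fermat.Agent.AV.Curve.Coords
import Fermat.Agent.AV.Connect
import Fermat.Agent.AV.Generic

/-!
# Seesaw over the constants of a product

A divisor on the field of two independent generic points, local at constant points and at the two
generic points and principal on the valuations containing `Ω`, is principal as soon as one of its
restrictions at a rational place is.
-/

set_option autoImplicit false

noncomputable section

universe u

open scoped TensorProduct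

namespace FermatAgent.AV

section Base

variable {K : Type u} [Field K] {Ω : Type u} [Field Ω] [Algebra K Ω] {F E : Type u} [Field F]
  [Algebra K F] [Algebra Ω F] [IsScalarTower K Ω F] [Field E] [Algebra K E] [Algebra Ω E]
  [IsScalarTower K Ω E]

variable (K) in
/-- A valuation over `Ω` as one over `K`. -/
def baseVal (W : KVal Ω F) : KVal K F :=
  ⟨W.1, fun a => by rw [IsScalarTower.algebraMap_apply K Ω F]; exact W.2 _⟩

variable (Ω) in
/-- A divisor over `K` on the valuations over `Ω`. -/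
def overDiv (d : vDiv K F) : vDiv Ω F :=
  ⟨fun W => d.1 (baseVal K W), fun V V' h => d.2 (baseVal K V) (baseVal K V') h⟩

theorem overDiv_apply (d : vDiv K F) (W : KVal Ω F) :
    (overDiv Ω d).1 W = d.1 (baseVal K W) := rfl

theorem res_overDiv (r : Spot Ω F E) (d : vDiv K F) :
    r.res (overDiv Ω d) = overDiv Ω (r.restrict.res d) :=
  Subtype.ext (funext fun _ => Units.ext rfl)

theorem isPrin_overDiv {d : vDiv K F} (hd : IsPrin d) : IsPrin (overDiv Ω d) := by
  obtain ⟨h, hh⟩ := hd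
  exact ⟨h, fun W => hh (baseVal K W)⟩

theorem restrict_comp_ofHom {G : Type u} [Field G] [Algebra K G] [Algebra Ω G]
    [IsScalarTower K Ω G] (r : Spot Ω F E) (φ : G →ₐ[Ω] F) :
    r.restrict.comp (Spot.ofHom (φ.restrictScalars K)) =
      (r.comp (Spot.ofHom φ)).restrict (K := K) :=
  Spot.eq_of_le fun x hx => by
    obtain ⟨h, h'⟩ := (Spot.mem_comp r (Spot.ofHom φ)).1 hx
    exact ⟨(Spot.mem_comp r.restrict (Spot.ofHom (φ.restrictScalars K))).2
      ⟨Spot.mem_ofHom _ x, h'⟩, rfl⟩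

end Base

namespace Model

variable {K : Type u} [Field K] [IsAlgClosed K] {g : ℕ} (M : Model K g)
variable (Ω : Type u) [Field Ω] [Algebra K Ω]

/-- The field of the two generic points inside that over `Ω`. -/
def genProd : ProdField K M.FA M.FA →ₐ[K] M.GenField Ω :=
  IsFractionRing.liftAlgHom
    (g := (IsScalarTower.toAlgHom K (M.GenRing Ω) (M.GenField Ω)).comp
      Algebra.TensorProduct.includeRight)
    ((IsFractionRing.injective (M.GenRing Ω) (M.GenField Ω)).comp
      (Algebra.TensorProduct.includeRight_injective (algebraMap K Ω).injective))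

/-- The algebra given by `genProd`. -/
abbrev genAlgebra : Algebra (ProdField K M.FA M.FA) (M.GenField Ω) :=
  (M.genProd Ω).toRingHom.toAlgebra

attribute [local instance] genAlgebra

theorem genTower : IsScalarTower K (ProdField K M.FA M.FA) (M.GenField Ω) :=
  IsScalarTower.of_algebraMap_eq fun a => ((M.genProd Ω).commutes a).symm

attribute [local instance] genTower

theorem genProd_algebraMap (t : M.FA ⊗[K] M.FA) :
    M.genProd Ω (algebraMap _ _ t) = algebraMap (M.GenRing Ω) (M.GenField Ω) (1 ⊗ₜ t) := by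
  rw [genProd, IsFractionRing.liftAlgHom_apply]
  exact IsFractionRing.lift_algebraMap _ t

theorem genProd_inl (a : M.FA) : M.genProd Ω (prodInl K M.FA M.FA a) = M.genHom₂ Ω a :=
  M.genProd_algebraMap Ω _

theorem genProd_inr (a : M.FA) : M.genProd Ω (prodInr K M.FA M.FA a) = M.genHom₃ Ω a :=
  M.genProd_algebraMap Ω _

theorem algebraMap_genRing_tmul (ω : Ω) (t : M.FA ⊗[K] M.FA) :
    algebraMap (M.GenRing Ω) (M.GenField Ω) (ω ⊗ₜ t) =
      algebraMap Ω (M.GenField Ω) ω *
        algebraMap (ProdField K M.FA M.FA) (M.GenField Ω) (algebraMap _ _ t) := by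
  show _ = _ * M.genProd Ω _
  rw [genProd_algebraMap, IsScalarTower.algebraMap_apply Ω (M.GenRing Ω) (M.GenField Ω),
    ← map_mul, Algebra.TensorProduct.algebraMap_apply, Algebra.TensorProduct.tmul_mul_tmul,
    one_mul, mul_one, Algebra.algebraMap_self, RingHom.id_apply]

theorem isConstExt_genField :
    IsConstExt K (ProdField K M.FA M.FA) Ω (M.GenField Ω) where
  disjoint := by
    intro n f hf a ha
    obtain ⟨den, hden⟩ := IsLocalization.exist_integer_multiples_of_finite
      (nonZeroDivisors (M.FA ⊗[K] M.FA)) f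
    choose t ht using hden
    have ht' : ∀ i, algebraMap _ (ProdField K M.FA M.FA) (t i) =
        algebraMap (M.FA ⊗[K] M.FA) (ProdField K M.FA M.FA) den * f i := fun i =>
      (ht i).trans (Algebra.smul_def _ _)
    have hne : algebraMap (M.FA ⊗[K] M.FA) (ProdField K M.FA M.FA) den ≠ 0 := fun h =>
      nonZeroDivisors.ne_zero den.2 (IsFractionRing.injective _ _ (h.trans (map_zero _).symm))
    have htl : LinearIndependent K t := by
      rw [Fintype.linearIndependent_iff] at hf ⊢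
      intro c hc
      refine hf c ((mul_eq_zero.1 ?_).resolve_left hne)
      rw [Finset.mul_sum, ← map_zero (algebraMap (M.FA ⊗[K] M.FA) (ProdField K M.FA M.FA)),
        ← hc, map_sum]
      refine Finset.sum_congr rfl fun i _ => ?_
      rw [mul_smul_comm, ← ht', Algebra.smul_def, Algebra.smul_def, map_mul,
        ← IsScalarTower.algebraMap_apply]
    have h0 : ∑ i, a i ⊗ₜ[K] t i = 0 := IsFractionRing.injective (M.GenRing Ω) (M.GenField Ω) (by
      rw [map_zero, map_sum, ← mul_zero (algebraMap (ProdField K M.FA M.FA) (M.GenField Ω)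
        (algebraMap _ _ (den : M.FA ⊗[K] M.FA))), ← ha, Finset.mul_sum]
      refine Finset.sum_congr rfl fun i _ => ?_
      rw [algebraMap_genRing_tmul, ht', map_mul]
      ring)
    funext i
    by_contra hi
    obtain ⟨φ, hφ⟩ := Module.Projective.exists_dual_ne_zero K hi
    refine hφ (Fintype.linearIndependent_iff.1 htl (fun j => φ (a j)) ?_ i)
    simpa [map_sum] using
      congrArg (TensorProduct.lift (LinearMap.lsmul K (M.FA ⊗[K] M.FA) ∘ₗ φ)) h0
  exists_frac z := by
    obtain ⟨u, v, hv, rfl⟩ := IsFractionRing.div_surjective (A := M.GenRing Ω) z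
    have hmem : ∀ t : M.GenRing Ω, algebraMap _ (M.GenField Ω) t ∈
        comb K (ProdField K M.FA M.FA) Ω (M.GenField Ω) ⊤ ⊤ := fun t => by
      induction t using TensorProduct.induction_on with
      | zero => rw [map_zero]; exact zero_mem _
      | tmul ω x =>
        rw [algebraMap_genRing_tmul]
        exact mul_mem (algebraMap_left_mem_comb trivial) (algebraMap_right_mem_comb trivial)
      | add x y hx hy => rw [map_add]; exact add_mem hx hy
    have hv0 : algebraMap (M.GenRing Ω) (M.GenField Ω) v ≠ 0 := fun h =>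
      nonZeroDivisors.ne_zero hv (IsFractionRing.injective _ _ (h.trans (map_zero _).symm))
    exact ⟨_, hmem u, _, hmem v, hv0, div_mul_cancel₀ _ hv0⟩

/-- The scalar of a valuation of the constants. -/
private theorem exists_scalar {x₁ x₂ : M.Pts Ω} {d : vDiv K (M.GenField Ω)}
    (hloc : M.IsLocalAt d ![M.constPt Ω x₁, M.constPt Ω x₂, M.gen₂ Ω, M.gen₃ Ω])
    (h : (M.GenField Ω)ˣ) (hΩ : ∀ W : KVal Ω (M.GenField Ω),
      (overDiv Ω d).1 W / h ∈ W.1.unitGroup) (V₀ : KVal K Ω) :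
    ∃ m : Ωˣ, ∀ W : KVal K (M.GenField Ω),
      (Spot.ofHom (IsScalarTower.toAlgHom K Ω (M.GenField Ω))).pull W = V₀ →
      d.1 W / (h * Units.map (algebraMap Ω (M.GenField Ω) : Ω →* M.GenField Ω) m) ∈
        W.1.unitGroup := by
  let L := M.GenField Ω
  let hL := M.isConstExt_genField Ω
  let iΩ := IsScalarTower.toAlgHom K Ω L
  obtain ⟨κ, _, _, q₀, hq₀⟩ := exists_residueSpot V₀
  let hk := CExt.isConstExt K (ProdField K M.FA M.FA) κ
  obtain ⟨m, hm⟩ := q₀.datum.exists_gauss_scalar hL hk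
    (d.1 (q₀.datum.gaussSpot hL hk).kVal / h)
  rw [div_div] at hm
  refine ⟨m, fun W hW => ?_⟩
  obtain ⟨κW, _, _, qW, hqW⟩ := exists_residueSpot W
  let E := AlgebraicClosure κW
  let U : Spot K L E := (Spot.ofHom (IsScalarTower.toAlgHom K κW E)).comp qW
  have hUW : U.kVal = W := Subtype.ext ((Spot.ofHom_comp _ qW).1.trans hqW)
  have hV₀ : ∀ a : Ω, a ∈ q₀.V ↔ algebraMap Ω L a ∈ U.V := fun a => by
    rw [hq₀, ← hW, Spot.pull, Spot.mem_pullRing]
    have e : U.V = W.1 := congrArg Subtype.val hUW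
    rw [e]
    exact ⟨fun ⟨_, h'⟩ => h', fun h' => ⟨Spot.mem_ofHom iΩ a, h'⟩⟩
  obtain ⟨c₂, h₂, hc₂⟩ := M.exists_chart (M.map U (M.gen₂ Ω))
  obtain ⟨c₃, h₃, hc₃⟩ := M.exists_chart (M.map U (M.gen₃ Ω))
  obtain ⟨hV₂, he₂⟩ := M.pt_centre c₂ (U.comp (Spot.ofHom (M.genHom₂ Ω))) h₂
    (by rw [M.map_comp, hc₂])
  obtain ⟨hV₃, he₃⟩ := M.pt_centre c₃ (U.comp (Spot.ofHom (M.genHom₃ Ω))) h₃
    (by rw [M.map_comp, hc₃])
  obtain ⟨n, y, hy, hyS, hint, hfin⟩ := exists_coords (M.ring c₂) (M.ring c₃) (M.ring_fg c₂)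
    (M.ring_fg c₃) (M.ring_frac c₂) (M.ring_frac c₃)
  have := hfin
  set S := Algebra.adjoin K (prodInl K M.FA M.FA '' (M.ring c₂ : Set M.FA) ∪
    prodInr K M.FA M.FA '' (M.ring c₃ : Set M.FA))
  have hgen₂ : ∀ a : M.ring c₂, M.genHom₂ Ω a ∈ U.V := fun a =>
    ((Spot.mem_comp _ _).1 (hV₂ a)).2
  have hgen₃ : ∀ a : M.ring c₃, M.genHom₃ Ω a ∈ U.V := fun a =>
    ((Spot.mem_comp _ _).1 (hV₃ a)).2
  have hSU : ∀ f ∈ S, algebraMap (ProdField K M.FA M.FA) L f ∈ U.V := fun f hf => by
    induction hf using Algebra.adjoin_induction with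
    | mem z hz =>
      rcases hz with ⟨a, ha, rfl⟩ | ⟨a, ha, rfl⟩
      · rw [show algebraMap (ProdField K M.FA M.FA) L (prodInl K M.FA M.FA a) = M.genHom₂ Ω a
          from M.genProd_inl Ω a]
        exact hgen₂ ⟨a, ha⟩
      · rw [show algebraMap (ProdField K M.FA M.FA) L (prodInr K M.FA M.FA a) = M.genHom₃ Ω a
          from M.genProd_inr Ω a]
        exact hgen₃ ⟨a, ha⟩
    | algebraMap a => rw [← IsScalarTower.algebraMap_apply]; exact U.isOver a
    | add a b _ _ ha hb => rw [map_add]; exact add_mem ha hb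
    | mul a b _ _ ha hb => rw [map_mul]; exact mul_mem ha hb
  have hU : (comb K (ProdField K M.FA M.FA) Ω L q₀.datum.alg S : Set L) ⊆ U.V := by
    intro a ha
    obtain ⟨k, z, f, hz, hf, rfl⟩ := exists_rep ha
    exact sum_mem fun i _ => mul_mem ((hV₀ _).1 (hz i)) (hSU _ (hf i))
  obtain ⟨b, hb⟩ := hloc E fun i =>
    M.map U (![M.constPt Ω x₁, M.constPt Ω x₂, M.gen₂ Ω, M.gen₃ Ω] i)
  have key := q₀.datum.div_mem_unitGroup_of_local hL hk U hy hyS (fun f hf => ?_) d h m hU
    (fun a ha => (hV₀ a).2 ha) ⟨b, fun r hr => ?_⟩ (fun W' hW' => ?_) hm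
  · rw [← hUW]; exact key
  · obtain ⟨p, hp, hp0⟩ := hint f hf
    refine ⟨p.map (algebraMap _ _), hp.map _, fun i => ?_, ?_⟩
    · rw [Polynomial.coeff_map]; exact (p.coeff i).2
    · rw [Polynomial.eval_map]; exact hp0
  · refine hb r ?_
    have hrΩ : r.comp (Spot.ofHom iΩ) = U.comp (Spot.ofHom iΩ) := by
      refine Spot.eq_of_le fun a ha => ?_
      have haU := ((Spot.mem_comp _ _).1 ha).2
      obtain ⟨hm', he⟩ :=
        hr (algebraMap Ω L a) (algebraMap_left_mem_comb (S := S) ((hV₀ a).2 haU))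
      exact ⟨(Spot.mem_comp _ _).2 ⟨Spot.mem_ofHom iΩ a, hm'⟩, he⟩
    have hr₂ : M.map r (M.gen₂ Ω) = M.pt c₂ h₂ :=
      M.map_gen_eq_of_agree c₂ _ r h₂ fun a => by
        obtain ⟨h', he⟩ := hr (M.genHom₂ Ω a) (M.genProd_inl Ω a ▸
          algebraMap_right_mem_comb (Algebra.subset_adjoin (Or.inl ⟨_, a.2, rfl⟩)))
        exact ⟨h', he.trans (he₂ a)⟩
    have hr₃ : M.map r (M.gen₃ Ω) = M.pt c₃ h₃ :=
      M.map_gen_eq_of_agree c₃ _ r h₃ fun a => by
        obtain ⟨h', he⟩ := hr (M.genHom₃ Ω a) (M.genProd_inr Ω a ▸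
          algebraMap_right_mem_comb (Algebra.subset_adjoin (Or.inr ⟨_, a.2, rfl⟩)))
        exact ⟨h', he.trans (he₃ a)⟩
    intro i
    fin_cases i
    · exact (M.map_comp _ _ _).symm.trans ((congrArg (M.map · x₁) hrΩ).trans (M.map_comp _ _ _))
    · exact (M.map_comp _ _ _).symm.trans ((congrArg (M.map · x₂) hrΩ).trans (M.map_comp _ _ _))
    · exact hr₂.trans hc₂
    · exact hr₃.trans hc₃
  · exact hΩ ⟨W'.1, hW'⟩

/-- **Seesaw over the constants**: a divisor on the field of two independent generic points with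
local equations at two constant points and the generic points, principal on the valuations
containing `Ω`, is principal as soon as one restriction at a rational place is. -/
theorem isPrin_of_local {x₁ x₂ : M.Pts Ω} {d : vDiv K (M.GenField Ω)}
    (hloc : M.IsLocalAt d ![M.constPt Ω x₁, M.constPt Ω x₂, M.gen₂ Ω, M.gen₃ Ω])
    (h : (M.GenField Ω)ˣ) (hΩ : ∀ W : KVal Ω (M.GenField Ω),
      (overDiv Ω d).1 W / h ∈ W.1.unitGroup)
    (r₀ : Spot Ω (M.GenField Ω) Ω) (hr₀ : IsPrin (r₀.restrict.res d)) : IsPrin d := by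
  let L := M.GenField Ω
  let iΩ := IsScalarTower.toAlgHom K Ω L
  -- the scalar of a valuation of the constants
  choose m hm using M.exists_scalar Ω hloc h hΩ
  -- read off at `r₀`
  obtain ⟨μ, hμ⟩ := hr₀
  let r : Spot K L Ω := r₀.restrict
  have hbase : h / d.1 r.kVal ∈ r.V.unitGroup := by
    rw [← inv_div]; exact inv_mem (hΩ r₀.kVal)
  set ν : Ωˣ := r.unitRed ⟨_, hbase⟩
  refine ⟨h * Units.map (algebraMap Ω L : Ω →* L) (μ / ν), fun W => ?_⟩
  set V₀ := (Spot.ofHom iΩ).pull W with hV₀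
  have hP : (Spot.ofHom iΩ).pull (r.pull V₀) = V₀ := by
    refine Subtype.ext (SetLike.ext fun a => ?_)
    rw [Spot.pull_ofHom, ValuationSubring.mem_comap]
    refine ⟨fun ha => ?_, fun ha => ?_⟩
    · obtain ⟨h', he⟩ := (r.mem_pullRing _).1 ha
      rwa [show r.ρ ⟨_, h'⟩ = a from r₀.ρ_algebraMap a] at he
    · refine (r.mem_pullRing _).2 ⟨r₀.isOver a, ?_⟩
      exact (congrArg (· ∈ V₀.1) (r₀.ρ_algebraMap a)).mpr ha
  have hlu : Units.map (algebraMap Ω L : Ω →* L) (m V₀) ∈ r.V.unitGroup := by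
    rw [mem_unitGroup_iff']
    exact ⟨r₀.isOver _, by
      show (algebraMap Ω L (m V₀ : Ω))⁻¹ ∈ _
      rw [← map_inv₀]; exact r₀.isOver _⟩
  have hred : r.unitRed ⟨_, hlu⟩ = m V₀ := Units.ext (by
    exact (r.coe_unitRed ⟨_, hlu⟩ (r₀.isOver _)).trans (r₀.ρ_algebraMap _))
  have h1 : (r.res d).1 V₀ / (ν * m V₀) ∈ V₀.1.unitGroup := by
    rw [← hred, Spot.coe_res_apply, Spot.resFun, ← map_mul, ← map_div]
    refine r.unitRed_mem V₀ _ ?_
    show d.1 (r.pull V₀) / d.1 r.kVal /
      (h / d.1 r.kVal * Units.map (algebraMap Ω L : Ω →* L) (m V₀)) ∈ _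
    rw [div_mul_eq_mul_div, div_div_div_cancel_right]
    exact hm V₀ _ hP
  have h2 : m V₀ / (μ / ν) ∈ V₀.1.unitGroup := by
    have h3 := div_mem (hμ V₀) h1
    rw [div_div_div_cancel_left] at h3
    rwa [div_div_eq_mul_div, mul_comm]
  have h4 : Units.map (algebraMap Ω L : Ω →* L) (m V₀ / (μ / ν)) ∈ W.1.unitGroup := by
    obtain ⟨h5, h6⟩ := (mem_unitGroup_iff' _ _).1 h2
    rw [mem_unitGroup_iff']
    refine ⟨(((Spot.ofHom iΩ).mem_pullRing _).1 h5).2, ?_⟩
    show (algebraMap Ω L _)⁻¹ ∈ _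
    rw [← map_inv₀]
    exact (((Spot.ofHom iΩ).mem_pullRing _).1 h6).2
  have h7 := mul_mem (hm V₀ W rfl) h4
  rwa [map_div, div_mul_div_comm, mul_right_comm, mul_div_mul_right_eq_div] at h7

end Model

end FermatAgent.AV
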