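import Fermat.Agent.AV.Curve.Vertical
import Fermat.Agent.AV.Curve.Product

/-!
# The theorem of the cube up to torsion

The cube divisor of a point of a curve and two generic points is principal on the valuations
containing the generic field; its restrictions at two places of the curve are then seesawed.
Hence the cube class is constant along curves; so it is torsion at three independent generic
points, of which every triple of points is a specialisation.
-/

set_option autoImplicit false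

noncomputable section

universe u

open scoped TensorProduct
open AlgebraicCurve
open FermatAgent.Curve

namespace FermatAgent.AV

/-- A spot to the constants of a curve is that of a place. -/
theorem exists_placeSpot {Ω : Type u} [Field Ω] [IsAlgClosed Ω] {C : Type u} [Field C]
    [Algebra Ω C] [IsFF Ω C] (r : Spot Ω C Ω) : ∃ c : Place Ω C, placeSpot c = r := by
  have htop : r.V ≠ ⊤ := fun htop => by
    obtain ⟨x, hx, -⟩ := IsFF.exists_transcendental (K := Ω) (F := C)
    have hxm : x ∈ r.V := htop ▸ ValuationSubring.mem_top _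
    set a := r.ρ ⟨x, hxm⟩
    have hne : x - algebraMap Ω C a ≠ 0 := fun h =>
      hx (by rw [sub_eq_zero.1 h]; exact isAlgebraic_algebraMap a)
    refine r.ρ_ne_zero_of_inv_mem (sub_mem hxm (r.isOver a)) hne
      (htop ▸ ValuationSubring.mem_top _) ?_
    rw [show (⟨_, sub_mem hxm (r.isOver a)⟩ : r.V) = ⟨x, hxm⟩ - ⟨_, r.isOver a⟩ from rfl,
      map_sub, r.ρ_algebraMap]
    exact sub_self _
  set v : Place Ω C := placeOfValuationSubring r.V r.isOver htop
  refine ⟨v, Spot.eq_of_le fun f hf => ⟨hf, ?_⟩⟩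
  set a := r.ρ ⟨f, hf⟩
  have h0 : r.ρ (⟨f, hf⟩ - ⟨_, r.isOver a⟩) = 0 := by
    rw [map_sub, r.ρ_algebraMap]; exact sub_self _
  have h1 := (r.ker_iff _).1 h0
  have h2 : (placeSpot v).ρ (⟨f, hf⟩ - ⟨_, (placeSpot v).isOver a⟩) = 0 :=
    ((placeSpot v).ker_iff _).2 h1
  rw [map_sub, (placeSpot v).ρ_algebraMap, sub_eq_zero] at h2
  exact h2

theorem overDiv_div_mem {K Ω F : Type u} [Field K] [Field Ω] [Algebra K Ω] [Field F] [Algebra K F]
    [Algebra Ω F] [IsScalarTower K Ω F] {e' e₁ e₂ : vDiv K F} {k h : Fˣ}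
    (hk : ∀ V : KVal K F, (e' / (e₁ / e₂)).1 V / k ∈ V.1.unitGroup)
    (hh : ∀ W : KVal Ω F, (overDiv Ω e₁).1 W / (overDiv Ω e₂).1 W / h ∈ W.1.unitGroup)
    (W : KVal Ω F) : (overDiv Ω e').1 W / (k * h) ∈ W.1.unitGroup := by
  have h1 : (e'.1 (baseVal K W) / (e₁.1 (baseVal K W) / e₂.1 (baseVal K W))) / k ∈
      W.1.unitGroup := hk (baseVal K W)
  have h3 := mul_mem h1 (hh W)
  rwa [overDiv_apply, overDiv_apply, div_mul_div_comm, div_mul_cancel] at h3

namespace Model

variable {K : Type u} [Field K] [IsAlgClosed K] {g : ℕ} (M : Model K g)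

section Core

variable {Ω : Type u} [Field Ω] [Algebra K Ω] [IsAlgClosed Ω] {C : Type u} [Field C]
  [Algebra K C] [Algebra Ω C] [IsScalarTower K Ω C] [IsFF Ω C] {L FL : Type u} [Field L] [Field FL]
  [Algebra K L] [Algebra Ω L] [IsScalarTower K Ω L] [Algebra K FL] [Algebra Ω FL] [Algebra C FL]
  [Algebra L FL] [IsScalarTower Ω C FL] [IsScalarTower Ω L FL] [IsScalarTower K Ω FL]
  [IsScalarTower K C FL] [IsScalarTower K L FL]

local notation "iC" => IsScalarTower.toAlgHom K C FL
local notation "iL" => IsScalarTower.toAlgHom K L FL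
local notation "iΩ" => IsScalarTower.toAlgHom K Ω L

omit [IsAlgClosed K] [IsAlgClosed Ω] [IsFF Ω C] in
theorem hasEquations_cube (φ : M.Pts C) (Q₀ R₀ : M.Pts L) {d : vDiv K FL}
    (hdloc : M.IsLocalAt d
      ![M.map (Spot.ofHom iC) φ, M.map (Spot.ofHom iL) Q₀, M.map (Spot.ofHom iL) R₀]) :
    HasEquations C L (overDiv Ω d) := by
  intro E _ _ U
  let : Algebra K E := ((algebraMap Ω E).comp (algebraMap K Ω)).toAlgebra
  have : IsScalarTower K Ω E := IsScalarTower.of_algebraMap_eq fun _ => rfl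
  obtain ⟨b, hb⟩ := hdloc E fun i => M.map U.restrict
    (![M.map (Spot.ofHom iC) φ, M.map (Spot.ofHom iL) Q₀, M.map (Spot.ofHom iL) R₀] i)
  refine ⟨b, fun r h1 h2 => hb r.restrict fun i => ?_⟩
  have e1 : r.restrict.comp (Spot.ofHom iC) = U.restrict.comp (Spot.ofHom iC) := by
    rw [show iC = (IsScalarTower.toAlgHom Ω C FL).restrictScalars K from rfl,
      restrict_comp_ofHom, restrict_comp_ofHom, h1]
  have e2 : r.restrict.comp (Spot.ofHom iL) = U.restrict.comp (Spot.ofHom iL) := by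
    rw [show iL = (IsScalarTower.toAlgHom Ω L FL).restrictScalars K from rfl,
      restrict_comp_ofHom, restrict_comp_ofHom, h2]
  fin_cases i
  · exact (M.map_comp _ _ _).symm.trans ((congrArg (M.map · φ) e1).trans (M.map_comp _ _ _))
  · exact (M.map_comp _ _ _).symm.trans ((congrArg (M.map · Q₀) e2).trans (M.map_comp _ _ _))
  · exact (M.map_comp _ _ _).symm.trans ((congrArg (M.map · R₀) e2).trans (M.map_comp _ _ _))

omit [IsAlgClosed K] [IsAlgClosed Ω] [IsFF Ω C] in
/-- The cube divisor is principal over the places at which one of the points is zero. -/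
theorem isPrin_res_gauss (hL : IsConstExt Ω C L FL) {φ : M.Pts C} {Q₀ R₀ : M.Pts L} {d : vDiv K FL}
    (hd : cls d = M.cube (M.map (Spot.ofHom iC) φ) (M.map (Spot.ofHom iL) Q₀)
      (M.map (Spot.ofHom iL) R₀))
    (r : Spot Ω L Ω) (hr : M.map r.restrict Q₀ = 0 ∨ M.map r.restrict R₀ = 0) :
    IsPrin ((r.datum.gaussSpot hL IsConstExt.refl).res (overDiv Ω d)) := by
  rw [res_overDiv (K := K)]
  refine isPrin_overDiv ((cls_eq_one_iff _).1 ?_)
  set G : Spot Ω FL C := r.datum.gaussSpot hL IsConstExt.refl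
  have hG : G.restrict.comp (Spot.ofHom iL) =
      (Spot.ofHom (IsScalarTower.toAlgHom K Ω C)).comp r.restrict := by
    refine Spot.eq_of_le fun l hl => ?_
    obtain ⟨hlr, -⟩ := (Spot.mem_comp _ _).1 hl
    exact ⟨(Spot.mem_comp _ _).2 ⟨Spot.mem_ofHom iL l,
      r.datum.algebraMap_mem_gauss hL IsConstExt.refl ⟨l, hlr⟩⟩,
      r.datum.red_algebraMap_left hL IsConstExt.refl ⟨l, hlr⟩⟩
  have h2 : ∀ q : M.Pts L, M.map r.restrict q = 0 →
      M.map G.restrict (M.map (Spot.ofHom iL) q) = 0 := fun q hq => by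
    rw [← M.map_comp, hG, M.map_comp, hq, map_zero]
  rw [← Spot.resPic_cls, hd, resPic_cube]
  rcases hr with hr | hr
  · rw [h2 Q₀ hr, cube_zero_middle]
  · rw [h2 R₀ hr, cube_zero_right]

omit [IsAlgClosed K] in
/-- The class of the cube divisor over a place of the curve. -/
theorem cls_res_placeGauss (hL : IsConstExt Ω C L FL) {φ : M.Pts C} {Q₀ R₀ : M.Pts L}
    {d : vDiv K FL} (hd : cls d = M.cube (M.map (Spot.ofHom iC) φ) (M.map (Spot.ofHom iL) Q₀)
      (M.map (Spot.ofHom iL) R₀)) (c : Place Ω C) :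
    cls ((placeGauss hL c).restrict.res d) =
      M.cube (M.map (Spot.ofHom iΩ) (M.map (placeSpot c).restrict φ)) Q₀ R₀ := by
  set G : Spot K FL L := (placeGauss hL c).restrict
  have hC : G.comp (Spot.ofHom iC) = (Spot.ofHom iΩ).comp (placeSpot c).restrict := by
    refine Spot.eq_of_le fun f hf => ?_
    obtain ⟨hfc, -⟩ := (Spot.mem_comp _ _).1 hf
    obtain ⟨hm, he⟩ := placeGauss_left hL c hfc
    exact ⟨(Spot.mem_comp _ _).2 ⟨Spot.mem_ofHom iC f, hm⟩, he⟩
  have hLid : G.comp (Spot.ofHom iL) = Spot.ofHom (AlgHom.id K L) := by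
    refine Spot.eq_of_le fun l _ => ?_
    obtain ⟨hm, he⟩ := placeGauss_right hL c l
    exact ⟨(Spot.mem_comp _ _).2 ⟨Spot.mem_ofHom iL l, hm⟩, he⟩
  rw [← Spot.resPic_cls, hd, resPic_cube, ← M.map_comp G (Spot.ofHom iC),
    ← M.map_comp G (Spot.ofHom iL) Q₀, ← M.map_comp G (Spot.ofHom iL) R₀, hC, hLid, M.map_id,
    M.map_id, M.map_comp]

omit [IsAlgClosed K] in
/-- A local divisor comparing the classes at two places of the curve. -/
theorem exists_div_cube [IsFF L FL] (hL : IsConstExt Ω C L FL) (φ : M.Pts C) (Q₀ R₀ : M.Pts L)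
    (r₀ : Spot Ω L Ω) (hr₀ : M.map r₀.restrict Q₀ = 0)
    (H : ∀ z : L, (∀ r : Spot Ω L Ω, (M.map r.restrict Q₀ = 0 ∨ M.map r.restrict R₀ = 0) →
      z ∈ r.V) → ∃ a : Ω, algebraMap Ω L a = z) (c₁ c₂ : Place Ω C) :
    ∃ e' : vDiv K L,
      M.IsLocalAt e' ![M.map (Spot.ofHom iΩ) (M.map (placeSpot c₁).restrict φ),
        M.map (Spot.ofHom iΩ) (M.map (placeSpot c₂).restrict φ), Q₀, R₀] ∧
      (∃ k : Lˣ, ∀ W : KVal Ω L, (overDiv Ω e').1 W / k ∈ W.1.unitGroup) ∧
      IsPrin (r₀.restrict.res e') ∧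
      (IsPrin e' → IsTors (M.cube (M.map (Spot.ofHom iΩ) (M.map (placeSpot c₁).restrict φ)) Q₀ R₀ /
        M.cube (M.map (Spot.ofHom iΩ) (M.map (placeSpot c₂).restrict φ)) Q₀ R₀)) := by
  obtain ⟨d, hd, hdfin, hdloc⟩ := isGood_cube (M := M)
    (p := ![M.map (Spot.ofHom iC) φ, M.map (Spot.ofHom iL) Q₀, M.map (Spot.ofHom iL) R₀])
    (follows_apply 0) (follows_apply 1) (follows_apply 2)
  have heq := M.hasEquations_cube (Ω := Ω) φ Q₀ R₀ hdloc
  have hfin : (Set.range (overDiv Ω d).1).Finite := hdfin.subset (by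
    rintro _ ⟨W, rfl⟩; exact ⟨_, rfl⟩)
  obtain ⟨u, hu⟩ := exists_principal hL {r | M.map r.restrict Q₀ = 0 ∨ M.map r.restrict R₀ = 0}
    ⟨r₀, Or.inl hr₀⟩ H hfin heq fun r hr => M.isPrin_res_gauss hL hd r hr
  obtain ⟨h, hh⟩ := exists_ratio hL heq hu c₁ c₂
  have h₁ := M.cls_res_placeGauss hL hd c₁
  have h₂ := M.cls_res_placeGauss hL hd c₂
  obtain ⟨e', he', -, he'loc⟩ := (isGood_cube (M := M)
    (p := ![M.map (Spot.ofHom iΩ) (M.map (placeSpot c₁).restrict φ),
      M.map (Spot.ofHom iΩ) (M.map (placeSpot c₂).restrict φ), Q₀, R₀])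
    (follows_apply 0) (follows_apply 2) (follows_apply 3)).div
      (isGood_cube (follows_apply 1) (follows_apply 2) (follows_apply 3))
  simp only [Matrix.cons_val] at he'
  obtain ⟨k, hk⟩ : IsPrin (e' / ((placeGauss hL c₁).restrict.res d /
      (placeGauss hL c₂).restrict.res d)) := (cls_eq_one_iff _).1 (by
    show cls e' / (cls ((placeGauss hL c₁).restrict.res d) /
      cls ((placeGauss hL c₂).restrict.res d)) = 1
    rw [h₁, h₂, he', div_self'])
  refine ⟨e', he'loc, ⟨k * h, fun W => overDiv_div_mem hk (fun W' => ?_) W⟩,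
    (cls_eq_one_iff _).1 ?_, fun hp => ?_⟩
  · rw [← res_overDiv, ← res_overDiv]
    exact hh W'
  · rw [← Spot.resPic_cls, he', map_div, resPic_cube, resPic_cube, hr₀, cube_zero_middle,
      cube_zero_middle, div_one]
  · rw [← he', (cls_eq_one_iff e').2 hp]
    exact IsTors.one

end Core

/-- Only constants are regular at all places where one of the generic points is zero. -/
theorem exists_algebraMap_of_zero {Ω : Type u} [Field Ω] [Algebra K Ω] [IsAlgClosed Ω]
    (z : M.GenField Ω) (hz : ∀ r : Spot Ω (M.GenField Ω) Ω,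
      (M.map r.restrict (M.gen₂ Ω) = 0 ∨ M.map r.restrict (M.gen₃ Ω) = 0) → z ∈ r.V) :
    ∃ a : Ω, algebraMap Ω (M.GenField Ω) a = z := by
  have halg : IsAlgebraic Ω z := M.genField_inter Ω z
    (M.genField_zero Ω _ (Or.inl rfl) z fun r hr => hz r (Or.inl hr))
    (M.genField_zero Ω _ (Or.inr rfl) z fun r hr => hz r (Or.inr hr))
  exact minpoly.degree_eq_one_iff.mp
    (IsAlgClosed.degree_eq_one_of_irreducible Ω (minpoly.irreducible halg.isIntegral))

/-- **The cube class of two independent generic points is constant along curves.** -/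
theorem curveConstant {Ω : Type u} [Field Ω] [Algebra K Ω] [IsAlgClosed Ω]
    {C : Type u} [Field C] [Algebra K C] [Algebra Ω C] [IsScalarTower K Ω C] [IsFF Ω C]
    (φ : M.Pts C) (s₁ s₂ : Spot Ω C Ω) :
    IsTors (M.cube (M.constPt Ω (M.map s₁.restrict φ)) (M.gen₂ Ω) (M.gen₃ Ω) /
      M.cube (M.constPt Ω (M.map s₂.restrict φ)) (M.gen₂ Ω) (M.gen₃ Ω)) := by
  obtain ⟨c₁, rfl⟩ := exists_placeSpot s₁
  obtain ⟨c₂, rfl⟩ := exists_placeSpot s₂
  let L := M.GenField Ω
  let FL := CExt Ω C L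
  let : Algebra K FL := ((algebraMap Ω FL).comp (algebraMap K Ω)).toAlgebra
  have : IsScalarTower K Ω FL := IsScalarTower.of_algebraMap_eq fun _ => rfl
  have : IsScalarTower K C FL := IsScalarTower.of_algebraMap_eq fun a => by
    show algebraMap Ω FL (algebraMap K Ω a) = _
    rw [IsScalarTower.algebraMap_apply Ω C FL, ← IsScalarTower.algebraMap_apply K Ω C]
  have : IsScalarTower K L FL := IsScalarTower.of_algebraMap_eq fun a => by
    show algebraMap Ω FL (algebraMap K Ω a) = _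
    rw [IsScalarTower.algebraMap_apply Ω L FL, ← IsScalarTower.algebraMap_apply K Ω L]
  let hL : IsConstExt Ω C L FL := CExt.isConstExt Ω C L
  have : IsFF L FL := hL.isFF
  obtain ⟨r₀, -, hr₀⟩ := M.exists_spot_zero (M.genHom₂ Ω)
    (M.baseLift_injective_left _ _ (M.genField_independent Ω)) topVal
    fun _ _ => ValuationSubring.mem_top _
  obtain ⟨e', hloc, ⟨k, hk⟩, hres, hfinal⟩ := M.exists_div_cube hL φ _ _ r₀ hr₀
    (M.exists_algebraMap_of_zero (Ω := Ω)) c₁ c₂
  exact hfinal (M.isPrin_of_local Ω hloc k hk r₀ hres)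

/-- The cube class of three independent generic points is torsion. -/
theorem isTors_cube_generic :
    ∃ (Ω : Type u) (_ : Field Ω) (_ : Algebra K Ω) (j₁ : M.FA →ₐ[K] Ω),
      IsTors (M.cube (M.constPt Ω (M.map (Spot.ofHom j₁) M.gen)) (M.gen₂ Ω) (M.gen₃ Ω)) := by
  obtain ⟨j₁, h | ⟨C, _, _, _, _, _, φ, c₁, c₂, h₁, h₂⟩⟩ := M.exists_curve_to_zero
  · exact ⟨_, _, _, j₁, by rw [h, constPt, map_zero, cube_zero_left]; exact IsTors.one⟩
  · refine ⟨_, _, _, j₁, ?_⟩
    have := M.curveConstant (Ω := AlgebraicClosure M.FA) φ c₁ c₂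
    rwa [h₁, h₂, constPt, constPt, map_zero, cube_zero_left, div_one] at this

/-- **The theorem of the cube, up to torsion**: for any three points `P`, `Q`, `R` with values in a
field the alternating combination of the classes `δ` of `P + Q + R`, their pairwise sums, the
points and `0` is torsion. -/
theorem cube_isTors (F : Type u) [Field F] [Algebra K F] (P Q R : M.Pts F) :
    IsTors (M.cube P Q R) := by
  obtain ⟨Ω, _, _, j₁, hgen⟩ := M.isTors_cube_generic
  obtain ⟨cP, hP, rfl⟩ := M.exists_chart P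
  obtain ⟨cQ, hQ, rfl⟩ := M.exists_chart Q
  obtain ⟨cR, hR, rfl⟩ := M.exists_chart R
  let i : M.ring cP ⊗[K] (M.ring cQ ⊗[K] M.ring cR) →ₐ[K] M.GenField Ω :=
    (IsScalarTower.toAlgHom K (M.GenRing Ω) (M.GenField Ω)).comp (Algebra.TensorProduct.map
      (j₁.comp (M.ring cP).val) (Algebra.TensorProduct.map (M.ring cQ).val (M.ring cR).val))
  have hi : Function.Injective i :=
    (IsFractionRing.injective (M.GenRing Ω) (M.GenField Ω)).comp
      (TensorProduct.map_injective_of_flat_flat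
        (j₁.comp (M.ring cP).val).toLinearMap
        (Algebra.TensorProduct.map (M.ring cQ).val (M.ring cR).val).toLinearMap
        (j₁.toRingHom.injective.comp Subtype.val_injective)
        (TensorProduct.map_injective_of_flat_flat (M.ring cQ).val.toLinearMap
          (M.ring cR).val.toLinearMap Subtype.val_injective Subtype.val_injective))
  obtain ⟨E, _, _, ι, r, hV, hrP, hrQ, hrR⟩ :=
    exists_spot_triple (A := M.ring cP) (B := M.ring cQ) (C := M.ring cR) i hi hP hQ hR
  apply isTors_of_resPic_ofHom ι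
  rw [resPic_cube]
  have key := IsTors.map (M := VPic K (M.GenField Ω)) (N := VPic K E) r.resPic hgen
  rw [resPic_cube] at key
  have spec : ∀ (c : M.Chart) (j : M.FA →ₐ[K] M.GenField Ω) (h : M.ring c →ₐ[K] F)
      (t : M.ring c → M.ring cP ⊗[K] (M.ring cQ ⊗[K] M.ring cR)),
      (∀ a : M.ring c, j a = i (t a)) → (∀ a, r.ρ ⟨i (t a), hV _⟩ = ι (h a)) →
        M.map r (M.map (Spot.ofHom j) M.gen) = M.map (Spot.ofHom ι) (M.pt c h) :=
    fun c j h t he hr => by
      rw [map_ofHom_pt]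
      exact M.map_gen_eq_of_agree c j r _ fun a =>
        ⟨(he a).symm ▸ hV _, (congrArg r.ρ (Subtype.ext (he a))).trans (hr a)⟩
  have e₁ : M.map r (M.map (Spot.ofHom (IsScalarTower.toAlgHom K Ω (M.GenField Ω)))
      (M.map (Spot.ofHom j₁) M.gen)) = M.map (Spot.ofHom ι) (M.pt cP hP) := by
    rw [show M.map (Spot.ofHom (IsScalarTower.toAlgHom K Ω (M.GenField Ω)))
        (M.map (Spot.ofHom j₁) M.gen) =
          M.map (Spot.ofHom ((IsScalarTower.toAlgHom K Ω (M.GenField Ω)).comp j₁)) M.gen by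
      rw [map_gen_eq_pt M cP, map_ofHom_pt, map_gen_eq_pt M cP]; rfl]
    exact spec cP _ hP (fun a => a ⊗ₜ 1) (fun a => by
      simp [i, IsScalarTower.algebraMap_apply Ω (M.GenRing Ω) (M.GenField Ω),
        Algebra.TensorProduct.algebraMap_apply, Algebra.TensorProduct.one_def]) hrP
  rw [e₁, spec cQ _ hQ (fun a => 1 ⊗ₜ (a ⊗ₜ 1)) (fun a => by simp [i, genHom₂_apply]) hrQ,
    spec cR _ hR (fun a => 1 ⊗ₜ (1 ⊗ₜ a)) (fun a => by simp [i, genHom₃_apply]) hrR] at key
  exact key

end Model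

end FermatAgent.AV
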