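import Fermat.Agent.AV.Curve.Gauss

/-!
# Gauss-integral functions regular on generalisations are regular

Let `y` be algebraically independent in `F` with `F` finite over `K(y)`.  An element of the Gauss
valuation ring integral over `L[y]` is integral over `V[y]`.  Hence an element of the Gauss ring
which is regular at the generalisations of a valuation over `V[y]` is regular at that valuation.
-/

set_option autoImplicit false

noncomputable section

open Module Polynomial
open scoped IntermediateField.algebraAdjoinAdjoin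

namespace FermatAgent.AV

/-- `z` is a root of a monic polynomial with coefficients in `s`. -/
def IntOver {E : Type*} [Field E] (s : Set E) (z : E) : Prop :=
  ∃ q : E[X], q.Monic ∧ (∀ i, q.coeff i ∈ s) ∧ q.eval z = 0

theorem IntOver.mem {E : Type*} [Field E] {s : Set E} {z : E} (h : IntOver s z)
    (W : ValuationSubring E) (hs : s ⊆ W) : z ∈ W := by
  obtain ⟨q, hq, hc, hz⟩ := h
  have hl : q ∈ Polynomial.lifts W.subtype :=
    (Polynomial.lifts_iff_coeff_lifts q).2 fun i => ⟨⟨_, hs (hc i)⟩, rfl⟩
  obtain ⟨q', hq', -, hm⟩ := Polynomial.lifts_and_natDegree_eq_and_monic hl hq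
  have hint : IsIntegral W z := ⟨q', hm, by
    rw [← Polynomial.eval_map]
    exact (congrArg (Polynomial.eval z) hq').trans hz⟩
  obtain ⟨y, hy⟩ := IsIntegrallyClosed.isIntegral_iff.1 hint
  exact hy ▸ y.2

theorem intOver_of_forall_mem {E : Type*} [Field E] (S : Subring E) {z : E}
    (h : ∀ W : ValuationSubring E, S ≤ W.toSubring → z ∈ W) : IntOver (S : Set E) z := by
  obtain ⟨q, hq, hqz⟩ := Curve.isIntegralElem_of_forall_valuationSubring S.subtype
    fun W hW => h W fun x hx => hW ⟨x, hx⟩
  refine ⟨q.map S.subtype, hq.map _, fun i => ?_, ?_⟩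
  · rw [Polynomial.coeff_map]; exact (q.coeff i).2
  · rw [Polynomial.eval_map]; exact hqz

variable {K F L FL κ Fk : Type*} [Field K] [Field F] [Field L] [Field FL] [Field κ] [Field Fk]
  [Algebra K F] [Algebra K L] [Algebra K κ]
  [Algebra K FL] [Algebra F FL] [Algebra L FL] [IsScalarTower K F FL] [IsScalarTower K L FL]
  [Algebra K Fk] [Algebra F Fk] [Algebra κ Fk] [IsScalarTower K F Fk] [IsScalarTower K κ Fk]

theorem coe_comb_top_adjoin (X : Set F) :
    (comb K F L FL ⊤ (Algebra.adjoin K X) : Set FL) =
      (Algebra.adjoin L (algebraMap F FL '' X) : Set FL) := by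
  refine Set.Subset.antisymm (fun z hz => ?_) fun z hz => ?_
  · obtain ⟨n, a, f, -, hf, rfl⟩ := exists_rep hz
    refine Subalgebra.sum_mem _ fun i _ => Subalgebra.mul_mem _ (Subalgebra.algebraMap_mem _ _) ?_
    have hle : Algebra.adjoin K X ≤
        ((Algebra.adjoin L (algebraMap F FL '' X)).restrictScalars K).comap
          (IsScalarTower.toAlgHom K F FL) :=
      Algebra.adjoin_le fun x hx => Algebra.subset_adjoin ⟨x, hx, rfl⟩
    exact hle (hf i)
  · refine Algebra.adjoin_induction (p := fun z _ => z ∈ comb K F L FL ⊤ (Algebra.adjoin K X))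
      ?_ (fun a => algebraMap_left_mem_comb trivial) (fun _ _ _ _ => add_mem)
      (fun _ _ _ _ => mul_mem) hz
    rintro _ ⟨x, hx, rfl⟩
    exact algebraMap_right_mem_comb (Algebra.subset_adjoin hx)

namespace IsConstExt

variable (hL : IsConstExt K F L FL)
include hL

theorem algebraicIndependent {ι : Type*} {y : ι → F} (hy : AlgebraicIndependent K y) :
    AlgebraicIndependent L fun i => algebraMap F FL (y i) := by
  rw [algebraicIndependent_iff]
  intro p hp
  classical
  let e := p.support.equivFin
  let mon : (ι →₀ ℕ) → F := fun m => MvPolynomial.aeval y (MvPolynomial.monomial m (1 : K))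
  have hli : LinearIndependent K fun j => mon (e.symm j : _) := by
    have h1 := ((MvPolynomial.basisMonomials ι K).linearIndependent.comp
      (fun j => ((e.symm j : p.support) : ι →₀ ℕ))
      (Subtype.coe_injective.comp e.symm.injective)).map' (MvPolynomial.aeval y).toLinearMap
      (LinearMap.ker_eq_bot.2 hy)
    simpa [mon, Function.comp_def] using h1
  have h0 := hL.disjoint _ hli (fun j => p.coeff (e.symm j : _)) (by
    rw [← hp]
    conv_rhs => rw [p.as_sum, map_sum, ← Finset.sum_coe_sort]
    rw [← Equiv.sum_comp e]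
    refine Finset.sum_congr rfl fun m _ => ?_
    simp [mon, MvPolynomial.aeval_monomial, map_finsuppProd])
  refine MvPolynomial.support_eq_empty.1 (Finset.eq_empty_iff_forall_notMem.2 fun m hm => ?_)
  have := congrFun h0 (e ⟨m, hm⟩)
  simp at this
  exact MvPolynomial.mem_support_iff.1 hm this

end IsConstExt

namespace RedDatum

variable (R : RedDatum K L κ) (hL : IsConstExt K F L FL) (hk : IsConstExt K F κ Fk)
variable {ι : Type*} (y : ι → F)
include hL hk

/-- Coefficients over a basis of `F` over `K(y)` of Gauss-integral combinations are integral. -/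
theorem mem_comb_of_sum_basis {n : ℕ}
    (b : Basis (Fin n) (IntermediateField.adjoin K (Set.range y)) F) {p : Fin n → FL}
    (hp : ∀ j, p j ∈ comb K F L FL ⊤ (Algebra.adjoin K (Set.range y)))
    (hs : ∑ j, p j * algebraMap F FL (b j) ∈ R.gauss hL hk) :
    ∀ j, p j ∈ comb K F L FL R.alg (Algebra.adjoin K (Set.range y)) := by
  classical
  choose m a f hf ha hfS hrep using fun j => exists_indep_rep (hp j)
  let e := Fintype.equivFin (Σ j, Fin (m j))
  have hli : LinearIndependent K fun s : Σ j, Fin (m j) => f s.1 s.2 * b s.1 := by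
    rw [Fintype.linearIndependent_iff]
    intro c hc
    rw [Fintype.sum_sigma] at hc
    have hY : ∀ j, ∑ i, c ⟨j, i⟩ • f j i ∈ IntermediateField.adjoin K (Set.range y) := fun j =>
      IntermediateField.algebra_adjoin_le_adjoin K _
        (Subalgebra.sum_mem _ fun i _ => Subalgebra.smul_mem _ (hfS j i) _)
    have h1 := Fintype.linearIndependent_iff.1 b.linearIndependent (fun j => ⟨_, hY j⟩) (by
      rw [← hc]
      refine Finset.sum_congr rfl fun j _ => ?_
      rw [Algebra.smul_def]
      show (∑ i, c ⟨j, i⟩ • f j i) * b j = _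
      rw [Finset.sum_mul]
      exact Finset.sum_congr rfl fun i _ => smul_mul_assoc _ _ _)
    rintro ⟨j, i⟩
    exact Fintype.linearIndependent_iff.1 (hf j) (fun i => c ⟨j, i⟩)
      (congrArg Subtype.val (h1 j)) i
  have hli' := hli.comp e.symm e.symm.injective
  let g : Fin (Fintype.card (Σ j, Fin (m j))) → R.gauss hL hk := fun t =>
    ⟨_, R.algebraMap_right_mem_gauss hL hk (f (e.symm t).1 (e.symm t).2 * b (e.symm t).1)⟩
  have hg : LinearIndependent κ fun t => R.red hL hk (g t) := by
    have h1 := hk.linearIndependent hli'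
    rw [show (fun t => R.red hL hk (g t)) = fun t =>
      algebraMap F Fk (f (e.symm t).1 (e.symm t).2 * b (e.symm t).1) from
      funext fun t => R.red_algebraMap_right hL hk _]
    exact h1
  have hco := R.coeff_mem hL hk hg (c := fun t => a (e.symm t).1 (e.symm t).2) (by
    refine (congrArg (· ∈ R.gauss hL hk) ?_).mpr hs
    simp only [g]
    rw [Equiv.sum_comp e.symm (fun s : Σ j, Fin (m j) =>
      a s.1 s.2 • algebraMap F FL (f s.1 s.2 * b s.1)), Fintype.sum_sigma]
    refine Finset.sum_congr rfl fun j _ => ?_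
    rw [hrep j, Finset.sum_mul]
    refine Finset.sum_congr rfl fun i _ => ?_
    rw [Algebra.smul_def, map_mul, mul_assoc])
  intro j
  rw [hrep j]
  refine sum_mem_comb _ (fun i _ => ?_) fun i _ => hfS j i
  have := hco (e ⟨j, i⟩)
  change a (e.symm (e ⟨j, i⟩)).1 (e.symm (e ⟨j, i⟩)).2 ∈ R.V at this
  rw [e.symm_apply_apply] at this
  exact this

variable [FiniteDimensional (IntermediateField.adjoin K (Set.range y)) F]

/-- **Gauss-integral elements integral over `L[y]` are integral over `V[y]`.** -/
theorem intOver_comb_of_gauss (hy : AlgebraicIndependent K y) {z : FL}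
    (hz : z ∈ R.gauss hL hk)
    (hint : IntOver (comb K F L FL ⊤ (Algebra.adjoin K (Set.range y)) : Set FL) z) :
    IntOver (comb K F L FL R.alg (Algebra.adjoin K (Set.range y)) : Set FL) z := by
  classical
  set G := R.gauss hL hk
  set P := Algebra.adjoin L (algebraMap F FL '' Set.range y) with hP
  set E := IntermediateField.adjoin L (algebraMap F FL '' Set.range y) with hE
  have hPS : (comb K F L FL ⊤ (Algebra.adjoin K (Set.range y)) : Set FL) = P :=
    coe_comb_top_adjoin _
  let b := Module.finBasis (IntermediateField.adjoin K (Set.range y)) F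
  set d := finrank (IntermediateField.adjoin K (Set.range y)) F
  -- coordinates of elements of the Gauss ring are Gauss integral
  have hcoord : ∀ w ∈ G, ∃ c : Fin d → E,
      (∀ j, (c j : FL) ∈ G) ∧ w = ∑ j, (c j : FL) * algebraMap F FL (b j) := by
    intro w hw
    have hmem : w ∈ (⊤ : Submodule E FL) := trivial
    rw [← hL.span_eq_top b, Submodule.mem_span_range_iff_exists_fun] at hmem
    obtain ⟨c, hc⟩ := hmem
    choose r hr s hs hrs using fun j =>
      (IntermediateField.mem_adjoin_iff_div (F := L)
        (S := algebraMap F FL '' Set.range y)).1 (c j).2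
    -- a common denominator
    let s' : Fin d → FL := fun j => if s j = 0 then 1 else s j
    let r' : Fin d → FL := fun j => if s j = 0 then 0 else r j
    have hs' : ∀ j, s' j ∈ P ∧ s' j ≠ 0 ∧ r' j ∈ P ∧ (c j : FL) * s' j = r' j := fun j => by
      by_cases h : s j = 0
      · simp [s', r', h, hrs j, one_mem, zero_mem]
      · refine ⟨by simpa [s', h] using hs j, by simp [s', h],
          by simpa [r', h] using hr j, ?_⟩
        simp [s', r', h, hrs j]
    have hq : ∏ j, s' j ∈ comb K F L FL ⊤ (Algebra.adjoin K (Set.range y)) :=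
      (Set.ext_iff.1 hPS _).2 (prod_mem fun j _ => (hs' j).1)
    obtain ⟨l, q, hl, hqS, hq', hqe⟩ := R.exists_primitive hL hk hq
      (Finset.prod_ne_zero_iff.2 fun j _ => (hs' j).2.1)
    have hcq : ∀ j, (c j : FL) * (q : FL) ∈ comb K F L FL ⊤ (Algebra.adjoin K (Set.range y)) := by
      intro j
      have h1 : (c j : FL) * ∏ i, s' i ∈ comb K F L FL ⊤ (Algebra.adjoin K (Set.range y)) := by
        rw [← Finset.mul_prod_erase _ _ (Finset.mem_univ j), ← mul_assoc, (hs' j).2.2.2]
        exact (Set.ext_iff.1 hPS _).2 (mul_mem (hs' j).2.2.1 (prod_mem fun i _ => (hs' i).1))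
      rw [hqe] at h1
      have h2 := mul_mem (algebraMap_left_mem_comb (K := K) (FL := FL) (A := ⊤)
        (S := Algebra.adjoin K (Set.range y)) (a := l⁻¹) trivial) h1
      rwa [map_inv₀, mul_left_comm (c j : FL), ← mul_assoc,
        inv_mul_cancel₀ ((_root_.map_ne_zero _).2 hl), one_mul] at h2
    have hsum : ∑ j, (c j : FL) * (q : FL) * algebraMap F FL (b j) = w * (q : FL) := by
      rw [← hc, Finset.sum_mul]
      refine Finset.sum_congr rfl fun j _ => ?_
      rw [Algebra.smul_def, IntermediateField.algebraMap_apply]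
      ring
    have h2 := R.mem_comb_of_sum_basis hL hk y b hcq
      (hsum ▸ mul_mem hw (R.comb_le_gauss hL hk q.2))
    refine ⟨c, fun j => ⟨_, ⟨⟨_, comb_mono le_rfl le_top (h2 j)⟩, q, hq', rfl,
      div_mul_cancel₀ _ hq'⟩⟩, ?_⟩
    rw [← hc]
    exact Finset.sum_congr rfl fun j _ => by
      rw [Algebra.smul_def, IntermediateField.algebraMap_apply]
  -- integral over the Gauss ring of `L(y)`
  let G₀ : ValuationSubring E := G.comap (algebraMap E FL)
  let : Algebra G₀ FL := ((algebraMap E FL).comp G₀.subtype).toAlgebra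
  have : IsScalarTower G₀ E FL := IsScalarTower.of_algebraMap_eq fun _ => rfl
  have hG₀ : IsIntegral G₀ z := by
    set N : Submodule G₀ FL := Submodule.span G₀ (Set.range fun j => algebraMap F FL (b j))
    have hN : ∀ w ∈ G, w ∈ N := fun w hw => by
      obtain ⟨c, hc, rfl⟩ := hcoord w hw
      exact Submodule.sum_mem _ fun j _ =>
        N.smul_mem (⟨c j, hc j⟩ : G₀) (Submodule.subset_span ⟨j, rfl⟩)
    have hNG : ∀ w ∈ N, w ∈ G := fun w hw => by
      induction hw using Submodule.span_induction with
      | mem _ h => obtain ⟨j, rfl⟩ := h; exact R.algebraMap_right_mem_gauss hL hk _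
      | zero => exact G.zero_mem
      | add _ _ _ _ hu hv => exact G.add_mem _ _ hu hv
      | smul a _ _ hu =>
        rw [Algebra.smul_def]
        exact G.mul_mem _ _ (show (algebraMap E FL) (a : E) ∈ G from a.2) hu
    refine isIntegral_of_smul_mem_submodule (M := FL) N
      (fun h0 => one_ne_zero (Submodule.mem_bot _ |>.1 (h0 ▸ hN 1 G.one_mem)))
      ⟨Finset.univ.image fun j => algebraMap F FL (b j), by simp [N]⟩ z fun w hw => ?_
    exact hN _ (G.mul_mem _ _ hz (hNG w hw))
  -- integral over the polynomial ring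
  have hPint : IsIntegral P z := by
    obtain ⟨q, hq, hc, hqz⟩ := hint
    rw [hPS] at hc
    obtain ⟨q', hq', -, hm⟩ := Polynomial.lifts_and_natDegree_eq_and_monic
      ((Polynomial.lifts_iff_coeff_lifts (f := algebraMap P FL) q).2 fun i => ⟨⟨_, hc i⟩, rfl⟩) hq
    exact ⟨q', hm, by
      rw [← Polynomial.eval_map]; exact (congrArg (Polynomial.eval z) hq').trans hqz⟩
  have : IsIntegrallyClosed P := by
    have hy' := hL.algebraicIndependent hy
    have heq : Algebra.adjoin L (Set.range fun i => algebraMap F FL (y i)) = P := by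
      rw [hP, ← Set.range_comp]; rfl
    exact IsIntegrallyClosed.of_equiv
      (hy'.aevalEquiv.trans (Subalgebra.equivOfEq _ _ heq)).toRingEquiv
  have : IsScalarTower P E FL := IsScalarTower.of_algebraMap_eq fun _ => rfl
  have hmG := minpoly.isIntegrallyClosed_eq_field_fractions' E hG₀
  have hmP := minpoly.isIntegrallyClosed_eq_field_fractions' E hPint
  refine ⟨(minpoly E z).map (algebraMap E FL), (minpoly.monic ?_).map _, fun i => ?_, ?_⟩
  · exact hG₀.tower_top
  · rw [Polynomial.coeff_map]
    refine R.mem_comb_of_mem_gauss hL hk ((Set.ext_iff.1 hPS _).2 ?_) ?_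
    · rw [hmP, Polynomial.coeff_map]
      exact ((minpoly P z).coeff i).2
    · rw [hmG, Polynomial.coeff_map]
      exact ((minpoly G₀ z).coeff i).2
  · rw [Polynomial.eval_map]
    exact minpoly.aeval E z

/-- **Regularity on generalisations**: a function `ψ` integral at the Gauss ring which lies in
every valuation ring containing `L` above the generalisations of the centre of `W` lies in `W`. -/
theorem mem_of_generisations (hy : AlgebraicIndependent K y) {B : Subalgebra K F}
    (hyB : Algebra.adjoin K (Set.range y) ≤ B)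
    (hB : ∀ f ∈ B, IntOver (Algebra.adjoin K (Set.range y) : Set F) f)
    {W : ValuationSubring FL} (hW : (comb K F L FL R.alg B : Set FL) ⊆ W) {ψ : FL}
    (hψ : ψ ∈ R.gauss hL hk)
    (hgen : ∀ W' : ValuationSubring FL, (∀ a : L, algebraMap L FL a ∈ W') →
      (comb K F L FL R.alg B : Set FL) ⊆ W' →
      (∀ a ∈ comb K F L FL R.alg B, a⁻¹ ∈ W → a⁻¹ ∈ W') → ψ ∈ W') :
    ψ ∈ W := by
  classical
  set C := comb K F L FL ⊤ B
  set A := comb K F L FL R.alg B
  -- the localisation
  let S : Subring FL :=
    { carrier := {z | ∃ a ∈ A, a ≠ 0 ∧ a⁻¹ ∈ W ∧ z * a ∈ C}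
      one_mem' := ⟨1, one_mem _, one_ne_zero, by simp, by simp [one_mem]⟩
      zero_mem' := ⟨1, one_mem _, one_ne_zero, by simp, by simp [zero_mem]⟩
      mul_mem' := by
        rintro z z' ⟨a, ha, ha0, hai, hz⟩ ⟨a', ha', ha0', hai', hz'⟩
        refine ⟨a * a', mul_mem ha ha', mul_ne_zero ha0 ha0', ?_, ?_⟩
        · rw [mul_inv]; exact W.mul_mem _ _ hai hai'
        · have := mul_mem hz hz'
          rwa [show z * a * (z' * a') = z * z' * (a * a') by ring] at this
      add_mem' := by
        rintro z z' ⟨a, ha, ha0, hai, hz⟩ ⟨a', ha', ha0', hai', hz'⟩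
        refine ⟨a * a', mul_mem ha ha', mul_ne_zero ha0 ha0', ?_, ?_⟩
        · rw [mul_inv]; exact W.mul_mem _ _ hai hai'
        · have hA : A ≤ C := comb_mono le_top le_rfl
          have := add_mem (mul_mem hz (hA ha')) (mul_mem hz' (hA ha))
          rwa [show z * a * a' + z' * a' * a = (z + z') * (a * a') by ring] at this
      neg_mem' := by
        rintro z ⟨a, ha, ha0, hai, hz⟩
        exact ⟨a, ha, ha0, hai, by rw [neg_mul]; exact neg_mem hz⟩ }
  have hS : IntOver (S : Set FL) ψ := by
    refine intOver_of_forall_mem S fun W' hW' => hgen W' (fun a => hW' ?_) (fun a ha => hW' ?_)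
      (fun a ha hai => ?_)
    · exact ⟨1, one_mem _, one_ne_zero, by simp, by
        rw [mul_one]; exact algebraMap_left_mem_comb (A := ⊤) (S := B) (a := a) trivial⟩
    · exact ⟨1, one_mem _, one_ne_zero, by simp, by simpa using comb_mono le_top le_rfl ha⟩
    · rcases eq_or_ne a 0 with rfl | ha0
      · simp
      · exact hW' ⟨a, ha, ha0, hai, by rw [inv_mul_cancel₀ ha0]; exact one_mem _⟩
  -- clear the denominators
  obtain ⟨q, hq, hc, hqψ⟩ := hS
  choose a ha ha0 hai hqa using hc
  set s := ∏ i ∈ Finset.range (q.natDegree + 1), a i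
  have hs : s ∈ A := prod_mem fun i _ => ha i
  have hs0 : s ≠ 0 := Finset.prod_ne_zero_iff.2 fun i _ => ha0 i
  have hsi : s⁻¹ ∈ W := by rw [← Finset.prod_inv_distrib]; exact prod_mem fun i _ => hai i
  have hsC : ∀ i ≤ q.natDegree, q.coeff i * s ∈ C := fun i hi => by
    rw [show s = a i * ∏ j ∈ (Finset.range (q.natDegree + 1)).erase i, a j from
      (Finset.mul_prod_erase _ _ (Finset.mem_range.2 (Nat.lt_succ_of_le hi))).symm, ← mul_assoc]
    exact mul_mem (hqa i) (prod_mem fun j _ => comb_mono le_top le_rfl (ha j))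
  have hsψ : IntOver (C : Set FL) (s * ψ) := by
    refine ⟨q.scaleRoots s, (monic_scaleRoots_iff s).2 hq, fun i => ?_, ?_⟩
    · rw [coeff_scaleRoots]
      rcases lt_trichotomy i q.natDegree with hi | hi | hi
      · obtain ⟨k, hk'⟩ : ∃ k, q.natDegree - i = k + 1 := ⟨q.natDegree - i - 1, by omega⟩
        rw [hk', pow_succ', ← mul_assoc]
        exact mul_mem (hsC i hi.le) (pow_mem (comb_mono le_top le_rfl hs) k)
      · rw [hi, hq.coeff_natDegree, Nat.sub_self, pow_zero, mul_one]; exact one_mem _
      · rw [Polynomial.coeff_eq_zero_of_natDegree_lt hi, zero_mul]; exact zero_mem _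
    · have h1 := scaleRoots_eval₂_mul (RingHom.id FL) ψ s (p := q)
      simp only [RingHom.id_apply] at h1
      rw [Polynomial.eval₂_id, Polynomial.eval₂_id] at h1
      rw [h1, hqψ, mul_zero]
  have hy' : IntOver (comb K F L FL ⊤ (Algebra.adjoin K (Set.range y)) : Set FL) (s * ψ) := by
    refine intOver_of_forall_mem (comb K F L FL ⊤ (Algebra.adjoin K (Set.range y))).toSubring
      fun W' hW' => hsψ.mem W' fun z hz => ?_
    obtain ⟨n, l, f, -, hf, rfl⟩ := exists_rep hz
    refine Subring.sum_mem _ fun i _ => ?_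
    refine W'.mul_mem _ _ (hW' (algebraMap_left_mem_comb trivial)) ?_
    exact (hB _ (hf i)).mem (W'.comap (algebraMap F FL)) fun g hg =>
      hW' (algebraMap_right_mem_comb hg)
  have hG : s * ψ ∈ R.gauss hL hk :=
    mul_mem (R.comb_le_gauss hL hk (comb_mono le_rfl le_top hs)) hψ
  have := (R.intOver_comb_of_gauss hL hk y hy hG hy').mem W
    fun z hz => hW (comb_mono le_rfl hyB hz)
  rw [show ψ = s⁻¹ * (s * ψ) by field_simp]
  exact W.mul_mem _ _ hsi this

end RedDatum

end FermatAgent.AV
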