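import Fermat.Agent.AV.Curve.Places
import Fermat.Agent.AV.Curve.Noether
import Fermat.Agent.Curve.Jac.Generic

/-!
# Divisors in general position in any characteristic; Riemann–Roch after extension of constants

A function field of one variable has non-special divisors made of `g` distinct places avoiding
given ones and two functions cutting out a given place; extension of the constants does not lower
the dimension of Riemann–Roch spaces and does not raise the genus.
-/

set_option autoImplicit false

noncomputable section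

open AlgebraicCurve Module
open FermatAgent.Curve FermatAgent.Curve.Jac
open scoped Classical

namespace FermatAgent.AV

variable {K F : Type*} [Field K] [Field F] [Algebra K F] [IsAlgClosed K] [IsFF K F]

/-- **Distinct places forming a non-special divisor of degree `g`.** -/
theorem exists_nonspecial_set (A : Finset (Place K F)) : ∃ s : Finset (Place K F),
    Disjoint s A ∧ rrDim (setDiv s) = 1 ∧ (s.card : ℤ) = rGenus K F := by
  obtain ⟨P, hP, hPA, h1⟩ := exists_nonspecial A
  refine ⟨Finset.univ.image P, Finset.disjoint_left.2 fun v hv => ?_, ?_, ?_⟩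
  · obtain ⟨i, -, rfl⟩ := Finset.mem_image.1 hv
    exact hPA i
  · rw [setDiv, Finset.sum_image hP.injOn]
    exact h1
  · rw [Finset.card_image_of_injective _ hP, Finset.card_univ, Fintype.card_fin]
    exact genusFF_eq

/-- A simple zero at `c`, poles only on `T`, no zero on `Q`. -/
theorem exists_simple_zero {T Q : Finset (Place K F)} (hT : T.Nonempty) {c : Place K F}
    (hcT : c ∉ T) (hcQ : c ∉ Q) (hQT : Disjoint Q T) :
    ∃ (j : ℕ) (t : F), t ∈ riemannRochSpace ((j : ℤ) • setDiv T) ∧ c.ord t = 1 ∧
      ∀ q ∈ Q, q.ord t = 0 := by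
  obtain ⟨c₀, hc₀⟩ := exists_rrDim_eq (K := K) (F := F)
  set j : ℕ := c₀.toNat + 2
  set D : Divisor K F := (j : ℤ) • setDiv T - Finsupp.single c 1
  have hDdeg : c₀ < Divisor.degree D := by
    have h1 : 1 ≤ T.card := hT.card_pos
    simp only [D, map_sub, map_zsmul, degree_setDiv, Divisor.degree_single, Curve.deg_eq_one c,
      smul_eq_mul, j]
    push_cast
    nlinarith [Int.self_le_toNat c₀, show (1 : ℤ) ≤ T.card from by exact_mod_cast h1]
  obtain ⟨t, ht, -, hord⟩ := exists_exact hc₀ hDdeg fun i : Option Q => i.elim c Subtype.val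
  have hle : D ≤ (j : ℤ) • setDiv T := fun w => by
    simp only [D, Finsupp.sub_apply, Finsupp.single_apply]
    split_ifs <;> omega
  refine ⟨j, t, riemannRochSpace_le_of_le hle ht, ?_, fun q hq => ?_⟩
  · simpa [D, setDiv_apply, hcT] using hord none
  · simpa [D, setDiv_apply, Finset.disjoint_left.1 hQT hq,
      Finsupp.single_eq_of_ne (show q ≠ c from fun e => hcQ (e ▸ hq))] using hord (some ⟨q, hq⟩)

/-- **Coordinates cutting out a place.** -/
theorem exists_coords_at (c : Place K F) : ∃ x u : F, Transcendental K x ∧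
    IntOver (Algebra.adjoin K ({x} : Set F) : Set F) u ∧ 0 < c.ord x ∧ 0 < c.ord u ∧
    ∀ v : Place K F, 0 < v.ord x → 0 < v.ord u → v = c := by
  obtain ⟨c₀, hc₀⟩ := exists_rrDim_eq (K := K) (F := F)
  have := infinite_places (K := K) (F := F)
  obtain ⟨d, hd⟩ := Infinite.exists_notMem_finset ({c} : Finset (Place K F))
  have hdc : d ≠ c := by simpa using hd
  set n : ℕ := c₀.toNat + 2
  set D : Divisor K F := Finsupp.single d (n : ℤ) - Finsupp.single c 1
  have hDdeg : c₀ < Divisor.degree D := by
    simp only [D, map_sub, Divisor.degree_single, Curve.deg_eq_one, n]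
    push_cast
    linarith [Int.self_le_toNat c₀]
  obtain ⟨x, hx, hxav⟩ := exists_avoid (riemannRochSpace D)
    (fun _ : Unit => riemannRochSpace (D - Finsupp.single d 1))
    fun i => rrDim_sub_single_lt hc₀ hDdeg
  obtain ⟨hx0, hxd⟩ := ord_eq_of_notMem hx (hxav ())
  have hxd' : d.ord x = -(n : ℤ) := by simpa [D, Finsupp.single_eq_of_ne hdc] using hxd
  have hxtr : Transcendental K x := transcendental_of_ord_ne_zero (v := d) (by omega)
  have hreg : ∀ f ∈ riemannRochSpace D, ∀ v : Place K F, v ≠ d → OrdGE v 0 f := fun f hf v hv => by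
    have := mem_riemannRochSpace.1 hf v
    simp only [D, Finsupp.sub_apply, Finsupp.single_eq_of_ne hv, Finsupp.single_apply] at this
    refine this.mono ?_
    split_ifs <;> omega
  have hcpos : ∀ f ∈ riemannRochSpace D, f ≠ 0 → 0 < c.ord f := fun f hf hf0 => by
    have := (mem_riemannRochSpace_iff_ne_zero hf0).1 hf c
    simp only [D, Finsupp.sub_apply, Finsupp.single_eq_of_ne hdc.symm, Finsupp.single_eq_same]
      at this
    omega
  set Z := ((finite_ord_pos (K := K) x).toFinset).erase c
  obtain ⟨u, hu, huav⟩ := exists_avoid (riemannRochSpace D)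
    (fun i : Option Z => riemannRochSpace (D - Finsupp.single (i.elim d Subtype.val) 1))
    fun i => rrDim_sub_single_lt hc₀ hDdeg
  obtain ⟨hu0, -⟩ := ord_eq_of_notMem hu (huav none)
  refine ⟨x, u, hxtr, ?_, hcpos x hx hx0, hcpos u hu hu0, fun v hvx hvu => ?_⟩
  · refine intOver_of_forall_mem (Algebra.adjoin K ({x} : Set F)).toSubring fun W hW => ?_
    by_cases hWt : W = ⊤
    · rw [hWt]; trivial
    have hWK : ∀ a : K, algebraMap K F a ∈ W := fun a => hW (Subalgebra.algebraMap_mem _ a)
    set v := placeOfValuationSubring W hWK hWt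
    have hxv : x ∈ v.toValuationSubring :=
      hW (Algebra.subset_adjoin (Set.mem_singleton x))
    have hvd : v ≠ d := fun e => by
      have := (mem_iff_ord_nonneg hx0).1 hxv
      rw [e, hxd'] at this
      omega
    exact (hreg u hu v hvd).mem le_rfl
  · by_contra hvc
    have hvd : v ≠ d := fun e => by rw [e, hxd'] at hvx; omega
    obtain ⟨-, h⟩ := ord_eq_of_notMem hu (huav (some ⟨v, Finset.mem_erase.2
      ⟨hvc, (finite_ord_pos (K := K) x).mem_toFinset.2 hvx⟩⟩))
    simp only [Option.elim_some, D, Finsupp.sub_apply, Finsupp.single_eq_of_ne hvd,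
      Finsupp.single_eq_of_ne hvc] at h
    omega

namespace IsConstExt

variable {L FL : Type*} [Field L] [Field FL] [Algebra K L]
  [Algebra K FL] [Algebra F FL] [Algebra L FL] [IsScalarTower K F FL] [IsScalarTower K L FL]
  [IsFF L FL] (h : IsConstExt K F L FL)
include h

theorem rrDim_le_extDiv (D : Divisor K F) : rrDim D ≤ rrDim (h.extDiv D) := by
  set b := Module.finBasis K (riemannRochSpace D)
  have hli := h.linearIndependent
    (b.linearIndependent.map' (riemannRochSpace D).subtype (Submodule.ker_subtype _))
  have hli' : LinearIndependent L (fun i =>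
      (⟨algebraMap F FL (b i : F), h.mem_riemannRochSpace_extDiv (b i).2⟩ :
        riemannRochSpace (h.extDiv D))) :=
    LinearIndependent.of_comp (riemannRochSpace _).subtype hli
  simpa [rrDim] using hli'.fintype_card_le_finrank

/-- The genus does not grow. -/
theorem rGenus_le : rGenus L FL ≤ rGenus K F := by
  obtain ⟨c, hc⟩ := exists_rrDim_eq (K := L) (F := FL)
  obtain ⟨P⟩ := exists_place (K := K) (F := F)
  set D : Divisor K F := Finsupp.single P c
  have hdeg : Divisor.degree D = c := by simp [D, Curve.deg_eq_one P]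
  have h1 := hc (h.extDiv D) (by rw [h.degree_extDiv, hdeg])
  have h2 := rrDef_le_rGenus D
  have h3 := Int.ofNat_le.2 (h.rrDim_le_extDiv D)
  rw [h.degree_extDiv] at h1
  simp only [rrDef] at h2
  omega

end IsConstExt

end FermatAgent.AV
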