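import Fermat.Agent.AV.Curve.CExt
import Fermat.Agent.AV.Curve.Noether

/-!
# Divisors read at specialisations

A divisor on a constant extension `FL` which is local at the point of a spot, and principal on the
valuations containing `L`, is at that spot what it is on the Gauss ring (seesaw).
-/

set_option autoImplicit false

noncomputable section

universe u

namespace FermatAgent.AV

theorem mem_unitGroup_iff' {F : Type*} [Field F] (V : ValuationSubring F) (x : Fˣ) :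
    x ∈ V.unitGroup ↔ (x : F) ∈ V ∧ (x : F)⁻¹ ∈ V := by
  rw [ValuationSubring.mem_unitGroup_iff, ← V.valuation_le_one_iff, ← V.valuation_le_one_iff,
    map_inv₀]
  have h0 : 0 < V.valuation (x : F) := zero_lt_iff.mpr ((Valuation.ne_zero_iff _).mpr x.ne_zero)
  rw [inv_le_one₀ h0]
  exact ⟨fun h => ⟨h.le, h.ge⟩, fun h => le_antisymm h.1 h.2⟩

variable {K : Type u} [Field K]

/-- `u` is an equation of `d` on the valuations containing `L`. -/
def IsEquationOver {F : Type u} [Field F] [Algebra K F] (L : Type u) [Field L] [Algebra L F]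
    (d : vDiv K F) (u : Fˣ) : Prop :=
  ∀ W : KVal K F, (∀ a : L, algebraMap L F a ∈ W.1) → d.1 W / u ∈ W.1.unitGroup

namespace Spot

variable {F E : Type u} [Field F] [Algebra K F] [Field E] [Algebra K E]

/-- A spot extending another one is equal to it. -/
theorem eq_of_le {r r' : Spot K F E}
    (h : ∀ (x : F) (hx : x ∈ r.V), ∃ hx' : x ∈ r'.V, r'.ρ ⟨x, hx'⟩ = r.ρ ⟨x, hx⟩) : r' = r := by
  refine (Spot.ext' (SetLike.ext fun x => ⟨fun hx => ?_, fun hx => ?_⟩) fun x hx hx' => ?_).symm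
  · exact (h x hx).choose
  · by_contra hn
    obtain ⟨⟨_, hi⟩, rfl, h0⟩ := exists_inv_eq_zero r.ker_iff hn
    obtain ⟨hi', he⟩ := h _ hi
    rw [h0] at he
    rcases eq_or_ne x 0 with rfl | hx0
    · exact hn r.V.zero_mem
    exact (r'.ker_iff _).1 he (isUnit_iff_exists_inv.2
      ⟨⟨x, hx⟩, Subtype.ext (inv_mul_cancel₀ hx0)⟩)
  · exact ((h x hx).choose_spec).symm

theorem inv_mem_of_ρ_ne_zero (r : Spot K F E) {x : F} (hx : x ∈ r.V) (h : r.ρ ⟨x, hx⟩ ≠ 0) :
    x⁻¹ ∈ r.V := by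
  have hu : IsUnit (⟨x, hx⟩ : r.V) := by_contra fun hn => h ((r.ker_iff _).2 hn)
  obtain ⟨y, hy⟩ := isUnit_iff_exists_inv.1 hu
  rw [← eq_inv_of_mul_eq_one_right (congrArg Subtype.val hy)]
  exact y.2

theorem ρ_ne_zero_of_inv_mem (r : Spot K F E) {x : F} (hx : x ∈ r.V) (hx0 : x ≠ 0)
    (h : x⁻¹ ∈ r.V) : r.ρ ⟨x, hx⟩ ≠ 0 :=
  fun h0 => (r.ker_iff _).1 h0
    (isUnit_iff_exists_inv.2 ⟨⟨x⁻¹, h⟩, Subtype.ext (mul_inv_cancel₀ hx0)⟩)

theorem mem_comp {G : Type u} [Field G] [Algebra K G] (s : Spot K E G) (r : Spot K F E) {x : F} :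
    x ∈ (s.comp r).V ↔ ∃ h : x ∈ r.V, r.ρ ⟨x, h⟩ ∈ s.V :=
  r.mem_pullRing _

end Spot

theorem div_mem_unitGroup_of_le {F : Type u} [Field F] [Algebra K F] (d : vDiv K F)
    {V V' : KVal K F} (h : V.1 ≤ V'.1) {x : Fˣ} (hx : x / d.1 V ∈ V.1.unitGroup) :
    x / d.1 V' ∈ V'.1.unitGroup := by
  rw [← div_mul_div_cancel x (d.1 V) (d.1 V')]
  exact mul_mem (ValuationSubring.unitGroup_le_unitGroup.2 h hx) (d.2 V V' h)

namespace RedDatum

variable {F L FL κ Fk : Type u} [Field F] [Field L] [Field FL] [Field κ] [Field Fk]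
  [Algebra K F] [Algebra K L] [Algebra K κ]
  [Algebra K FL] [Algebra F FL] [Algebra L FL] [IsScalarTower K F FL] [IsScalarTower K L FL]
  [Algebra K Fk] [Algebra F Fk] [Algebra κ Fk] [IsScalarTower K F Fk] [IsScalarTower K κ Fk]
  (R : RedDatum K L κ) (hL : IsConstExt K F L FL) (hk : IsConstExt K F κ Fk)
  {E : Type u} [Field E] [Algebra K E] (U : Spot K FL E) {S : Subalgebra K F}

include hL hk

/-- An integral combination which is a unit at a spot over `V` is a unit of the Gauss ring. -/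
theorem inv_mem_gauss (hU : (comb K F L FL R.alg S : Set FL) ⊆ U.V)
    (hUV : ∀ l : L, algebraMap L FL l ∈ U.V → l ∈ R.V) {a : FL}
    (ha : a ∈ comb K F L FL R.alg S) (hai : a⁻¹ ∈ U.V) : a⁻¹ ∈ R.gauss hL hk := by
  rcases eq_or_ne a 0 with rfl | ha0
  · rw [inv_zero]; exact zero_mem _
  have haG : a ∈ R.gauss hL hk := R.comb_le_gauss hL hk (comb_mono le_rfl le_top ha)
  refine (R.gaussSpot hL hk).inv_mem_of_ρ_ne_zero haG fun h0 => ?_
  obtain ⟨n, l, f, hf, hl, hfS, hrep⟩ := exists_indep_rep ha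
  have hm : ∑ i, algebraMap L FL (l i) * algebraMap F FL (f i) ∈ comb K F L FL R.alg ⊤ :=
    sum_mem_comb _ (fun i _ => hl i) fun _ _ => trivial
  have h1 : R.red₀ Fk hL ⟨_, hm⟩ = 0 := by
    rw [← R.red_comb hL hk]
    refine Eq.trans (congrArg (R.red hL hk) (Subtype.ext ?_)) h0
    exact hrep.symm
  rw [R.red₀_sum hL hl] at h1
  have h2 := hk.disjoint f hf _ h1
  refine U.ρ_ne_zero_of_inv_mem (hU ha) ha0 hai ?_
  have hterm : ∀ i, algebraMap L FL (l i) * algebraMap F FL (f i) ∈ U.V := fun i =>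
    hU (Subalgebra.mul_mem _ (algebraMap_left_mem_comb (hl i)) (algebraMap_right_mem_comb (hfS i)))
  rw [show (⟨a, hU ha⟩ : U.V) = ∑ i, ⟨_, hterm i⟩ from
    Subtype.ext (by rw [AddSubmonoidClass.coe_finsetSum]; exact hrep), map_sum]
  refine Finset.sum_eq_zero fun i _ => ?_
  have hli : algebraMap L FL (l i) ∈ U.V := hU (algebraMap_left_mem_comb (hl i))
  have hfi : algebraMap F FL (f i) ∈ U.V := hU (algebraMap_right_mem_comb (hfS i))
  rw [show (⟨_, hterm i⟩ : U.V) = ⟨_, hli⟩ * ⟨_, hfi⟩ from rfl, map_mul]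
  by_contra hne
  have hi := U.inv_mem_of_ρ_ne_zero hli (left_ne_zero_of_mul hne)
  rw [← map_inv₀] at hi
  have hu : IsUnit (⟨l i, hl i⟩ : R.V) := by
    rcases eq_or_ne (l i) 0 with h0 | h0
    · refine absurd ?_ (left_ne_zero_of_mul hne)
      rw [show (⟨_, hli⟩ : U.V) = 0 from Subtype.ext
        ((congrArg (algebraMap L FL) h0).trans (map_zero _)), map_zero]
    · exact isUnit_iff_exists_inv.2 ⟨⟨_, hUV _ hi⟩, Subtype.ext (mul_inv_cancel₀ h0)⟩
  exact (R.ρ_eq_zero_iff _).1 (congrFun h2 i) hu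

variable {ι : Type*} {y : ι → F} [FiniteDimensional (IntermediateField.adjoin K (Set.range y)) F]

/-- An element which is a unit at the Gauss ring and at the generalisations is a unit. -/
theorem mem_unitGroup_of_generisations (hy : AlgebraicIndependent K y) {B : Subalgebra K F}
    (hyB : Algebra.adjoin K (Set.range y) ≤ B)
    (hB : ∀ f ∈ B, IntOver (Algebra.adjoin K (Set.range y) : Set F) f)
    {W : ValuationSubring FL} (hW : (comb K F L FL R.alg B : Set FL) ⊆ W) {ψ : FLˣ}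
    (hψ : ψ ∈ (R.gauss hL hk).unitGroup)
    (hgen : ∀ W' : ValuationSubring FL, (∀ a : L, algebraMap L FL a ∈ W') →
      (comb K F L FL R.alg B : Set FL) ⊆ W' →
      (∀ a ∈ comb K F L FL R.alg B, a⁻¹ ∈ W → a⁻¹ ∈ W') → ψ ∈ W'.unitGroup) :
    ψ ∈ W.unitGroup := by
  rw [mem_unitGroup_iff'] at hψ ⊢
  exact ⟨R.mem_of_generisations hL hk y hy hyB hB hW hψ.1
      fun W' h1 h2 h3 => ((mem_unitGroup_iff' _ _).1 (hgen W' h1 h2 h3)).1,
    R.mem_of_generisations hL hk y hy hyB hB hW hψ.2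
      fun W' h1 h2 h3 => ((mem_unitGroup_iff' _ _).1 (hgen W' h1 h2 h3)).2⟩

variable [IsAlgClosed E]

omit [Field Fk] [Algebra K Fk] [Algebra F Fk] [Algebra κ Fk] [IsScalarTower K F Fk]
    [IsScalarTower K κ Fk] hL hk in
/-- The spot at a generalisation of `U`, with the same values. -/
theorem exists_spot_generalisation (hU : (comb K F L FL R.alg S : Set FL) ⊆ U.V)
    (W : KVal K FL) (hW : (comb K F L FL R.alg S : Set FL) ⊆ W.1)
    (hgen : ∀ a ∈ comb K F L FL R.alg S, a⁻¹ ∈ U.V → a⁻¹ ∈ W.1) :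
    ∃ r : Spot K FL E, r.V ≤ W.1 ∧ ∀ a (ha : a ∈ comb K F L FL R.alg S),
      ∃ h : a ∈ r.V, r.ρ ⟨a, h⟩ = U.ρ ⟨a, hU ha⟩ := by
  let e : comb K F L FL R.alg S →ₐ[K] E :=
    { toRingHom := U.ρ.comp
        ((comb K F L FL R.alg S).val.toRingHom.codRestrict U.V.toSubring fun a => hU a.2)
      commutes' := U.ρ_algebraMap }
  obtain ⟨r, hr, hρ⟩ := exists_spot_le W (fun a ha => hW ha) e fun a ha =>
    hgen a a.2 (U.inv_mem_of_ρ_ne_zero (hU a.2) ha)
  exact ⟨r, hr, fun a ha => hρ ⟨a, ha⟩⟩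

/-- **Seesaw.** A divisor which is local at the point of `U`, and principal on the valuations
containing `L`, is at `U` what it is on the Gauss ring. -/
theorem div_mem_unitGroup_of_local (hy : AlgebraicIndependent K y)
    (hyS : Algebra.adjoin K (Set.range y) ≤ S)
    (hS : ∀ f ∈ S, IntOver (Algebra.adjoin K (Set.range y) : Set F) f)
    (d : vDiv K FL) (h₀ : FLˣ) (l : Lˣ)
    (hU : (comb K F L FL R.alg S : Set FL) ⊆ U.V)
    (hUV : ∀ l : L, algebraMap L FL l ∈ U.V → l ∈ R.V)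
    (hloc : ∃ b : FLˣ, ∀ r : Spot K FL E, (∀ a (ha : a ∈ comb K F L FL R.alg S),
        ∃ h : a ∈ r.V, r.ρ ⟨a, h⟩ = U.ρ ⟨a, hU ha⟩) → b / d.1 r.kVal ∈ r.V.unitGroup)
    (hh₀ : IsEquationOver L d h₀)
    (hl : d.1 (R.gaussSpot hL hk).kVal /
      (h₀ * Units.map (algebraMap L FL : L →* FL) l) ∈ (R.gauss hL hk).unitGroup) :
    d.1 U.kVal / (h₀ * Units.map (algebraMap L FL : L →* FL) l) ∈ U.V.unitGroup := by
  obtain ⟨b, hb⟩ := hloc
  set lF : FLˣ := Units.map (algebraMap L FL : L →* FL) l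
  have key : b / (h₀ * lF) ∈ U.V.unitGroup := by
    refine R.mem_unitGroup_of_generisations hL hk hy hyS hS (W := U.V) hU ?_ fun W' h1 h2 h3 => ?_
    · obtain ⟨r, hr, hρ⟩ := R.exists_spot_generalisation U hU (R.gaussSpot hL hk).kVal
        (fun a ha => R.comb_le_gauss hL hk (comb_mono le_rfl le_top ha))
        fun a ha hai => R.inv_mem_gauss hL hk U hU hUV ha hai
      have := div_mem_unitGroup_of_le d (V := r.kVal) hr (hb r hρ)
      rw [← div_mul_div_cancel b (d.1 (R.gaussSpot hL hk).kVal) (h₀ * lF)]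
      exact mul_mem this hl
    · set W : KVal K FL := ⟨W', fun a => by
        rw [IsScalarTower.algebraMap_apply K L FL]; exact h1 _⟩
      obtain ⟨r, hr, hρ⟩ := R.exists_spot_generalisation U hU W h2 h3
      have hlW : lF ∈ W'.unitGroup := by
        rw [mem_unitGroup_iff']
        exact ⟨h1 _, by
          show (algebraMap L FL (l : L))⁻¹ ∈ W'
          rw [← map_inv₀]; exact h1 _⟩
      have h4 := div_mem_unitGroup_of_le d (V := r.kVal) (V' := W) hr (hb r hρ)
      rw [← div_div, ← div_mul_div_cancel b (d.1 W) h₀]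
      exact div_mem (mul_mem h4 (hh₀ W h1)) hlW
  have h5 := hb U fun a ha => ⟨hU ha, rfl⟩
  rw [show d.1 U.kVal / (h₀ * lF) = b / (h₀ * lF) / (b / d.1 U.kVal) by
    rw [div_div_div_cancel_left]]
  exact div_mem key h5

/-- The scalar at the Gauss ring. -/
theorem exists_gauss_scalar (x : FLˣ) : ∃ l : Lˣ,
    x / Units.map (algebraMap L FL : L →* FL) l ∈ (R.gauss hL hk).unitGroup := by
  obtain ⟨l, g, hl, hg, he⟩ := R.exists_scalar_mul hL hk x.ne_zero
  refine ⟨Units.mk0 l hl, ?_⟩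
  have hgx : (↑(x / Units.map (algebraMap L FL : L →* FL) (Units.mk0 l hl)) : FL) = g := by
    rw [Units.val_div_eq_div_val]
    show (x : FL) / algebraMap L FL l = g
    rw [he, mul_div_assoc, mul_comm, div_mul_cancel₀]
    exact (_root_.map_ne_zero _).2 hl
  rw [mem_unitGroup_iff', hgx]
  exact ⟨g.2, (R.gaussSpot hL hk).inv_mem_of_ρ_ne_zero g.2 hg⟩

end RedDatum

end FermatAgent.AV
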