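import Fermat.Agent.AV.Curve.ConstExt

/-!
# Series embeddings and constant places of a constant extension

Expansion at a place of `F` embeds `FL` in Laurent series over `L`; this gives the constant place
over it, and the constant extension of divisors preserves degrees.
-/

set_option autoImplicit false

noncomputable section

open AlgebraicCurve Module
open FermatAgent.Curve
open FermatAgent.Curve.Jac.Descent (mapSeries order_mapSeries mapSeries_algebraMap coeff_mapSeries)
open scoped TensorProduct

namespace FermatAgent.AV

variable {K F L FL : Type*} [Field K] [Field F] [Field L] [Field FL] [Algebra K F] [Algebra K L]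
  [Algebra K FL] [Algebra F FL] [Algebra L FL] [IsScalarTower K F FL] [IsScalarTower K L FL]

variable (K L) in
/-- Constants as series. -/
def constSeries : L →ₐ[K] LaurentSeries L :=
  { toRingHom := algebraMap L (LaurentSeries L)
    commutes' := fun a => by
      show algebraMap L (LaurentSeries L) (algebraMap K L a) = _
      rw [algebraMap_laurent (K := K) (L := L) a,
        algebraMap_laurent (K := L) (L := L) (algebraMap K L a)]
      rfl }

/-- Independent series stay independent after extension of constants. -/
theorem series_disjoint {n : ℕ} {f : Fin n → LaurentSeries K}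
    (hf : ∀ c : Fin n → K, ∑ i, algebraMap K (LaurentSeries K) (c i) * f i = 0 → c = 0)
    {a : Fin n → L}
    (ha : ∑ i, algebraMap L (LaurentSeries L) (a i) * mapSeries L (f i) = 0) : a = 0 := by
  funext i
  by_contra hai
  obtain ⟨φ, hφ⟩ := Module.Projective.exists_dual_ne_zero K hai
  refine hφ (congrFun (hf (fun j => φ (a j)) ?_) i)
  ext m
  have h := congrArg (fun s : LaurentSeries L => φ (s.coeff m)) ha
  simp only [algebraMap_laurent, Algebra.algebraMap_self, RingHom.id_apply, HahnSeries.coeff_sum,
    HahnSeries.coeff_single_zero_mul, coeff_mapSeries, HahnSeries.coeff_zero, map_zero,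
    map_sum] at h
  rw [HahnSeries.coeff_sum, HahnSeries.coeff_zero, ← h]
  refine Finset.sum_congr rfl fun j _ => ?_
  rw [algebraMap_laurent, Algebra.algebraMap_self, RingHom.id_apply,
    HahnSeries.coeff_single_zero_mul, mul_comm (a j), ← Algebra.smul_def, φ.map_smul, smul_eq_mul,
    mul_comm]

variable [IsAlgClosed K] [IsFF K F]

section Series

variable (L) in
/-- The expansion at a place, with constants extended. -/
def seriesF {c : Place K F} {t : F} (ht : c.ord t = 1) : F →ₐ[K] LaurentSeries L :=
  { toRingHom := (mapSeries L).comp (expand ht).toRingHom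
    commutes' := fun a => by
      show mapSeries L (expand ht (algebraMap K F a)) = _
      rw [AlgHom.commutes, mapSeries_algebraMap] }

variable (L) in
/-- The expansion on `L ⊗ F`. -/
def seriesT {c : Place K F} {t : F} (ht : c.ord t = 1) : L ⊗[K] F →ₐ[K] LaurentSeries L :=
  Algebra.TensorProduct.productMap (constSeries K L) (seriesF L ht)

theorem seriesT_tmul {c : Place K F} {t : F} (ht : c.ord t = 1) (a : L) (f : F) :
    seriesT L ht (a ⊗ₜ f) = algebraMap L (LaurentSeries L) a * mapSeries L (expand ht f) := by
  simp [seriesT, seriesF, constSeries]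

theorem seriesT_injective {c : Place K F} {t : F} (ht : c.ord t = 1) :
    Function.Injective (seriesT L ht) := by
  rw [injective_iff_map_eq_zero]
  intro z hz
  obtain ⟨n, a, f, hf, rfl⟩ := IsConstExt.exists_tensor_rep z
  simp only [map_sum, seriesT_tmul] at hz
  have hli : ∀ c : Fin n → K,
      ∑ i, algebraMap K (LaurentSeries K) (c i) * expand ht (f i) = 0 → c = 0 := by
    intro c hc
    refine funext (Fintype.linearIndependent_iff.1 hf c (expand_injective ht ?_))
    simp only [Algebra.smul_def, map_sum, map_mul, AlgHom.commutes, map_zero]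
    exact hc
  simp [series_disjoint hli hz]

end Series

namespace IsConstExt

variable (h : IsConstExt K F L FL)
include h

/-- The embedding of `FL` in series at a place of `F`. -/
theorem exists_series {c : Place K F} {t : F} (ht : c.ord t = 1) :
    ∃ σ : FL →ₐ[L] LaurentSeries L, ∀ f : F, σ (algebraMap F FL f) = mapSeries L (expand ht f) := by
  have := h.isFractionRing
  let g : comb K F L FL ⊤ ⊤ →+* LaurentSeries L :=
    (seriesT L ht).toRingHom.comp h.combEquiv.symm.toRingEquiv.toRingHom
  have hg : Function.Injective g := (seriesT_injective ht).comp h.combEquiv.symm.injective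
  have key : ∀ (a : L) (f : F), IsFractionRing.lift (K := FL) hg
      (algebraMap L FL a * algebraMap F FL f) =
        algebraMap L (LaurentSeries L) a * mapSeries L (expand ht f) := by
    intro a f
    have hm : algebraMap L FL a * algebraMap F FL f ∈ comb K F L FL ⊤ ⊤ :=
      Subalgebra.mul_mem _ (algebraMap_left_mem_comb trivial) (algebraMap_right_mem_comb trivial)
    have h1 := IsFractionRing.lift_algebraMap (K := FL) hg ⟨_, hm⟩
    refine h1.trans ?_
    show seriesT L ht (h.combEquiv.symm ⟨_, hm⟩) = _
    rw [combEquiv_symm_algebraMap, seriesT_tmul]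
  refine ⟨{ toRingHom := IsFractionRing.lift (K := FL) hg, commutes' := fun a => ?_ }, fun f => ?_⟩
  · have := key a 1
    simpa using this
  · have := key 1 f
    simpa using this

/-- The series embedding. -/
def series {c : Place K F} {t : F} (ht : c.ord t = 1) : FL →ₐ[L] LaurentSeries L :=
  (h.exists_series ht).choose

theorem series_algebraMap {c : Place K F} {t : F} (ht : c.ord t = 1) (f : F) :
    h.series ht (algebraMap F FL f) = mapSeries L (expand ht f) :=
  (h.exists_series ht).choose_spec f

theorem order_series_algebraMap {c : Place K F} {t : F} (ht : c.ord t = 1) (f : F) :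
    (h.series ht (algebraMap F FL f)).order = c.ord f := by
  rw [series_algebraMap, order_mapSeries, order_expand]

omit h [IsAlgClosed K] [IsFF K F] in
theorem exists_uniformizer (c : Place K F) : ∃ t : F, c.ord t = 1 :=
  (exists_ord_eq_one c).imp fun _ ht => ht.2

variable [IsFF L FL]

omit [IsFF L FL] in
theorem series_pos {c : Place K F} {t : F} (ht : c.ord t = 1) :
    0 < (h.series ht (algebraMap F FL t)).order := by
  rw [order_series_algebraMap, ht]; exact one_pos

/-- The constant place over a place of `F`. -/
def ext (c : Place K F) : Place L FL :=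
  centre (h.series (exists_uniformizer c).choose_spec) (h.series_pos _)

theorem ord_ext (c : Place K F) (z : FL) :
    (h.ext c).ord z = (h.series (exists_uniformizer c).choose_spec z).order := by
  obtain ⟨u, -, hu⟩ := exists_ord_eq_one (h.ext c)
  have h1 := order_apply _ (h.series_pos (exists_uniformizer c).choose_spec) hu
  have h2 := h1 (algebraMap F FL (exists_uniformizer c).choose)
  rw [order_series_algebraMap, (exists_uniformizer c).choose_spec] at h2
  have h3 : (h.series (exists_uniformizer c).choose_spec u).order = 1 := by
    rcases Int.eq_one_or_neg_one_of_mul_eq_one h2.symm with h3 | h3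
    · exact h3
    · have := order_uniformizer_pos _ (h.series_pos (exists_uniformizer c).choose_spec) hu
      omega
  rw [h1 z, h3, one_mul]
  rfl

@[simp] theorem ord_ext_algebraMap (c : Place K F) (f : F) :
    (h.ext c).ord (algebraMap F FL f) = c.ord f := by
  rw [ord_ext, order_series_algebraMap]

theorem mem_ext_iff (c : Place K F) {z : FL} :
    z ∈ (h.ext c).toValuationSubring ↔ SGE 0 (h.series (exists_uniformizer c).choose_spec z) :=
  Iff.rfl

theorem ext_injective : Function.Injective h.ext := fun c c' e =>
  eq_of_forall_ord_nonneg fun f _ hf => by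
    rwa [← h.ord_ext_algebraMap c, e, h.ord_ext_algebraMap] at hf

theorem deg_ext (c : Place K F) : (h.ext c).deg = 1 := by
  have hsurj : Function.Surjective (algebraMap L (h.ext c).ResidueField) := by
    intro y
    obtain ⟨a, rfl⟩ := IsLocalRing.residue_surjective y
    set σ := h.series (exists_uniformizer c).choose_spec
    refine ⟨(σ (a : FL)).coeff 0, ?_⟩
    symm
    rw [← sub_eq_zero, IsScalarTower.algebraMap_apply L (h.ext c).toValuationSubring
      (h.ext c).ResidueField, IsLocalRing.ResidueField.algebraMap_eq, ← map_sub,
      residue_eq_zero_iff]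
    rcases eq_or_ne ((a : FL) - algebraMap L FL ((σ (a : FL)).coeff 0)) 0 with h0 | h0
    · exact Or.inl h0
    refine Or.inr ?_
    have ha : SGE 0 (σ (a : FL)) := (h.mem_ext_iff c).1 a.2
    show (1 : ℤ) ≤ (h.ext c).ord ((a : FL) - algebraMap L FL ((σ (a : FL)).coeff 0))
    rw [ord_ext]
    refine SGE.le_order (fun j hj => ?_) ((_root_.map_ne_zero σ).2 h0)
    rw [map_sub, AlgHom.commutes, HahnSeries.coeff_sub, algebraMap_laurent]
    rcases eq_or_ne j 0 with rfl | hj0
    · rw [HahnSeries.coeff_single_same, Algebra.algebraMap_self, RingHom.id_apply]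
      exact sub_self _
    · rw [HahnSeries.coeff_single_of_ne hj0, ha j (by omega), sub_zero]
  have := Module.Finite.of_surjective (Algebra.linearMap L (h.ext c).ResidueField) hsurj
  have h1 := LinearMap.finrank_le_finrank_of_surjective
    (f := Algebra.linearMap L (h.ext c).ResidueField) hsurj
  rw [Module.finrank_self] at h1
  have h2 := deg_pos (h.ext c)
  simp only [Place.deg] at h2 ⊢
  omega

/-- Constant extension of divisors. -/
def extDiv : Divisor K F →+ Divisor L FL := Finsupp.mapDomain.addMonoidHom h.ext

theorem extDiv_apply_ext (D : Divisor K F) (c : Place K F) : h.extDiv D (h.ext c) = D c :=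
  Finsupp.mapDomain_apply h.ext_injective D c

theorem extDiv_apply_notMem (D : Divisor K F) {v : Place L FL} (hv : v ∉ Set.range h.ext) :
    h.extDiv D v = 0 :=
  Finsupp.mapDomain_of_notMem_range D v hv

/-- Extension of the constants preserves the degrees of divisors. -/
theorem degree_extDiv (D : Divisor K F) :
    Divisor.degree (h.extDiv D) = Divisor.degree D := by
  induction D using Finsupp.induction with
  | zero => simp
  | single_add c n D _ _ ih =>
    rw [map_add, map_add, map_add, ih]
    congr 1
    show Divisor.degree (Finsupp.mapDomain h.ext (Finsupp.single c n)) = _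
    rw [Finsupp.mapDomain_single, Divisor.degree_single, Divisor.degree_single, h.deg_ext,
      Curve.deg_eq_one]

/-- Functions of `F` have constant divisors. -/
theorem ord_algebraMap_eq_zero {v : Place L FL} {f : F} (hf : f ≠ 0)
    (hv : v ∉ Set.range h.ext) : v.ord (algebraMap F FL f) = 0 := by
  by_cases hc : IsAlgebraic K f
  · have := IntermediateField.isAlgebraic_adjoin_simple hc.isIntegral
    obtain ⟨a, ha⟩ := IntermediateField.mem_bot.1
      ((IntermediateField.eq_bot_of_isAlgClosed_of_isAlgebraic
        (IntermediateField.adjoin K ({f} : Set F))) ▸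
        IntermediateField.mem_adjoin_simple_self K f)
    have ha0 : a ≠ 0 := fun h0 => hf (by rw [← ha, h0, map_zero])
    rw [← ha, ← IsScalarTower.algebraMap_apply, IsScalarTower.algebraMap_apply K L FL]
    exact Curve.ord_algebraMap ((_root_.map_ne_zero _).2 ha0)
  -- compare the degrees of the divisor of zeros
  classical
  have hdiv : ∀ g : F, g ≠ 0 → ∀ c : Place K F,
      (divisorOf (algebraMap F FL g) : Divisor L FL) (h.ext c) =
        h.extDiv (divisorOf g) (h.ext c) := by
    intro g hg c
    rw [extDiv_apply_ext, divisorOf_apply, divisorOf_apply, ord_ext_algebraMap]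
  have hfin : ∀ g : F, Transcendental K g → ∀ w : Place L FL, 0 < w.ord (algebraMap F FL g) →
      w ∈ Set.range h.ext := by
    intro g hg w hw
    by_contra hnot
    have htr := h.transcendental hg
    set s := (finite_ord_pos (K := K) g).toFinset
    have hs : ∀ c, c ∈ s ↔ 0 < c.ord g := fun c => by simp [s]
    have h1 := sum_zeros_eq_finrank (K := K) hg
    have h2 := sum_ord_mul_deg_le htr (insert w (s.image h.ext)) (fun v hv => by
      rcases Finset.mem_insert.1 hv with rfl | hv
      · exact hw
      · obtain ⟨c, hc, rfl⟩ := Finset.mem_image.1 hv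
        rw [ord_ext_algebraMap]; exact (hs c).1 hc)
    rw [Finset.sum_insert (fun hmem => hnot (by
      obtain ⟨c, -, hc⟩ := Finset.mem_image.1 hmem; exact ⟨c, hc⟩)),
      Finset.sum_image (fun _ _ _ _ e => h.ext_injective e)] at h2
    have h3 : finrank (IntermediateField.adjoin L ({algebraMap F FL g} : Set FL)) FL ≤
        finrank (IntermediateField.adjoin K ({g} : Set F)) F := h.finrank_adjoin_le hg
    have h4 : ∀ c ∈ s, (((h.ext c).ord (algebraMap F FL g)).toNat * (h.ext c).deg : ℤ) =
        c.ord g * (c.deg : ℤ) := fun c hc => by
      rw [ord_ext_algebraMap, h.deg_ext, Curve.deg_eq_one, Int.toNat_of_nonneg ((hs c).1 hc).le]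
    have h5 := deg_pos w
    have h6 : 0 < (w.ord (algebraMap F FL g)).toNat * w.deg := Nat.mul_pos (by omega) h5
    have h7 := Int.ofNat_le.2 h2
    push_cast at h7
    rw [Finset.sum_congr rfl h4, h1] at h7
    have h8 := Int.ofNat_le.2 h3
    have h9 : (0 : ℤ) < ((w.ord (algebraMap F FL g)).toNat : ℤ) * (w.deg : ℤ) := by
      exact_mod_cast h6
    omega
  rcases lt_trichotomy (v.ord (algebraMap F FL f)) 0 with h1 | h1 | h1
  · refine absurd (hfin f⁻¹ (fun halg => hc (by simpa using halg.inv)) v ?_) hv
    rw [map_inv₀, Place.ord_inv]
    omega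
  · exact h1
  · exact absurd (hfin f hc v h1) hv

/-- A function in `L(D)` stays in the space of the extended divisor. -/
theorem mem_riemannRochSpace_extDiv {D : Divisor K F} {f : F} (hf : f ∈ riemannRochSpace D) :
    algebraMap F FL f ∈ riemannRochSpace (h.extDiv D) := by
  rcases eq_or_ne f 0 with rfl | hf0
  · rw [map_zero]; exact Submodule.zero_mem _
  rw [mem_riemannRochSpace_iff_ne_zero ((_root_.map_ne_zero _).2 hf0)]
  intro v
  by_cases hv : v ∈ Set.range h.ext
  · obtain ⟨c, rfl⟩ := hv
    rw [ord_ext_algebraMap, extDiv_apply_ext]
    exact (mem_riemannRochSpace_iff_ne_zero hf0).1 hf c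
  · rw [h.ord_algebraMap_eq_zero hf0 hv, h.extDiv_apply_notMem D hv]
    rfl

end IsConstExt

end FermatAgent.AV
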