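import Fermat.Agent.AV.Curve.Glue
import Fermat.Agent.AV.Calc
import Fermat.Agent.AV.Cube

/-!
# Local representatives of classes of points

A class is good for a family of points if a divisor representing it has one equation for each tuple
of values of the points; the cube classes of points following the family are good.
-/

set_option autoImplicit false

noncomputable section

universe u

namespace FermatAgent.AV

variable {K : Type u} [Field K]

namespace Spot

variable {F E G : Type u} [Field F] [Algebra K F] [Field E] [Algebra K E] [Field G] [Algebra K G]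

/-- Equal spots, from one inclusion. -/
theorem comp_ofHom_eq (r : Spot K E G) (φ : F →ₐ[K] E) (r' : Spot K F G)
    (h : ∀ (x : F) (hx : x ∈ r'.V), ∃ hx' : φ x ∈ r.V, r.ρ ⟨φ x, hx'⟩ = r'.ρ ⟨x, hx⟩) :
    r.comp (ofHom φ) = r' := by
  refine eq_of_le fun x hx => ?_
  obtain ⟨hx', he⟩ := h x hx
  exact ⟨(mem_comp r (ofHom φ)).2 ⟨mem_ofHom φ x, hx'⟩, he⟩

end Spot

namespace Model

variable {g : ℕ} (M : Model K g)
variable {F : Type u} [Field F] [Algebra K F] {ι : Type*}

/-- The divisor has one equation for each tuple of values of the points `p`. -/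
def IsLocalAt (d : vDiv K F) (p : ι → M.Pts F) : Prop :=
  ∀ (E : Type u) [Field E] [Algebra K E] (x : ι → M.Pts E), ∃ b : Fˣ, ∀ r : Spot K F E,
    (∀ i, M.map r (p i) = x i) → b / d.1 r.kVal ∈ r.V.unitGroup

/-- A class with a representative local at `p`. -/
def IsGood (p : ι → M.Pts F) (c : VPic K F) : Prop :=
  ∃ d : vDiv K F, cls d = c ∧ (Set.range d.1).Finite ∧ M.IsLocalAt d p

/-- The values of the point are determined by those of `p`. -/
def Follows (p : ι → M.Pts F) (P : M.Pts F) : Prop :=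
  ∀ (E : Type u) [Field E] [Algebra K E] (x : ι → M.Pts E), ∃ z : M.Pts E, ∀ r : Spot K F E,
    (∀ i, M.map r (p i) = x i) → M.map r P = z

variable {M} {p : ι → M.Pts F}

theorem follows_apply (i : ι) : M.Follows p (p i) := fun _ _ _ x => ⟨x i, fun _ hr => hr i⟩

theorem follows_zero : M.Follows p 0 := fun _ _ _ _ => ⟨0, fun _ _ => map_zero _⟩

theorem Follows.add {P Q : M.Pts F} (hP : M.Follows p P) (hQ : M.Follows p Q) :
    M.Follows p (P + Q) := fun E _ _ x => by
  obtain ⟨z, hz⟩ := hP E x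
  obtain ⟨w, hw⟩ := hQ E x
  exact ⟨z + w, fun r hr => by rw [map_add, hz r hr, hw r hr]⟩

theorem IsGood.mul {a b : VPic K F} (ha : M.IsGood p a) (hb : M.IsGood p b) :
    M.IsGood p (a * b) := by
  obtain ⟨d, rfl, hd, hdl⟩ := ha
  obtain ⟨d', rfl, hd', hdl'⟩ := hb
  refine ⟨d * d', rfl, (Set.Finite.image2 (· * ·) hd hd').subset ?_, fun E _ _ x => ?_⟩
  · rintro _ ⟨V, rfl⟩
    exact ⟨_, ⟨V, rfl⟩, _, ⟨V, rfl⟩, rfl⟩
  · obtain ⟨b, hb⟩ := hdl E x
    obtain ⟨b', hb'⟩ := hdl' E x
    refine ⟨b * b', fun r hr => ?_⟩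
    rw [show b * b' / (d * d').1 r.kVal = b / d.1 r.kVal * (b' / d'.1 r.kVal) from
      (mul_div_mul_comm _ _ _ _)]
    exact mul_mem (hb r hr) (hb' r hr)

theorem IsGood.inv {a : VPic K F} (ha : M.IsGood p a) : M.IsGood p a⁻¹ := by
  obtain ⟨d, rfl, hd, hdl⟩ := ha
  refine ⟨d⁻¹, rfl, (hd.image (·⁻¹)).subset ?_, fun E _ _ x => ?_⟩
  · rintro _ ⟨V, rfl⟩
    exact ⟨_, ⟨V, rfl⟩, rfl⟩
  · obtain ⟨b, hb⟩ := hdl E x
    refine ⟨b⁻¹, fun r hr => ?_⟩
    rw [Subgroup.coe_inv, Pi.inv_apply, inv_div_inv, ← inv_div]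
    exact inv_mem (hb r hr)

theorem IsGood.div {a b : VPic K F} (ha : M.IsGood p a) (hb : M.IsGood p b) :
    M.IsGood p (a / b) := by
  rw [div_eq_mul_inv]; exact ha.mul hb.inv

/-- The class `δ` of a point following the family is good for it. -/
theorem isGood_δ {P : M.Pts F} (hP : M.Follows p P) : M.IsGood p (M.δ P) := by
  obtain ⟨d, hd, hfin, hloc⟩ := M.δ_local P
  refine ⟨d, hd, hfin, fun E _ _ x => ?_⟩
  obtain ⟨z, hz⟩ := hP E x
  obtain ⟨b, hb⟩ := hloc E z
  exact ⟨b, fun r hr => hb r (hz r hr)⟩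

/-- The cube class of three points following the family is good for it. -/
theorem isGood_cube {P Q R : M.Pts F} (hP : M.Follows p P) (hQ : M.Follows p Q)
    (hR : M.Follows p R) : M.IsGood p (M.cube P Q R) :=
  ((((isGood_δ ((hP.add hQ).add hR)).mul (isGood_δ hP)).mul (isGood_δ hQ)).mul (isGood_δ hR)).div
    ((((isGood_δ (hP.add hQ)).mul (isGood_δ (hP.add hR))).mul (isGood_δ (hQ.add hR))).mul
      (isGood_δ follows_zero))

end Model

end FermatAgent.AV
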