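import Fermat.Agent.AV.Curve.Core
import Fermat.Agent.AV.Curve.Points

/-!
# Divisors on a constant extension of a curve, read at its places

Places of the curve are rational spots.  A divisor of `FL` with one equation for the specialisations
of given restrictions reduces, at a rational spot of `L`, to its restriction to the curve.
-/

set_option autoImplicit false

noncomputable section

universe u

open AlgebraicCurve
open FermatAgent.Curve

namespace FermatAgent.AV

variable {Ω : Type u} [Field Ω] [IsAlgClosed Ω] {C : Type u} [Field C] [Algebra Ω C] [IsFF Ω C]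

/-- A place as a rational spot. -/
def placeSpot (c : Place Ω C) : Spot Ω C Ω :=
  haveI := Curve.finite_residueField c
  haveI : Algebra.IsIntegral Ω c.ResidueField := Algebra.IsIntegral.of_finite Ω c.ResidueField
  let e : Ω ≃ₐ[Ω] c.ResidueField := AlgEquiv.ofBijective (Algebra.ofId Ω c.ResidueField)
    IsAlgClosed.algebraMap_bijective_of_isIntegral
  { V := c.toValuationSubring
    isOver := c.algebraMap_mem'
    ρ := e.symm.toAlgHom.toRingHom.comp (IsLocalRing.residue c.toValuationSubring)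
    ρ_algebraMap := fun a => by
      show e.symm (IsLocalRing.residue _ _) = algebraMap Ω Ω a
      rw [AlgEquiv.symm_apply_eq, Algebra.algebraMap_self, RingHom.id_apply]
      rfl
    ker_iff := fun x => by
      show e.symm (IsLocalRing.residue _ x) = 0 ↔ _
      rw [EmbeddingLike.map_eq_zero_iff, IsLocalRing.residue_eq_zero_iff,
        IsLocalRing.mem_maximalIdeal, mem_nonunits_iff] }

@[simp] theorem placeSpot_V (c : Place Ω C) : (placeSpot c).V = c.toValuationSubring := rfl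

omit [IsAlgClosed Ω] [IsFF Ω C] in
theorem mem_unitGroup_place_iff (v : Place Ω C) (x : Cˣ) :
    x ∈ v.toValuationSubring.unitGroup ↔ v.ord (x : C) = 0 := by
  rw [mem_unitGroup_iff', Curve.mem_iff_ord_nonneg x.ne_zero,
    Curve.mem_iff_ord_nonneg (inv_ne_zero x.ne_zero), Place.ord_inv]
  omega

theorem placeSpot_ρ_eq_zero {c : Place Ω C} {f : C} (hf : f ∈ c.toValuationSubring)
    (h : f = 0 ∨ 0 < c.ord f) : (placeSpot c).ρ ⟨f, hf⟩ = 0 := by
  rcases h with rfl | h
  · exact (congrArg (placeSpot c).ρ (Subtype.ext rfl)).trans (map_zero _)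
  refine ((placeSpot c).ker_iff _).2 fun hu => ?_
  have h0 : f ≠ 0 := fun e => by rw [e, Place.ord_zero] at h; omega
  obtain ⟨y, hy⟩ := isUnit_iff_exists_inv.1 hu
  have hinv : f⁻¹ ∈ c.toValuationSubring :=
    (eq_inv_of_mul_eq_one_right (congrArg Subtype.val hy)) ▸ y.2
  rw [Curve.mem_iff_ord_nonneg (inv_ne_zero h0), Place.ord_inv] at hinv
  omega

variable {E : Type u} [Field E] [Algebra Ω E]

/-- A spot vanishing at coordinates of a place is at that place. -/
theorem eq_placeSpot {c : Place Ω C} {x u : C}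
    (hx : 0 < c.ord x) (hu : 0 < c.ord u)
    (hxu : ∀ v : Place Ω C, 0 < v.ord x → 0 < v.ord u → v = c) (r : Spot Ω C E)
    (hrx : ∃ h : x ∈ r.V, r.ρ ⟨x, h⟩ = 0) (hru : ∃ h : u ∈ r.V, r.ρ ⟨u, h⟩ = 0) :
    r = (Spot.ofHom (Algebra.ofId Ω E)).comp (placeSpot c) := by
  have hx0 : x ≠ 0 := fun e => by rw [e, Place.ord_zero] at hx; omega
  have hu0 : u ≠ 0 := fun e => by rw [e, Place.ord_zero] at hu; omega
  have hninv : ∀ f : C, f ≠ 0 →
      (∃ h : f ∈ r.V, r.ρ ⟨f, h⟩ = 0) → f⁻¹ ∉ r.V := fun f hf ⟨h, h0⟩ hi =>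
    r.ρ_ne_zero_of_inv_mem h hf hi h0
  have htop : r.V ≠ ⊤ := fun e => hninv x hx0 hrx (e ▸ ValuationSubring.mem_top _)
  set v := placeOfValuationSubring r.V r.isOver htop
  have hpos : ∀ f : C, f ≠ 0 → (∃ h : f ∈ r.V, r.ρ ⟨f, h⟩ = 0) → 0 < v.ord f := fun f hf hr => by
    obtain ⟨h, -⟩ := id hr
    have h1 := (Curve.mem_iff_ord_nonneg (v := v) hf).1 h
    by_contra hle
    exact hninv f hf hr ((Curve.mem_iff_ord_nonneg (v := v) (inv_ne_zero hf)).2
      (by rw [Place.ord_inv]; omega))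
  have hvc : v = c := hxu v (hpos x hx0 hrx) (hpos u hu0 hru)
  have hV : r.V = c.toValuationSubring := congrArg Place.toValuationSubring hvc
  refine Spot.eq_of_le fun f hf => ?_
  obtain ⟨hfc, -⟩ := (Spot.mem_comp (Spot.ofHom (Algebra.ofId Ω E)) (placeSpot c)).1 hf
  have hfr : f ∈ r.V := hV.symm ▸ hfc
  refine ⟨hfr, ?_⟩
  show r.ρ ⟨f, hfr⟩ = algebraMap Ω E ((placeSpot c).ρ ⟨f, hfc⟩)
  set a := (placeSpot c).ρ ⟨f, hfc⟩
  have hsub : f - algebraMap Ω C a ∈ r.V := sub_mem hfr (r.isOver a)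
  have h0 : r.ρ ⟨_, hsub⟩ = 0 := by
    refine (r.ker_iff _).2 fun hu' => ?_
    obtain ⟨y, hy⟩ := isUnit_iff_exists_inv.1 hu'
    have hVc : ∀ z ∈ r.V, z ∈ (placeSpot c).V := fun z hz => by rw [placeSpot_V, ← hV]; exact hz
    have hne : (placeSpot c).ρ ⟨_, hVc _ hsub⟩ * (placeSpot c).ρ ⟨(y : C), hVc _ y.2⟩ = 1 := by
      rw [← map_mul, ← map_one (placeSpot c).ρ]
      exact congrArg _ (Subtype.ext (congrArg (fun z : r.V => (z : C)) hy :))
    refine left_ne_zero_of_mul_eq_one hne ?_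
    rw [show (⟨f - algebraMap Ω C a, hVc _ hsub⟩ : (placeSpot c).V) =
      ⟨f, hfc⟩ - ⟨_, (placeSpot c).isOver a⟩ from rfl, map_sub, Spot.ρ_algebraMap]
    exact sub_self _
  rw [show (⟨_, hsub⟩ : r.V) = ⟨f, hfr⟩ - ⟨_, r.isOver a⟩ from rfl, map_sub, Spot.ρ_algebraMap,
    sub_eq_zero] at h0
  exact h0

/-- Coordinates of a place, with the ring they generate. -/
theorem exists_coordRing (c : Place Ω C) : ∃ (y : Unit → C) (B : Subalgebra Ω C),
    AlgebraicIndependent Ω y ∧
    FiniteDimensional (IntermediateField.adjoin Ω (Set.range y)) C ∧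
    Algebra.adjoin Ω (Set.range y) ≤ B ∧
    (∀ f ∈ B, IntOver (Algebra.adjoin Ω (Set.range y) : Set C) f) ∧
    (∀ f ∈ B, f ∈ c.toValuationSubring) ∧
    ∀ (E : Type u) [Field E] [Algebra Ω E] (r : Spot Ω C E),
      (∀ f ∈ B, ∀ hfc : f ∈ c.toValuationSubring, ∃ h : f ∈ r.V,
        r.ρ ⟨f, h⟩ = algebraMap Ω E ((placeSpot c).ρ ⟨f, hfc⟩)) →
      r = (Spot.ofHom (Algebra.ofId Ω E)).comp (placeSpot c) := by
  obtain ⟨x, u, hxtr, hu, hxc, huc, hxu⟩ := exists_coords_at c
  have hr : Set.range (fun _ : Unit => x) = {x} := Set.range_const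
  have hmem : ∀ f : C, 0 < c.ord f → f ∈ c.toValuationSubring := fun f hf =>
    (Curve.mem_iff_ord_nonneg (fun e => by rw [e, Place.ord_zero] at hf; omega)).2 hf.le
  refine ⟨fun _ => x, Algebra.adjoin Ω {x, u}, ?_, ?_, ?_, ?_, ?_, ?_⟩
  · exact algebraicIndependent_unique_type_iff.2 hxtr
  · rw [hr]; exact IsFF.finite_adjoin hxtr
  · rw [hr]; exact Algebra.adjoin_mono (by simp)
  · intro f hf
    rw [hr]
    refine intOver_of_forall_mem (Algebra.adjoin Ω ({x} : Set C)).toSubring fun W hW => ?_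
    refine Algebra.adjoin_induction (p := fun z _ => z ∈ W) ?_
      (fun a => hW (Subalgebra.algebraMap_mem _ a)) (fun _ _ _ _ => add_mem)
      (fun _ _ _ _ => mul_mem) hf
    rintro z (rfl | rfl)
    · exact hW (Algebra.subset_adjoin (Set.mem_singleton _))
    · exact hu.mem W fun g hg => hW hg
  · intro f hf
    refine Algebra.adjoin_induction (p := fun z _ => z ∈ c.toValuationSubring) ?_
      c.algebraMap_mem' (fun _ _ _ _ => add_mem) (fun _ _ _ _ => mul_mem) hf
    rintro z (rfl | rfl)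
    · exact hmem _ hxc
    · exact hmem _ huc
  · intro E _ _ r hr'
    refine eq_placeSpot hxc huc hxu r ?_ ?_
    · obtain ⟨h, he⟩ := hr' x (Algebra.subset_adjoin (by simp)) (hmem _ hxc)
      exact ⟨h, by rw [he, placeSpot_ρ_eq_zero _ (Or.inr hxc), map_zero]⟩
    · obtain ⟨h, he⟩ := hr' u (Algebra.subset_adjoin (by simp)) (hmem _ huc)
      exact ⟨h, by rw [he, placeSpot_ρ_eq_zero _ (Or.inr huc), map_zero]⟩

namespace IsConstExt

variable {K F L FL : Type u} [Field K] [Field F] [Field L] [Field FL] [Algebra K F] [Algebra K L]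
  [Algebra K FL] [Algebra F FL] [Algebra L FL] [IsScalarTower K F FL] [IsScalarTower K L FL]

open scoped TensorProduct

/-- The two factors may be exchanged. -/
theorem symm (h : IsConstExt K F L FL) : IsConstExt K L F FL where
  disjoint := by
    intro n l hl a ha
    have h0 : ∑ i, l i ⊗ₜ[K] a i = 0 := h.mulHom_injective (by
      rw [map_zero, map_sum, ← ha]
      exact Finset.sum_congr rfl fun i _ => by rw [mulHom_tmul]; exact mul_comm _ _)
    funext i
    by_contra hi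
    obtain ⟨φ, hφ⟩ := Module.Projective.exists_dual_ne_zero K hi
    refine hφ (Fintype.linearIndependent_iff.1 hl (fun j => φ (a j)) ?_ i)
    simpa [map_sum] using
      congrArg (TensorProduct.lift ((LinearMap.lsmul K L).flip.compl₂ φ)) h0
  exists_frac z := by
    have e : comb K L F FL ⊤ ⊤ = comb K F L FL ⊤ ⊤ := sup_comm _ _
    obtain ⟨u, hu, d, hd, hd0, he⟩ := h.exists_frac z
    exact ⟨u, e ▸ hu, d, e ▸ hd, hd0, he⟩

end IsConstExt

section Divisors

variable {L FL : Type u} [Field L] [Field FL] [Algebra Ω L] [Algebra Ω FL] [Algebra C FL]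
  [Algebra L FL] [IsScalarTower Ω C FL] [IsScalarTower Ω L FL]

/-- One equation for all specialisations with given restrictions to the two factors. -/
def HasEquations (C L : Type u) [Field C] [Algebra Ω C] [Field L] [Algebra Ω L] [Algebra C FL]
    [Algebra L FL] [IsScalarTower Ω C FL] [IsScalarTower Ω L FL] (d : vDiv Ω FL) : Prop :=
  ∀ (E : Type u) [Field E] [Algebra Ω E] (U : Spot Ω FL E), ∃ b : FLˣ, ∀ r : Spot Ω FL E,
    r.comp (Spot.ofHom (IsScalarTower.toAlgHom Ω C FL)) =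
      U.comp (Spot.ofHom (IsScalarTower.toAlgHom Ω C FL)) →
    r.comp (Spot.ofHom (IsScalarTower.toAlgHom Ω L FL)) =
      U.comp (Spot.ofHom (IsScalarTower.toAlgHom Ω L FL)) →
    b / d.1 r.kVal ∈ r.V.unitGroup

omit [IsAlgClosed Ω] [IsFF Ω C] in
theorem HasEquations.inv {d : vDiv Ω FL} (h : HasEquations C L d) : HasEquations C L d⁻¹ := by
  intro E _ _ U
  obtain ⟨b, hb⟩ := h E U
  refine ⟨b⁻¹, fun r h1 h2 => ?_⟩
  rw [Subgroup.coe_inv, Pi.inv_apply, inv_div_inv, ← inv_div]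
  exact inv_mem (hb r h1 h2)

variable [IsFF L FL] (hL : IsConstExt Ω C L FL)

/-- The valuation of a place of `FL`. -/
def placeVal (v : Place L FL) : KVal Ω FL :=
  ⟨v.toValuationSubring, fun a => by
    rw [IsScalarTower.algebraMap_apply Ω L FL]; exact v.algebraMap_mem' _⟩

omit [IsFF L FL] in
/-- Specialising the Gauss spot at a place does nothing to the functions regular there. -/
private theorem specialise_algebraMap_right (r : Spot Ω L Ω) (c : Place Ω C) {f : C}
    (hf : f ∈ c.toValuationSubring) :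
    ∃ h : algebraMap C FL f ∈ ((placeSpot c).comp (r.datum.gaussSpot hL IsConstExt.refl)).V,
      ((placeSpot c).comp (r.datum.gaussSpot hL IsConstExt.refl)).ρ ⟨_, h⟩ =
        (placeSpot c).ρ ⟨f, hf⟩ := by
  set R := r.datum
  set G := R.gaussSpot hL IsConstExt.refl
  have hr : G.ρ ⟨_, R.algebraMap_right_mem_gauss hL IsConstExt.refl f⟩ = f := by
    exact (R.red_algebraMap_right hL IsConstExt.refl f).trans rfl
  refine ⟨(Spot.mem_comp _ _).2 ⟨R.algebraMap_right_mem_gauss hL IsConstExt.refl f,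
    hr.symm ▸ hf⟩, ?_⟩
  exact congrArg (placeSpot c).ρ (Subtype.ext hr)

omit [IsFF L FL] in
/-- Specialising the Gauss spot at a place extends the spot of the constants. -/
private theorem specialise_algebraMap_left (r : Spot Ω L Ω) (c : Place Ω C) {l : L}
    (hl : l ∈ r.V) :
    ∃ h : algebraMap L FL l ∈ ((placeSpot c).comp (r.datum.gaussSpot hL IsConstExt.refl)).V,
      ((placeSpot c).comp (r.datum.gaussSpot hL IsConstExt.refl)).ρ ⟨_, h⟩ = r.ρ ⟨l, hl⟩ := by
  set R := r.datum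
  set G := R.gaussSpot hL IsConstExt.refl
  have hr : G.ρ ⟨_, R.algebraMap_mem_gauss hL IsConstExt.refl ⟨l, hl⟩⟩ =
      algebraMap Ω C (r.ρ ⟨l, hl⟩) := R.red_algebraMap_left hL IsConstExt.refl ⟨l, hl⟩
  refine ⟨(Spot.mem_comp _ _).2 ⟨R.algebraMap_mem_gauss hL IsConstExt.refl ⟨l, hl⟩,
    hr.symm ▸ (placeSpot c).isOver _⟩, ?_⟩
  exact (congrArg (placeSpot c).ρ (Subtype.ext hr)).trans ((placeSpot c).ρ_algebraMap _)

omit [Algebra C FL] [IsScalarTower Ω C FL] [IsFF L FL] in
/-- An equation at a specialisation reduces to one of the reduced divisor. -/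
private theorem ord_red_eq {G : Spot Ω FL C} {d : vDiv Ω FL} {b : FLˣ} {h : Cˣ} (c : Place Ω C)
    (hh : (G.res d).1 (placeSpot c).kVal / h ∈ c.toValuationSubring.unitGroup)
    (hbG : b / d.1 G.kVal ∈ G.V.unitGroup)
    (hbU : b / d.1 ((placeSpot c).comp G).kVal ∈ ((placeSpot c).comp G).V.unitGroup)
    (hm : ((b / d.1 G.kVal : FLˣ) : FL) ∈ G.V) : c.ord (G.ρ ⟨_, hm⟩) = c.ord (h : C) := by
  have h1 : G.unitRed ⟨_, hbG⟩ / h ∈ c.toValuationSubring.unitGroup := by
    rw [← div_mul_div_cancel (G.unitRed ⟨_, hbG⟩) ((G.res d).1 (placeSpot c).kVal) h]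
    refine mul_mem ?_ hh
    rw [Spot.coe_res_apply, Spot.resFun, ← map_div]
    refine G.unitRed_mem (placeSpot c).kVal _ ?_
    show b / d.1 G.kVal / (d.1 (G.pull (placeSpot c).kVal) / d.1 G.kVal) ∈ _
    rw [div_div_div_cancel_right]
    exact hbU
  rw [mem_unitGroup_place_iff, Units.val_div_eq_div_val,
    Curve.ord_div (Units.ne_zero _) h.ne_zero,
    G.coe_unitRed _ hm] at h1
  exact sub_eq_zero.1 h1

omit [IsAlgClosed Ω] [IsFF L FL] in
/-- An equation at a place has the order of the divisor. -/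
private theorem ord_eq_of_div_mem (v : Place L FL) {b e : FLˣ}
    (hbv : b / e ∈ (placeVal (Ω := Ω) v).1.unitGroup) : v.ord (b : FL) = v.ord (e : FL) := by
  have := (mem_unitGroup_iff' _ _).1 hbv
  rw [Units.val_div_eq_div_val, inv_div] at this
  have h4 := (Curve.mem_iff_ord_nonneg (v := v) (div_ne_zero b.ne_zero
    (Units.ne_zero e))).1 this.1
  have h5 := (Curve.mem_iff_ord_nonneg (v := v) (div_ne_zero
    (Units.ne_zero e) b.ne_zero)).1 this.2
  rw [Curve.ord_div b.ne_zero (Units.ne_zero _)] at h4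
  rw [Curve.ord_div (Units.ne_zero _) b.ne_zero] at h5
  omega

/-- A place whose specialisations restrict to `c` lies over `c`. -/
private theorem eq_of_ext_eq {c c' : Place Ω C} {v : Place L FL} {r' : Spot Ω FL Ω}
    (hC' : r'.comp (Spot.ofHom (IsScalarTower.toAlgHom Ω C FL)) =
      (Spot.ofHom (Algebra.ofId Ω Ω)).comp (placeSpot c))
    (hr' : r'.V ≤ v.toValuationSubring) (hc' : hL.ext c' = v) : c = c' :=
  eq_of_forall_ord_nonneg fun f hf0 hf => by
    rw [← hL.ord_ext_algebraMap c', hc']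
    have hfc : f ∈ c.toValuationSubring := (Curve.mem_iff_ord_nonneg hf0).2 hf
    have hm : f ∈ (r'.comp (Spot.ofHom (IsScalarTower.toAlgHom Ω C FL))).V := by
      rw [hC', Spot.mem_comp]
      exact ⟨hfc, Spot.mem_ofHom _ _⟩
    obtain ⟨hm₁, hm'⟩ := (Spot.mem_comp _ _).1 hm
    exact (Curve.mem_iff_ord_nonneg (v := v) ((_root_.map_ne_zero _).2 hf0)).1 (hr' hm')

/-- Spaces of a divisor reduce, at a rational valuation of `L`, into those of its restriction. -/
theorem reducesTo_of_hasEquations (r : Spot Ω L Ω) {d : vDiv Ω FL} {D : Divisor L FL}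
    (hDd : ∀ v, D v = v.ord (d.1 (placeVal v) : FL)) (hd : HasEquations C L d) {h : Cˣ}
    (hh : ∀ W : KVal Ω C, ((r.datum.gaussSpot hL IsConstExt.refl).res d).1 W / h ∈ W.1.unitGroup) :
    ReducesTo hL r.datum D (d.1 (r.datum.gaussSpot hL IsConstExt.refl).kVal : FL) (h : C) := by
  intro N φ hφ hg
  set R := r.datum
  set G := R.gaussSpot hL IsConstExt.refl
  set z : R.gauss hL IsConstExt.refl := ⟨φ * (d.1 G.kVal : FL), hg⟩
  by_cases hz : R.red hL IsConstExt.refl z = 0
  · rw [hz, zero_mul]; exact Submodule.zero_mem _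
  have hφ0 : φ ≠ 0 := fun e => hz (by
    have hz0 : z = 0 := Subtype.ext ((congrArg (· * (d.1 G.kVal : FL)) e).trans (zero_mul _))
    rw [hz0, map_zero])
  rw [mem_riemannRochSpace_iff_ne_zero (mul_ne_zero hz h.ne_zero)]
  intro c
  rw [Place.ord_mul _ hz h.ne_zero]
  obtain ⟨ν, hν0, hν⟩ := Curve.exists_ord_eq c (N c)
  obtain ⟨y, B, hy, hfin, hyB, hB, hBc, huniq⟩ := exists_coordRing c
  have := hfin
  set U : Spot Ω FL Ω := (placeSpot c).comp G
  have hUG : U.V ≤ G.V := G.pull_le _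
  have hCU : ∀ f (hf : f ∈ c.toValuationSubring), ∃ h : algebraMap C FL f ∈ U.V,
      U.ρ ⟨_, h⟩ = (placeSpot c).ρ ⟨f, hf⟩ := fun _ hf => specialise_algebraMap_right hL r c hf
  have hVU : ∀ (l : L) (hl : l ∈ r.V), ∃ h : algebraMap L FL l ∈ U.V,
      U.ρ ⟨_, h⟩ = r.ρ ⟨l, hl⟩ := fun _ hl => specialise_algebraMap_left hL r c hl
  have hAU : (comb Ω C L FL R.alg B : Set FL) ⊆ U.V := by
    intro a ha
    obtain ⟨n, l, f, hl, hf, rfl⟩ := exists_rep ha
    exact sum_mem fun i _ => mul_mem (hVU _ (hl i)).choose (hCU _ (hBc _ (hf i))).choose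
  have hUV : ∀ l : L, algebraMap L FL l ∈ U.V → l ∈ R.V := fun l hl =>
    (R.algebraMap_mem_gauss_iff hL IsConstExt.refl).1 (hUG hl)
  obtain ⟨b, hb⟩ := hd Ω U
  have hbU : b / d.1 U.kVal ∈ U.V.unitGroup := hb U rfl rfl
  have hbG : b / d.1 G.kVal ∈ G.V.unitGroup := div_mem_unitGroup_of_le d (V' := G.kVal) hUG hbU
  have hfmem := (mem_unitGroup_iff' _ _).1 hbG
  -- the equation reduces to one of `div h`
  have hord : c.ord (G.ρ ⟨_, hfmem.1⟩) = c.ord (h : C) :=
    ord_red_eq (G := G) c (hh (placeSpot c).kVal) hbG hbU hfmem.1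
  set ψ : FL := φ * (b : FL) * algebraMap C FL ν
  have hψe : ψ = φ * (d.1 G.kVal : FL) * ((b / d.1 G.kVal : FLˣ) : FL) * algebraMap C FL ν := by
    rw [Units.val_div_eq_div_val, mul_assoc φ, mul_div_cancel₀ _ (Units.ne_zero _)]
  have hψG : ψ ∈ R.gauss hL IsConstExt.refl := by
    rw [hψe]
    exact mul_mem (mul_mem hg hfmem.1) (R.algebraMap_right_mem_gauss hL IsConstExt.refl ν)
  have hψ : ψ ∈ U.V := by
    refine R.mem_of_generisations hL IsConstExt.refl y hy hyB hB hAU hψG fun W' h1 h2 h3 => ?_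
    by_cases hW : W' = ⊤
    · rw [hW]; trivial
    have := hL.isFF
    set v := placeOfValuationSubring (K := L) W' h1 hW
    obtain ⟨r', hr', hρ⟩ := R.exists_spot_generalisation U hAU (placeVal v) h2 h3
    have hC' : r'.comp (Spot.ofHom (IsScalarTower.toAlgHom Ω C FL)) =
        (Spot.ofHom (Algebra.ofId Ω Ω)).comp (placeSpot c) := by
      refine huniq Ω _ fun f hf hfc => ?_
      obtain ⟨h', he⟩ := hρ _ (algebraMap_right_mem_comb (A := R.alg) hf)
      refine ⟨(Spot.mem_comp _ _).2 ⟨Spot.mem_ofHom _ f, h'⟩, ?_⟩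
      exact he.trans (hCU f hfc).choose_spec
    have hUC : U.comp (Spot.ofHom (IsScalarTower.toAlgHom Ω C FL)) =
        (Spot.ofHom (Algebra.ofId Ω Ω)).comp (placeSpot c) := by
      refine Spot.eq_of_le fun f hf => ?_
      obtain ⟨hfc, -⟩ := (Spot.mem_comp _ _).1 hf
      obtain ⟨hm, he⟩ := hCU f hfc
      exact ⟨(Spot.mem_comp _ _).2 ⟨Spot.mem_ofHom _ f, hm⟩, he⟩
    have hrL : r'.comp (Spot.ofHom (IsScalarTower.toAlgHom Ω L FL)) =
        U.comp (Spot.ofHom (IsScalarTower.toAlgHom Ω L FL)) := by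
      rw [Spot.comp_ofHom_eq U _ r hVU, Spot.comp_ofHom_eq r' _ r fun l hl => ?_]
      obtain ⟨h', he⟩ := hρ _ (algebraMap_left_mem_comb (S := B) (show l ∈ R.alg from hl))
      exact ⟨h', he.trans (hVU l hl).choose_spec⟩
    have hbv := div_mem_unitGroup_of_le d (V := r'.kVal) (V' := placeVal v) hr'
      (hb r' (hC'.trans hUC.symm) hrL)
    have hbord : v.ord (b : FL) = D v := (ord_eq_of_div_mem v hbv).trans (hDd v).symm
    show ψ ∈ v.toValuationSubring
    have hνF : algebraMap C FL ν ≠ 0 := (_root_.map_ne_zero _).2 hν0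
    rw [Curve.mem_iff_ord_nonneg (mul_ne_zero (mul_ne_zero hφ0 b.ne_zero) hνF),
      Place.ord_mul _ (mul_ne_zero hφ0 b.ne_zero) hνF, Place.ord_mul _ hφ0 b.ne_zero, hbord]
    have hsp := (mem_riemannRochSpace_iff_ne_zero hφ0).1 hφ v
    rw [Finsupp.add_apply] at hsp
    by_cases hv : v ∈ Set.range hL.ext
    · obtain ⟨c', hc'⟩ := hv
      obtain rfl : c = c' := eq_of_ext_eq hL hC' hr' hc'
      rw [← hc', hL.ord_ext_algebraMap, hν]
      rw [← hc', hL.extDiv_apply_ext] at hsp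
      omega
    · rw [hL.ord_algebraMap_eq_zero hν0 hv]
      rw [hL.extDiv_apply_notMem _ hv] at hsp
      omega
  -- read off at `c`
  obtain ⟨hψG', hψc⟩ := (Spot.mem_comp _ _).1 hψ
  have hredψ : G.ρ ⟨ψ, hψG'⟩ = R.red hL IsConstExt.refl z * G.ρ ⟨_, hfmem.1⟩ * ν := by
    rw [show (⟨ψ, hψG'⟩ : G.V) =
      (⟨φ * (d.1 G.kVal : FL), hg⟩ : G.V) * ⟨_, hfmem.1⟩ *
        ⟨_, R.algebraMap_right_mem_gauss hL IsConstExt.refl ν⟩ from Subtype.ext hψe, map_mul,
      map_mul]
    congr 1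
    exact R.red_algebraMap_right hL IsConstExt.refl ν
  have hf0 : G.ρ ⟨_, hfmem.1⟩ ≠ 0 := G.ρ_ne_zero_of_inv_mem hfmem.1 (Units.ne_zero _) hfmem.2
  have h6 := (Curve.mem_iff_ord_nonneg (v := c) (mul_ne_zero (mul_ne_zero hz hf0) hν0)).1
    (hredψ ▸ hψc)
  rw [Place.ord_mul _ (mul_ne_zero hz hf0) hν0, Place.ord_mul _ hz hf0, hord, hν] at h6
  omega

end Divisors

end FermatAgent.AV
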