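import Fermat.Agent.AV.Curve.Reduce

/-!
# Divisors local on a curve times a variety

A divisor on a constant extension `FL` of the curve `C` by `L`, local at the two factors and
trivial on `C` at enough rational places of `L`, is principal on the valuations containing `L`; its
restrictions at two places of the curve then agree up to one function.
-/

set_option autoImplicit false

noncomputable section

universe u

open AlgebraicCurve
open FermatAgent.Curve

namespace FermatAgent.AV

variable {Ω : Type u} [Field Ω] [IsAlgClosed Ω] {C : Type u} [Field C] [Algebra Ω C] [IsFF Ω C]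
  {L FL : Type u} [Field L] [Field FL] [Algebra Ω L] [Algebra Ω FL] [Algebra C FL]
  [Algebra L FL] [IsScalarTower Ω C FL] [IsScalarTower Ω L FL]
  (hL : IsConstExt Ω C L FL)

/-- The spot of `FL` over a place of the curve. -/
def placeGauss (c : Place Ω C) : Spot Ω FL L :=
  (placeSpot c).datum.gaussSpot hL.symm IsConstExt.refl

theorem placeGauss_right (c : Place Ω C) (l : L) :
    ∃ h : algebraMap L FL l ∈ (placeGauss hL c).V, (placeGauss hL c).ρ ⟨_, h⟩ = l :=
  ⟨(placeSpot c).datum.algebraMap_right_mem_gauss hL.symm IsConstExt.refl l,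
    ((placeSpot c).datum.red_algebraMap_right hL.symm IsConstExt.refl l).trans rfl⟩

theorem placeGauss_left (c : Place Ω C) {f : C} (hf : f ∈ c.toValuationSubring) :
    ∃ h : algebraMap C FL f ∈ (placeGauss hL c).V,
      (placeGauss hL c).ρ ⟨_, h⟩ = algebraMap Ω L ((placeSpot c).ρ ⟨f, hf⟩) :=
  ⟨(placeSpot c).datum.algebraMap_mem_gauss hL.symm IsConstExt.refl ⟨f, hf⟩,
    (placeSpot c).datum.red_algebraMap_left hL.symm IsConstExt.refl ⟨f, hf⟩⟩

variable [IsFF L FL]

/-- Finite supports along finitely many values give a finite support. -/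
theorem finite_ne_of_range {X Y M : Type*} [Zero M] (g : X → Y) (f : X → Y → M)
    (hg : (Set.range g).Finite) (hf : ∀ y, {x | f x y ≠ 0}.Finite) :
    {x | f x (g x) ≠ 0}.Finite :=
  (hg.biUnion fun y _ => hf y).subset fun x hx => Set.mem_biUnion ⟨x, rfl⟩ hx

omit [IsAlgClosed Ω] in
theorem exists_divisor (d : vDiv Ω FL) (hfin : (Set.range d.1).Finite) :
    ∃ D : Divisor L FL, ∀ v, D v = v.ord (d.1 (placeVal v) : FL) :=
  ⟨Finsupp.ofSupportFinite (fun v => v.ord (d.1 (placeVal v) : FL))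
    (finite_ne_of_range (fun v : Place L FL => d.1 (placeVal v)) (fun v (x : FLˣ) => v.ord (x : FL))
      (hfin.subset (Set.range_comp_subset_range _ d.1))
      fun x => Curve.finite_ord_ne_zero (x : FL)),
    fun v => congrFun Finsupp.ofSupportFinite_coe v⟩

/-- Both a divisor and its inverse reduce at a place where the restriction is principal. -/
theorem exists_reducesTo (r : Spot Ω L Ω) {d : vDiv Ω FL} {D : Divisor L FL}
    (hDd : ∀ v, D v = v.ord (d.1 (placeVal v) : FL)) (hd : HasEquations C L d)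
    (hprin : IsPrin ((r.datum.gaussSpot hL IsConstExt.refl).res d)) :
    ∃ (e : FL) (h : C), e ≠ 0 ∧ h ≠ 0 ∧ ReducesTo hL r.datum D e h ∧
      ReducesTo hL r.datum (-D) e⁻¹ h⁻¹ := by
  obtain ⟨h, hh⟩ := hprin
  refine ⟨_, _, Units.ne_zero _, Units.ne_zero _, reducesTo_of_hasEquations hL r hDd hd hh, ?_⟩
  have h2 := reducesTo_of_hasEquations (D := -D) hL r (d := d⁻¹) (h := h⁻¹) (fun v => ?_) hd.inv
    fun W => ?_
  · rwa [Subgroup.coe_inv, Pi.inv_apply, Units.val_inv_eq_inv_val, Units.val_inv_eq_inv_val] at h2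
  · rw [Finsupp.neg_apply, hDd, Subgroup.coe_inv, Pi.inv_apply, Units.val_inv_eq_inv_val,
      Place.ord_inv]
  · rw [map_inv, Subgroup.coe_inv, Pi.inv_apply, inv_div_inv, ← inv_div]
    exact inv_mem (hh W)

/-- **Principality on the valuations containing `L`**: a divisor on `FL` with local equations in
terms of `C` and `L`, whose restrictions to `C` are principal at rational places of `L` at all of
which only constants are regular, agrees with the divisor of one function at those valuations. -/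
theorem exists_principal (S : Set (Spot Ω L Ω)) (hne : S.Nonempty)
    (H : ∀ z : L, (∀ r ∈ S, z ∈ r.V) → ∃ a : Ω, algebraMap Ω L a = z)
    {d : vDiv Ω FL} (hfin : (Set.range d.1).Finite) (hd : HasEquations C L d)
    (hprin : ∀ r ∈ S, IsPrin ((r.datum.gaussSpot hL IsConstExt.refl).res d)) :
    ∃ u : FLˣ, IsEquationOver L d u := by
  obtain ⟨D, hD⟩ := exists_divisor (L := L) d hfin
  obtain ⟨u, hu0, hu⟩ := isPrincipal_of_reducesTo hL (Spot.datum '' S) (hne.image _)
    (fun z hz => H z fun r hr => hz r.datum ⟨r, hr, rfl⟩)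
    (D := D) (by
      rintro _ ⟨r, hr, rfl⟩
      exact exists_reducesTo hL r hD hd (hprin r hr))
  refine ⟨Units.mk0 u hu0, fun W hW => ?_⟩
  by_cases htop : W.1 = ⊤
  · rw [mem_unitGroup_iff', htop]
    exact ⟨trivial, trivial⟩
  set v : Place L FL := placeOfValuationSubring (K := L) W.1 hW htop
  have hv : placeVal v = W := Subtype.ext rfl
  have e : v.ord ((d.1 W / Units.mk0 u hu0 : FLˣ) : FL) = 0 := by
    rw [Units.val_div_eq_div_val, Curve.ord_div (Units.ne_zero _) (Units.ne_zero _)]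
    have h1 := hD v
    rw [hu, divisorOf_apply, hv] at h1
    rw [Units.val_mk0, ← h1, sub_self]
  rw [mem_unitGroup_iff']
  exact ⟨(Curve.mem_iff_ord_nonneg (v := v) (Units.ne_zero _)).2 e.ge,
    (Curve.mem_iff_ord_nonneg (v := v) (inv_ne_zero (Units.ne_zero _))).2
      (by rw [Place.ord_inv, e, neg_zero])⟩

omit [IsFF L FL] in
/-- The divisor at the spots over the places of the curve. -/
theorem exists_scalar_places {d : vDiv Ω FL} (hd : HasEquations C L d) {u : FLˣ}
    (hu : IsEquationOver L d u)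
    (W : KVal Ω L) : ∃ l : Lˣ, ∀ c : Place Ω C,
      d.1 ((placeGauss hL c).pull W) / (u * Units.map (algebraMap L FL : L →* FL) l) ∈
        ((placeGauss hL c).pull W).1.unitGroup := by
  obtain ⟨κ, _, _, q, hq⟩ := exists_residueSpot W
  let E := AlgebraicClosure κ
  let q' : Spot Ω L E := (Spot.ofHom (IsScalarTower.toAlgHom Ω κ E)).comp q
  have hq' : q'.kVal = W := Subtype.ext ((Spot.ofHom_comp _ q).1.trans hq)
  let hk := CExt.isConstExt Ω C E
  obtain ⟨l, hl⟩ := q'.datum.exists_gauss_scalar hL hk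
    (d.1 (q'.datum.gaussSpot hL hk).kVal / u)
  rw [div_div] at hl
  refine ⟨l, fun c => ?_⟩
  obtain ⟨y, B, hy, hfin, hyB, hB, hBc, huniq⟩ := exists_coordRing c
  have := hfin
  set U : Spot Ω FL E := q'.comp (placeGauss hL c)
  have hP : (placeGauss hL c).pull W = U.kVal := by rw [← hq']; rfl
  have hCU : ∀ f (hf : f ∈ c.toValuationSubring), ∃ h : algebraMap C FL f ∈ U.V,
      U.ρ ⟨_, h⟩ = algebraMap Ω E ((placeSpot c).ρ ⟨f, hf⟩) := by
    intro f hf
    obtain ⟨hm, he⟩ := placeGauss_left hL c hf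
    have hmem : algebraMap C FL f ∈ U.V :=
      (Spot.mem_comp _ _).2 ⟨hm, he.symm ▸ q'.isOver _⟩
    exact ⟨hmem, (congrArg q'.ρ (Subtype.ext he)).trans (q'.ρ_algebraMap _)⟩
  have hLU : ∀ (z : L) (hz : z ∈ q'.V), ∃ h : algebraMap L FL z ∈ U.V,
      U.ρ ⟨_, h⟩ = q'.ρ ⟨z, hz⟩ := by
    intro z hz
    obtain ⟨hm, he⟩ := placeGauss_right hL c z
    exact ⟨(Spot.mem_comp _ _).2 ⟨hm, he.symm ▸ hz⟩, congrArg q'.ρ (Subtype.ext he)⟩
  have hAU : (comb Ω C L FL q'.datum.alg B : Set FL) ⊆ U.V := by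
    intro a ha
    obtain ⟨n, z, f, hz, hf, rfl⟩ := exists_rep ha
    exact sum_mem fun i _ => mul_mem (hLU _ (hz i)).choose (hCU _ (hBc _ (hf i))).choose
  have hUV : ∀ z : L, algebraMap L FL z ∈ U.V → z ∈ q'.datum.V := fun z hz => by
    obtain ⟨hm, he⟩ := placeGauss_right hL c z
    obtain ⟨hm', hz'⟩ := (Spot.mem_comp _ _).1 hz
    exact he ▸ hz'
  obtain ⟨b, hb⟩ := hd E U
  have key := q'.datum.div_mem_unitGroup_of_local hL hk U hy hyB hB d u l hAU hUV
    ⟨b, fun r hr => ?_⟩ hu hl
  · rw [hP]; exact key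
  refine hb r ?_ ?_
  · have huniqU : ∀ s : Spot Ω FL E, (∀ f (hf : f ∈ B) (hfc : f ∈ c.toValuationSubring),
        ∃ h : algebraMap C FL f ∈ s.V, s.ρ ⟨_, h⟩ = algebraMap Ω E ((placeSpot c).ρ ⟨f, hfc⟩)) →
        s.comp (Spot.ofHom (IsScalarTower.toAlgHom Ω C FL)) =
          (Spot.ofHom (Algebra.ofId Ω E)).comp (placeSpot c) := fun s hs => by
      refine huniq E _ fun f hf hfc => ?_
      obtain ⟨h, he⟩ := hs f hf hfc
      exact ⟨(Spot.mem_comp _ _).2 ⟨Spot.mem_ofHom _ f, h⟩, he⟩
    rw [huniqU U fun f _ hfc => hCU f hfc, huniqU r fun f hf hfc => ?_]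
    obtain ⟨h, he⟩ := hr _ (algebraMap_right_mem_comb (A := q'.datum.alg) hf)
    exact ⟨h, he.trans (hCU f hfc).choose_spec⟩
  · rw [Spot.comp_ofHom_eq U _ q' hLU, Spot.comp_ofHom_eq r _ q' fun z hz => ?_]
    obtain ⟨h, he⟩ := hr _ (algebraMap_left_mem_comb (S := B) (show z ∈ q'.datum.alg from hz))
    exact ⟨h, he.trans (hLU z hz).choose_spec⟩

omit [IsFF L FL] in
/-- The restrictions at two places differ by a function on the valuations containing `Ω`. -/
theorem exists_ratio {d : vDiv Ω FL} (hd : HasEquations C L d) {u : FLˣ}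
    (hu : IsEquationOver L d u)
    (c₁ c₂ : Place Ω C) : ∃ h : Lˣ, ∀ W : KVal Ω L,
      ((placeGauss hL c₁).res d).1 W / ((placeGauss hL c₂).res d).1 W / h ∈ W.1.unitGroup := by
  have hlu : ∀ (c : Place Ω C) (l : Lˣ),
      Units.map (algebraMap L FL : L →* FL) l ∈ (placeGauss hL c).V.unitGroup := fun c l => by
    rw [mem_unitGroup_iff']
    exact ⟨(placeGauss_right hL c (l : L)).choose, by
      show (algebraMap L FL (l : L))⁻¹ ∈ _
      rw [← map_inv₀]; exact (placeGauss_right hL c _).choose⟩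
  have hred : ∀ (c : Place Ω C) (l : Lˣ),
      (placeGauss hL c).unitRed ⟨_, hlu c l⟩ = l := fun c l => Units.ext (by
    obtain ⟨hm, he⟩ := placeGauss_right hL c (l : L)
    exact ((placeGauss hL c).coe_unitRed ⟨_, hlu c l⟩ hm).trans he)
  have hbase : ∀ c : Place Ω C,
      u / d.1 (placeGauss hL c).kVal ∈ (placeGauss hL c).V.unitGroup := fun c => by
    obtain ⟨l, hl⟩ := exists_scalar_places hL hd hu topVal
    have h1 := ValuationSubring.unitGroup_le_unitGroup.2 ((placeGauss hL c).pull_le topVal) (hl c)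
    have h2 := d.2 _ (placeGauss hL c).kVal ((placeGauss hL c).pull_le topVal)
    have h3 := div_mem (div_mem h2 h1) (hlu c l)
    rwa [div_div_div_cancel_left, div_div, mul_comm (d.1 _), ← div_div, mul_div_assoc,
      div_self', mul_one] at h3
  refine ⟨(placeGauss hL c₁).unitRed ⟨_, hbase c₁⟩ / (placeGauss hL c₂).unitRed ⟨_, hbase c₂⟩,
    fun W => ?_⟩
  obtain ⟨l, hl⟩ := exists_scalar_places hL hd hu W
  have hmem : ∀ c : Place Ω C, ((placeGauss hL c).res d).1 W /
      ((placeGauss hL c).unitRed ⟨_, hbase c⟩ * l) ∈ W.1.unitGroup := fun c => by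
    rw [← hred c l, Spot.coe_res_apply, Spot.resFun, ← map_mul, ← map_div]
    refine (placeGauss hL c).unitRed_mem W _ ?_
    show d.1 ((placeGauss hL c).pull W) / d.1 (placeGauss hL c).kVal /
      (u / d.1 (placeGauss hL c).kVal * Units.map (algebraMap L FL : L →* FL) l) ∈ _
    rw [div_mul_eq_mul_div, div_div_div_cancel_right]
    exact hl c
  have h4 := div_mem (hmem c₁) (hmem c₂)
  rwa [div_div_div_comm, mul_div_mul_right_eq_div] at h4

end FermatAgent.AV
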